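import Mathlib

/-!
# Ihara avoidance: the core commutative algebra lemma

Let `S → D` be a finite injective extension of noetherian domains, `D` local, `ϖ` a prime element
of `S`.  Suppose `D` contains elements `b, c, a` (coordinates of a tame generator `Σ`) and
`y, z, β` (coordinates of a Frobenius lift `Φ`), with `Σ` and `Φ` commuting and with
`a ^ 2 + 4 b c = δ`, `δ` a divisor of a power of `ϖ`.  If the dimension of `S` is
at least `4 + #E` where `ϖ, b, c, a, y, z, β, E` is a system of parameters (in the weak sense),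
then there is a prime of `D` above `(ϖ)` containing `b, c, a`.
-/

set_option autoImplicit false

namespace Fermat.Agent.IH

open Ideal IsLocalRing

/-- The dimension does not drop along an injective integral extension. -/
theorem ringKrullDim_le_of_integral {S D : Type*} [CommRing S] [CommRing D] [Algebra S D]
    [Algebra.IsIntegral S D] (hinj : Function.Injective (algebraMap S D)) :
    ringKrullDim S ≤ ringKrullDim D := by
  rw [ringKrullDim, Order.krullDim, iSup_le_iff]
  intro l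
  have hker : (⊥ : Ideal D).comap (algebraMap S D) ≤ l.head.asIdeal := by
    intro x hx
    rw [Ideal.mem_comap, Ideal.mem_bot] at hx
    rw [(injective_iff_map_eq_zero _).mp hinj x hx]
    exact zero_mem _
  obtain ⟨P, -, hP, hP'⟩ := exists_ideal_over_prime_of_isIntegral l.head.asIdeal (⊥ : Ideal D) hker
  have : P.LiesOver l.head.asIdeal := ⟨hP'.symm⟩
  obtain ⟨L, hL, -, -⟩ := Ideal.exists_ltSeries_of_hasGoingUp l P
  rw [← hL]
  exact le_iSup (fun p : LTSeries (PrimeSpectrum D) => (p.length : WithBot ℕ∞)) L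

/-- A finite torsion-free module over a domain satisfies a weak form of "`ϖ, h` is a regular
sequence", uniformly. -/
theorem exists_multiplier {S M : Type*} [CommRing S] [IsDomain S] [AddCommGroup M] [Module S M]
    [Module.Finite S M] (ϖ : S) (hϖ : Prime ϖ) :
    ∃ s : S, s ≠ 0 ∧ ∀ (j : ℕ) (h : S) (d d' : M), ¬ ϖ ∣ h → h • d = ϖ ^ j • d' →
      ∃ d'' : M, s • d = ϖ ^ j • d'' := by
  classical
  obtain ⟨n, v, hv⟩ := Module.Finite.exists_fin (R := S) (M := M)
  obtain ⟨I, hI, hI'⟩ := exists_maximal_linearIndepOn S v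
  have hex : ∀ i : Fin n, ∃ a : S, a ≠ 0 ∧ a • v i ∈ Submodule.span S (v '' I) := by
    intro i
    by_cases hi : i ∈ I
    · exact ⟨1, one_ne_zero, by
        rw [one_smul]; exact Submodule.subset_span (Set.mem_image_of_mem _ hi)⟩
    · exact hI' i hi
  choose A hA0 hA using hex
  set N : Submodule S M := Submodule.span S (v '' I) with hN
  refine ⟨∏ i, A i, Finset.prod_ne_zero_iff.mpr fun i _ => hA0 i, ?_⟩
  set s := ∏ i, A i with hs
  have hsN : ∀ d : M, s • d ∈ N := by
    intro d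
    have hd : d ∈ Submodule.span S (Set.range v) := by rw [hv]; trivial
    refine Submodule.span_induction (p := fun x _ => s • x ∈ N) ?_ ?_ ?_ ?_ hd
    · rintro _ ⟨i, rfl⟩
      have : s = (∏ j ∈ Finset.univ.erase i, A j) * A i := by
        rw [hs, Finset.prod_erase_mul _ _ (Finset.mem_univ i)]
      rw [this, mul_smul]
      exact N.smul_mem _ (hA i)
    · rw [smul_zero]; exact N.zero_mem
    · intro x y _ _ hx hy
      rw [smul_add]; exact N.add_mem hx hy
    · intro t x _ hx
      rw [smul_comm]; exact N.smul_mem _ hx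
  have hli : LinearIndependent S (fun i : I => v i) := hI
  have hrange : Set.range (fun i : I => v i) = v '' I := by
    rw [Set.image_eq_range]
  intro j h d d' hh hd
  let B : Module.Basis I S (Submodule.span S (Set.range (fun i : I => v i))) :=
    Module.Basis.span hli
  have hspan : Submodule.span S (Set.range (fun i : I => v i)) = N := by rw [hrange]
  have hmem : ∀ x : M, s • x ∈ Submodule.span S (Set.range (fun i : I => v i)) := by
    intro x; rw [hspan]; exact hsN x
  have key : h • (⟨s • d, hmem d⟩ : Submodule.span S (Set.range (fun i : I => v i))) =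
      ϖ ^ j • ⟨s • d', hmem d'⟩ := by
    apply Subtype.ext
    change h • s • d = ϖ ^ j • s • d'
    rw [smul_comm, hd, smul_comm]
  have hdvd : ∀ i : I, ϖ ^ j ∣ B.repr ⟨s • d, hmem d⟩ i := by
    intro i
    have h1 := congrArg (fun x => B.repr x i) key
    simp only [map_smul, Finsupp.smul_apply, smul_eq_mul] at h1
    have h2 : ϖ ^ j ∣ h * B.repr ⟨s • d, hmem d⟩ i := ⟨_, h1⟩
    exact hϖ.pow_dvd_of_dvd_mul_left j hh h2
  choose Y hY using hdvd
  let n' : Submodule.span S (Set.range (fun i : I => v i)) :=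
    B.repr.symm (Finsupp.equivFunOnFinite.symm Y)
  refine ⟨n', ?_⟩
  have : (⟨s • d, hmem d⟩ : Submodule.span S (Set.range (fun i : I => v i))) = ϖ ^ j • n' := by
    apply B.repr.injective
    ext i
    rw [map_smul, Finsupp.smul_apply, smul_eq_mul, hY i]
    simp [n']
  exact congrArg Subtype.val this

/-- Chain condition for a sequence in a noetherian ring. -/
theorem exists_mem_span_lt {D : Type*} [CommRing D] [IsNoetherianRing D] (w : ℕ → D) :
    ∃ M : ℕ, w M ∈ span (w '' {i | i < M}) := by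
  let f : ℕ →o Ideal D :=
    ⟨fun m => span (w '' {i | i < m}), fun m n hmn => span_mono (Set.image_mono fun i hi =>
      lt_of_lt_of_le hi hmn)⟩
  obtain ⟨n, hn⟩ := monotone_stabilizes_iff_noetherian.mpr (inferInstance : IsNoetherian D D) f
  refine ⟨n, ?_⟩
  have h1 : w n ∈ f (n + 1) := subset_span ⟨n, Nat.lt_succ_self n, rfl⟩
  rw [← hn (n + 1) (Nat.le_succ n)] at h1
  exact h1

/-- If `b ^ m * w m = s * y ^ m` for all `m` then a power of `y` is a multiple of `b`. -/
theorem exists_pow_mem {D : Type*} [CommRing D] [IsDomain D] [IsNoetherianRing D] (b y s : D)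
    (hs : s ≠ 0) (w : ℕ → D) (hw : ∀ m, b ^ m * w m = s * y ^ m) :
    ∃ M : ℕ, b ∣ y ^ M := by
  obtain ⟨M, hM⟩ := exists_mem_span_lt w
  refine ⟨M, ?_⟩
  have key : ∀ x ∈ span (w '' {i | i < M}), s * b ∣ b ^ M * x := by
    intro x hx
    refine Submodule.span_induction (p := fun x _ => s * b ∣ b ^ M * x) ?_ ?_ ?_ ?_ hx
    · rintro _ ⟨i, hi, rfl⟩
      have hi' : i < M := hi
      obtain ⟨k, rfl⟩ : ∃ k, M = i + 1 + k := ⟨M - (i + 1), by omega⟩
      refine ⟨b ^ k * y ^ i, ?_⟩
      calc b ^ (i + 1 + k) * w i = b ^ (k + 1) * (b ^ i * w i) := by ring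
        _ = s * b * (b ^ k * y ^ i) := by rw [hw]; ring
    · rw [mul_zero]; exact dvd_zero _
    · intro x y _ _ hx hy
      rw [mul_add]; exact dvd_add hx hy
    · intro t x _ hx
      rw [smul_eq_mul, mul_left_comm]; exact Dvd.dvd.mul_left hx t
  have h1 := key _ hM
  rw [hw M] at h1
  exact (mul_dvd_mul_iff_left hs).mp h1

theorem core {S D : Type*} [CommRing S] [IsDomain S] [IsNoetherianRing S] [CommRing D]
    [IsDomain D] [IsLocalRing D] [Algebra S D] [Module.Finite S D]
    (hinj : Function.Injective (algebraMap S D)) (ϖ : S) (hϖ : Prime ϖ) (δ : S) (e : ℕ)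
    (hδ : δ ∣ ϖ ^ e) (b c a y z β : D) (r1 : b * z = c * y) (r2 : b * β = a * y)
    (r3 : c * β = a * z) (r4 : a ^ 2 + 4 * b * c = algebraMap S D δ) (E : Finset D)
    (hb : b ∈ maximalIdeal D) (hc : c ∈ maximalIdeal D) (ha : a ∈ maximalIdeal D)
    (hE : ∀ x ∈ E, x ∈ maximalIdeal D)
    (hmax : ∀ 𝔓 : Ideal D, 𝔓.IsPrime → algebraMap S D ϖ ∈ 𝔓 → b ∈ 𝔓 → c ∈ 𝔓 → a ∈ 𝔓 →
      y ∈ 𝔓 → z ∈ 𝔓 → β ∈ 𝔓 → (∀ x ∈ E, x ∈ 𝔓) → 𝔓 = maximalIdeal D)
    (hdim : ((E.card + 3 : ℕ) : WithBot ℕ∞) < ringKrullDim S) :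
    ∃ 𝔮 : Ideal D, 𝔮.IsPrime ∧ 𝔮.comap (algebraMap S D) = span {ϖ} ∧ b ∈ 𝔮 ∧ c ∈ 𝔮 ∧ a ∈ 𝔮 := by
  classical
  by_contra hcon
  have hND : IsNoetherianRing D := IsNoetherianRing.of_finite S D
  have hϖ0 : algebraMap S D ϖ ≠ 0 := fun h0 => hϖ.ne_zero (hinj (by rw [h0, map_zero]))
  obtain ⟨δ', hδ'⟩ := hδ
  -- Step 1
  obtain ⟨h, hh, hmem⟩ : ∃ h : S, ¬ ϖ ∣ h ∧ algebraMap S D h ∈ span {b, c, a} := by
    by_contra hno
    push Not at hno
    have hprime : (span {ϖ} : Ideal S).IsPrime := (span_singleton_prime hϖ.ne_zero).mpr hϖ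
    let MM : Submonoid D := (span {ϖ} : Ideal S).primeCompl.map (algebraMap S D)
    have hdisj : Disjoint ((span {b, c, a} : Ideal D) : Set D) (MM : Set D) := by
      rw [Set.disjoint_left]
      rintro x hx ⟨s, hs, rfl⟩
      exact hno s (fun hd => hs (Ideal.mem_span_singleton.mpr hd)) hx
    obtain ⟨𝔮, h𝔮, hle, hdis⟩ := Ideal.exists_le_prime_disjoint _ _ hdisj
    have hb𝔮 : b ∈ 𝔮 := hle (subset_span (by simp))
    have hc𝔮 : c ∈ 𝔮 := hle (subset_span (by simp))
    have ha𝔮 : a ∈ 𝔮 := hle (subset_span (by simp))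
    apply hcon
    refine ⟨𝔮, h𝔮, le_antisymm ?_ ?_, hb𝔮, hc𝔮, ha𝔮⟩
    · intro s hs
      by_contra hs'
      exact Set.disjoint_left.mp hdis (Ideal.mem_comap.mp hs) ⟨s, hs', rfl⟩
    · rw [span_singleton_le_iff_mem, Ideal.mem_comap]
      apply h𝔮.mem_of_pow_mem e
      rw [← map_pow, hδ', map_mul, ← r4]
      apply Ideal.mul_mem_right
      exact add_mem (Ideal.pow_mem_of_mem _ ha𝔮 2 (by norm_num)) (Ideal.mul_mem_left _ _ hc𝔮)
  -- Step 2
  obtain ⟨u, v, w, huvw⟩ : ∃ u v w : D, u * b + v * c + w * a = algebraMap S D h := by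
    rw [Ideal.mem_span_insert] at hmem
    obtain ⟨u, x, hx, hux⟩ := hmem
    obtain ⟨v, w, hvw⟩ := Ideal.mem_span_pair.mp hx
    exact ⟨u, v, w, by rw [hux, ← hvw]; ring⟩
  set τ := u * y + v * z + w * β with hτ
  set τ'' := algebraMap S D δ' * (a * β + 4 * b * z) with hτ''
  have hpe : algebraMap S D ϖ ^ e = algebraMap S D δ * algebraMap S D δ' := by
    rw [← map_pow, hδ', map_mul]
  have hy'' : algebraMap S D ϖ ^ e * y = b * τ'' := by
    rw [hpe, ← r4, hτ'']
    linear_combination (-(algebraMap S D δ') * a) * r2 - 4 * b * (algebraMap S D δ') * r1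
  have hz'' : algebraMap S D ϖ ^ e * z = c * τ'' := by
    rw [hpe, ← r4, hτ'']
    linear_combination (-(algebraMap S D δ') * a) * r3
  have hβ'' : algebraMap S D ϖ ^ e * β = a * τ'' := by
    rw [hpe, ← r4, hτ'']
    linear_combination (4 * b * (algebraMap S D δ')) * r3
  have hττ : algebraMap S D h * τ'' = algebraMap S D ϖ ^ e * τ := by
    rw [← huvw, hτ]
    linear_combination (-u) * hy'' - v * hz'' - w * hβ''
  -- Step 4
  obtain ⟨s, hs0, hs⟩ := exists_multiplier (S := S) (M := D) ϖ hϖ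
  have hsD : algebraMap S D s ≠ 0 := fun h0 => hs0 (hinj (by rw [h0, map_zero]))
  have hex : ∀ m : ℕ, ∃ w' : D, s • τ'' ^ m = ϖ ^ (e * m) • w' := by
    intro m
    refine hs (e * m) (h ^ m) (τ'' ^ m) (τ ^ m) (fun hd => hh (hϖ.dvd_of_dvd_pow hd)) ?_
    rw [Algebra.smul_def, Algebra.smul_def, map_pow, ← mul_pow, hττ, mul_pow, map_pow, pow_mul]
  choose W hW using hex
  have hW' : ∀ m, algebraMap S D s * τ'' ^ m = algebraMap S D ϖ ^ (e * m) * W m := by
    intro m
    have := hW m
    rwa [Algebra.smul_def, Algebra.smul_def, map_pow] at this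
  have gen : ∀ p q : D, algebraMap S D ϖ ^ e * q = p * τ'' →
      ∀ m, p ^ m * W m = algebraMap S D s * q ^ m := by
    intro p q hpq m
    have h1 : algebraMap S D ϖ ^ (e * m) * (p ^ m * W m) =
        algebraMap S D ϖ ^ (e * m) * (algebraMap S D s * q ^ m) := by
      calc algebraMap S D ϖ ^ (e * m) * (p ^ m * W m)
          = p ^ m * (algebraMap S D ϖ ^ (e * m) * W m) := by ring
        _ = algebraMap S D s * (p * τ'') ^ m := by rw [← hW']; ring_nf
        _ = algebraMap S D s * (algebraMap S D ϖ ^ e * q) ^ m := by rw [hpq]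
        _ = _ := by rw [mul_pow, ← pow_mul]; ring
    exact mul_left_cancel₀ (pow_ne_zero _ hϖ0) h1
  obtain ⟨M1, hM1⟩ := exists_pow_mem b y _ hsD W (gen b y hy'')
  obtain ⟨M2, hM2⟩ := exists_pow_mem c z _ hsD W (gen c z hz'')
  obtain ⟨M3, hM3⟩ := exists_pow_mem a β _ hsD W (gen a β hβ'')
  -- Step 7
  let E' : Finset D := insert b (insert c (insert a E))
  have hcard : E'.card ≤ E.card + 3 := by
    have h1 := Finset.card_insert_le b (insert c (insert a E))
    have h2 := Finset.card_insert_le c (insert a E)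
    have h3 := Finset.card_insert_le a E
    change (insert b (insert c (insert a E))).card ≤ _
    omega
  have hmin : maximalIdeal D ∈ (span (E' : Set D)).minimalPrimes := by
    refine ⟨⟨inferInstance, ?_⟩, ?_⟩
    · rw [Ideal.span_le]
      intro x hx
      simp only [E', Finset.coe_insert, Set.mem_insert_iff, Finset.mem_coe] at hx
      rcases hx with rfl | rfl | rfl | hx
      · exact hb
      · exact hc
      · exact ha
      · exact hE x hx
    · rintro 𝔓 ⟨h𝔓, hle⟩ -
      have hb' : b ∈ 𝔓 := hle (subset_span (by simp [E']))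
      have hc' : c ∈ 𝔓 := hle (subset_span (by simp [E']))
      have ha' : a ∈ 𝔓 := hle (subset_span (by simp [E']))
      have hE' : ∀ x ∈ E, x ∈ 𝔓 := fun x hx => hle (subset_span (by simp [E', hx]))
      have hy' : y ∈ 𝔓 := h𝔓.mem_of_pow_mem M1 (Ideal.mem_of_dvd _ hM1 hb')
      have hz' : z ∈ 𝔓 := h𝔓.mem_of_pow_mem M2 (Ideal.mem_of_dvd _ hM2 hc')
      have hβ' : β ∈ 𝔓 := h𝔓.mem_of_pow_mem M3 (Ideal.mem_of_dvd _ hM3 ha')
      have hϖ' : algebraMap S D ϖ ∈ 𝔓 := by
        apply h𝔓.mem_of_pow_mem e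
        rw [hpe, ← r4]
        apply Ideal.mul_mem_right
        exact add_mem (Ideal.pow_mem_of_mem _ ha' 2 (by norm_num)) (Ideal.mul_mem_left _ _ hc')
      exact (hmax 𝔓 h𝔓 hϖ' hb' hc' ha' hy' hz' hβ' hE').ge
  have hht := Ideal.height_le_card_of_mem_minimalPrimes_span_finset hmin
  have h1 : ringKrullDim S ≤ ringKrullDim D := ringKrullDim_le_of_integral hinj
  rw [← IsLocalRing.maximalIdeal_height_eq_ringKrullDim (R := D)] at h1
  have h2 : ((maximalIdeal D).height : WithBot ℕ∞) ≤ ((E.card + 3 : ℕ) : WithBot ℕ∞) := by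
    have : (maximalIdeal D).height ≤ ((E.card + 3 : ℕ) : ℕ∞) :=
      hht.trans (by exact_mod_cast hcard)
    exact WithBot.coe_le_coe.mpr this
  exact absurd (hdim.trans_le (h1.trans h2)) (lt_irrefl _)

end Fermat.Agent.IH
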