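import Mathlib
import Fermat.Agent.IH.Core

/-!
# Ihara avoidance: the abstract theorem

`PP` is a noetherian local ring (in practice a power series ring acting on the patched modules),
`S` a domain over which the patched modules `Mχ` and `M1` are finite and torsion-free.  The two
modules agree modulo `ϖ`.  On `Mχ` the matrices `Σ` and `Φ` commute and `Σ` has discriminant `δ`;
on `M1` one has `(disc Φ - ε) (Σ - 1) = 0` with `ϖ ∣ ε`.  Then `M1` has an associated prime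
containing `b, c, a` (the "unramified" locus).
-/

set_option autoImplicit false

namespace Fermat.Agent.IH

open Ideal IsLocalRing

section Quot

variable {PP : Type*} [CommRing PP] [IsLocalRing PP] (P : Ideal PP) [hP : P.IsPrime]

instance isLocalRing_quot : IsLocalRing (PP ⧸ P) :=
  IsLocalRing.of_surjective' (Ideal.Quotient.mk P) Ideal.Quotient.mk_surjective

omit hP in
theorem mk_mem_maximalIdeal [IsLocalRing (PP ⧸ P)] (hP : P ≠ ⊤) {x : PP}
    (hx : x ∈ maximalIdeal PP) : Ideal.Quotient.mk P x ∈ maximalIdeal (PP ⧸ P) := by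
  rw [mem_maximalIdeal, mem_nonunits_iff]
  intro hu
  obtain ⟨y, hy⟩ := hu.exists_right_inv
  obtain ⟨y, rfl⟩ := Ideal.Quotient.mk_surjective y
  rw [← map_mul, ← map_one (Ideal.Quotient.mk P), Ideal.Quotient.eq] at hy
  have h1 : x * y - 1 ∈ maximalIdeal PP := le_maximalIdeal hP hy
  have h2 : x * y ∈ maximalIdeal PP := Ideal.mul_mem_right _ _ hx
  have h3 : (1 : PP) ∈ maximalIdeal PP := by
    have := sub_mem h2 h1
    rwa [sub_sub_cancel] at this
  exact (Ideal.ne_top_iff_one _).mp (maximalIdeal.isMaximal PP).ne_top h3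

omit hP in
theorem exists_of_mem_maximalIdeal [IsLocalRing (PP ⧸ P)] {x : PP ⧸ P}
    (hx : x ∈ maximalIdeal (PP ⧸ P)) :
    ∃ y ∈ maximalIdeal PP, Ideal.Quotient.mk P y = x := by
  obtain ⟨y, rfl⟩ := Ideal.Quotient.mk_surjective x
  refine ⟨y, ?_, rfl⟩
  rw [mem_maximalIdeal, mem_nonunits_iff] at hx ⊢
  exact fun hu => hx (hu.map _)

end Quot

section Ass

variable {PP S M : Type*} [CommRing PP] [CommRing S] [IsNoetherianRing S]
  [Algebra S PP] [AddCommGroup M] [Module PP M] [Module S M] [IsScalarTower S PP M]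
  [Module.Finite S M]

theorem finite_quot_of_colon {P : Ideal PP} {x : M} (hx : P = Submodule.colon ⊥ {x}) :
    Module.Finite S (PP ⧸ P) := by
  have hmem : ∀ p : PP, p ∈ P ↔ p • x = 0 := by
    intro p
    rw [hx, Submodule.mem_colon_singleton, Submodule.mem_bot]
  let f : (PP ⧸ P) →ₗ[PP] M := Submodule.liftQ P (LinearMap.toSpanSingleton PP M x) (by
    intro p hp
    rw [LinearMap.mem_ker, LinearMap.toSpanSingleton_apply]
    exact (hmem p).mp hp)
  have hf : Function.Injective f := by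
    rw [injective_iff_map_eq_zero]
    intro p hp
    obtain ⟨p, rfl⟩ := Submodule.Quotient.mk_surjective _ p
    rw [Submodule.liftQ_apply, LinearMap.toSpanSingleton_apply] at hp
    exact (Submodule.Quotient.mk_eq_zero _).mpr ((hmem p).mpr hp)
  exact Module.Finite.of_injective (f.restrictScalars S) hf

omit [IsNoetherianRing S] [Module.Finite S M] in
theorem injective_quot_of_colon [IsDomain S] [Module.IsTorsionFree S M] {P : Ideal PP}
    [hP : P.IsPrime] {x : M} (hx : P = Submodule.colon ⊥ {x}) :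
    Function.Injective (algebraMap S (PP ⧸ P)) := by
  have hmem : ∀ p : PP, p ∈ P ↔ p • x = 0 := by
    intro p
    rw [hx, Submodule.mem_colon_singleton, Submodule.mem_bot]
  have hx0 : x ≠ 0 := by
    rintro rfl
    apply hP.ne_top
    rw [Ideal.eq_top_iff_one, hmem, smul_zero]
  rw [injective_iff_map_eq_zero]
  intro s hs
  have h1 : algebraMap S PP s ∈ P := by
    rw [← Ideal.Quotient.eq_zero_iff_mem]
    exact hs
  rw [hmem, algebraMap_smul] at h1
  exact (smul_eq_zero.mp h1).resolve_right hx0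

end Ass

section Main

variable {PP S : Type*} [CommRing PP] [IsLocalRing PP] [IsNoetherianRing PP] [CommRing S]
  [IsDomain S] [IsNoetherianRing S] [Algebra S PP]

omit [IsDomain S] [IsNoetherianRing S] in
theorem ringKrullDim_quot_le {D : Type*} [CommRing D] [Algebra S D] [Algebra.IsIntegral S D]
    (I : Ideal S) (𝔮 : Ideal D) (h : 𝔮.comap (algebraMap S D) = I) :
    ringKrullDim (S ⧸ I) ≤ ringKrullDim (D ⧸ 𝔮) := by
  subst h
  exact ringKrullDim_le_of_integral Ideal.algebraMap_quotient_injective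

/-- **Ihara avoidance**, abstract form. -/
theorem avoid (ϖ : S) (hϖ : Prime ϖ) {Mχ M1 : Type*} [AddCommGroup Mχ] [Module PP Mχ]
    [Module S Mχ] [IsScalarTower S PP Mχ] [Module.Finite S Mχ] [Module.IsTorsionFree S Mχ]
    [Nontrivial Mχ] [AddCommGroup M1] [Module PP M1] [Module S M1] [IsScalarTower S PP M1]
    [Module.Finite S M1]
    (iso : QuotSMulTop (algebraMap S PP ϖ) Mχ ≃ₗ[PP] QuotSMulTop (algebraMap S PP ϖ) M1)
    (b c a y z β : PP) (T : Finset S) (ε : S) (e : ℕ) (hT : ∀ δ ∈ T, δ ∣ ϖ ^ e) (hε : ϖ ∣ ε)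
    (r1 : b * z - c * y ∈ Module.annihilator PP Mχ)
    (r2 : b * β - a * y ∈ Module.annihilator PP Mχ)
    (r3 : c * β - a * z ∈ Module.annihilator PP Mχ)
    (r4 : ∏ δ ∈ T, (a ^ 2 + 4 * b * c - algebraMap S PP δ) ∈ Module.annihilator PP Mχ)
    (sb : (β ^ 2 + 4 * y * z - algebraMap S PP ε) * b ∈ Module.annihilator PP M1)
    (sc : (β ^ 2 + 4 * y * z - algebraMap S PP ε) * c ∈ Module.annihilator PP M1)
    (sa : (β ^ 2 + 4 * y * z - algebraMap S PP ε) * a ∈ Module.annihilator PP M1)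
    (hb : b ∈ maximalIdeal PP) (hc : c ∈ maximalIdeal PP) (ha : a ∈ maximalIdeal PP)
    (hy : y ∈ maximalIdeal PP) (hz : z ∈ maximalIdeal PP)
    (E : Finset PP) (hE : ∀ x ∈ E, x ∈ maximalIdeal PP) (J : Ideal PP)
    (hJ : J ≤ Module.annihilator PP Mχ)
    (hmax : ∀ 𝔓 : Ideal PP, 𝔓.IsPrime → J ≤ 𝔓 → algebraMap S PP ϖ ∈ 𝔓 → b ∈ 𝔓 → c ∈ 𝔓 →
      a ∈ 𝔓 → y ∈ 𝔓 → z ∈ 𝔓 → β ∈ 𝔓 → (∀ x ∈ E, x ∈ 𝔓) → maximalIdeal PP ≤ 𝔓)
    (hdim : ((E.card + 3 : ℕ) : WithBot ℕ∞) < ringKrullDim S)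
    (hdim' : ((E.card + 2 : ℕ) : WithBot ℕ∞) < ringKrullDim (S ⧸ span {ϖ})) :
    ∃ P' ∈ associatedPrimes PP M1, b ∈ P' ∧ c ∈ P' ∧ a ∈ P' := by
  classical
  have hfinχ : Module.Finite PP Mχ := Module.Finite.of_restrictScalars_finite S PP Mχ
  have hfin1 : Module.Finite PP M1 := Module.Finite.of_restrictScalars_finite S PP M1
  obtain ⟨P, hPass⟩ := associatedPrimes.nonempty PP Mχ
  obtain ⟨hP, x, hx⟩ := isAssociatedPrime_iff.mp hPass
  have hann : Module.annihilator PP Mχ ≤ P := by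
    intro p hp
    rw [hx, Submodule.mem_colon_singleton, Submodule.mem_bot]
    exact Module.mem_annihilator.mp hp x
  have hfinD : Module.Finite S (PP ⧸ P) := finite_quot_of_colon hx
  have hinj : Function.Injective (algebraMap S (PP ⧸ P)) := injective_quot_of_colon hx
  have hmk : ∀ s : S, algebraMap S (PP ⧸ P) s = Ideal.Quotient.mk P (algebraMap S PP s) :=
    fun s => rfl
  have hEcard : (E.image (Ideal.Quotient.mk P)).card ≤ E.card := Finset.card_image_le
  -- maximality transfers to quotients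
  have htrans : ∀ (Q : Ideal PP) [Q.IsPrime], Module.annihilator PP Mχ ≤ Q →
      ∀ 𝔓 : Ideal (PP ⧸ Q), 𝔓.IsPrime → Ideal.Quotient.mk Q (algebraMap S PP ϖ) ∈ 𝔓 →
      Ideal.Quotient.mk Q b ∈ 𝔓 → Ideal.Quotient.mk Q c ∈ 𝔓 → Ideal.Quotient.mk Q a ∈ 𝔓 →
      Ideal.Quotient.mk Q y ∈ 𝔓 → Ideal.Quotient.mk Q z ∈ 𝔓 → Ideal.Quotient.mk Q β ∈ 𝔓 →
      (∀ x ∈ E.image (Ideal.Quotient.mk Q), x ∈ 𝔓) → 𝔓 = maximalIdeal (PP ⧸ Q) := by
    intro Q hQ hQann 𝔓 h𝔓 hϖ𝔓 hb𝔓 hc𝔓 ha𝔓 hy𝔓 hz𝔓 hβ𝔓 hE𝔓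
    have h1 : maximalIdeal PP ≤ 𝔓.comap (Ideal.Quotient.mk Q) := by
      refine hmax _ (h𝔓.comap _) ?_ hϖ𝔓 hb𝔓 hc𝔓 ha𝔓 hy𝔓 hz𝔓 hβ𝔓 ?_
      · intro j hj
        rw [Ideal.mem_comap, Ideal.Quotient.eq_zero_iff_mem.mpr (hQann (hJ hj))]
        exact zero_mem _
      · intro x hx
        exact hE𝔓 _ (Finset.mem_image_of_mem _ hx)
    refine le_antisymm (le_maximalIdeal h𝔓.ne_top) ?_
    intro x hx
    obtain ⟨y, hy, rfl⟩ := exists_of_mem_maximalIdeal Q hx
    exact h1 hy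
  obtain ⟨δ, hδT, hδP⟩ := (hP.prod_mem_iff).mp (hann r4)
  have hδ : δ ∣ ϖ ^ e := hT δ hδT
  -- apply the core lemma
  obtain ⟨𝔮, h𝔮, h𝔮ϖ, hb𝔮, hc𝔮, ha𝔮⟩ := core (S := S) (D := PP ⧸ P) hinj ϖ hϖ δ e hδ
    (Ideal.Quotient.mk P b) (Ideal.Quotient.mk P c) (Ideal.Quotient.mk P a)
    (Ideal.Quotient.mk P y) (Ideal.Quotient.mk P z) (Ideal.Quotient.mk P β)
    (by
      rw [← map_mul, ← map_mul, Ideal.Quotient.eq]; exact hann r1)
    (by
      rw [← map_mul, ← map_mul, Ideal.Quotient.eq]; exact hann r2)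
    (by
      rw [← map_mul, ← map_mul, Ideal.Quotient.eq]; exact hann r3)
    (by
      have h4 : (4 : PP ⧸ P) = Ideal.Quotient.mk P 4 := (map_ofNat _ 4).symm
      rw [hmk, h4, ← map_pow, ← map_mul, ← map_mul, ← map_add, Ideal.Quotient.eq]
      exact hδP)
    (E.image (Ideal.Quotient.mk P))
    (mk_mem_maximalIdeal P hP.ne_top hb) (mk_mem_maximalIdeal P hP.ne_top hc)
    (mk_mem_maximalIdeal P hP.ne_top ha)
    (by
      intro x hx
      obtain ⟨x', hx', rfl⟩ := Finset.mem_image.mp hx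
      exact mk_mem_maximalIdeal P hP.ne_top (hE x' hx'))
    (htrans P hann)
    (lt_of_le_of_lt (by exact_mod_cast Nat.add_le_add_right hEcard 3) hdim)
  -- the prime of `PP`
  set 𝔮' : Ideal PP := 𝔮.comap (Ideal.Quotient.mk P) with h𝔮'
  have h𝔮'p : 𝔮'.IsPrime := h𝔮.comap _
  have hP𝔮' : P ≤ 𝔮' := by
    intro p hp
    rw [h𝔮', Ideal.mem_comap, Ideal.Quotient.eq_zero_iff_mem.mpr hp]
    exact zero_mem _
  have hϖ𝔮' : algebraMap S PP ϖ ∈ 𝔮' := by
    have : ϖ ∈ 𝔮.comap (algebraMap S (PP ⧸ P)) := by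
      rw [h𝔮ϖ]; exact mem_span_singleton_self ϖ
    exact this
  -- the dimension of the quotient by `𝔮'`
  have hdimq : ringKrullDim (S ⧸ span {ϖ}) ≤ ringKrullDim (PP ⧸ 𝔮') := by
    have h1 := ringKrullDim_quot_le (S := S) (D := PP ⧸ P) (span {ϖ}) 𝔮 h𝔮ϖ
    refine h1.trans ?_
    have hsurj : Function.Surjective (Ideal.quotientMap 𝔮 (Ideal.Quotient.mk P) (le_refl _) :
        PP ⧸ 𝔮' →+* (PP ⧸ P) ⧸ 𝔮) :=
      Ideal.quotientMap_surjective Ideal.Quotient.mk_surjective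
    exact ringKrullDim_le_of_surjective _ hsurj
  have hD4 : β ^ 2 + 4 * y * z ∉ 𝔮' := by
    intro hmem
    have hann' : Module.annihilator PP Mχ ≤ 𝔮' := hann.trans hP𝔮'
    let E' : Finset (PP ⧸ 𝔮') := insert (Ideal.Quotient.mk 𝔮' y)
      (insert (Ideal.Quotient.mk 𝔮' z) (E.image (Ideal.Quotient.mk 𝔮')))
    have hcard : E'.card ≤ E.card + 2 := by
      have h1 := Finset.card_insert_le (Ideal.Quotient.mk 𝔮' y)
        (insert (Ideal.Quotient.mk 𝔮' z) (E.image (Ideal.Quotient.mk 𝔮')))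
      have h2 := Finset.card_insert_le (Ideal.Quotient.mk 𝔮' z)
        (E.image (Ideal.Quotient.mk 𝔮'))
      have h3 : (E.image (Ideal.Quotient.mk 𝔮')).card ≤ E.card := Finset.card_image_le
      exact h1.trans (by omega)
    have hmin : maximalIdeal (PP ⧸ 𝔮') ∈ (span (E' : Set (PP ⧸ 𝔮'))).minimalPrimes := by
      refine ⟨⟨inferInstance, ?_⟩, ?_⟩
      · rw [Ideal.span_le]
        intro x hx
        simp only [E', Finset.coe_insert, Set.mem_insert_iff, Finset.mem_coe] at hx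
        rcases hx with rfl | rfl | hx
        · exact mk_mem_maximalIdeal 𝔮' h𝔮'p.ne_top hy
        · exact mk_mem_maximalIdeal 𝔮' h𝔮'p.ne_top hz
        · obtain ⟨x', hx', rfl⟩ := Finset.mem_image.mp hx
          exact mk_mem_maximalIdeal 𝔮' h𝔮'p.ne_top (hE x' hx')
      · rintro 𝔓 ⟨h𝔓, hle⟩ -
        have hy' : Ideal.Quotient.mk 𝔮' y ∈ 𝔓 := hle (subset_span (by simp [E']))
        have hz' : Ideal.Quotient.mk 𝔮' z ∈ 𝔓 := hle (subset_span (by simp [E']))
        have hE' : ∀ x ∈ E.image (Ideal.Quotient.mk 𝔮'), x ∈ 𝔓 := fun x hx =>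
          hle (subset_span (by
            simp only [E', Finset.coe_insert, Set.mem_insert_iff, Finset.mem_coe]
            exact Or.inr (Or.inr hx)))
        have hzero : ∀ {t : PP}, t ∈ 𝔮' → Ideal.Quotient.mk 𝔮' t ∈ 𝔓 := by
          intro t ht
          rw [Ideal.Quotient.eq_zero_iff_mem.mpr ht]; exact zero_mem _
        have hβ' : Ideal.Quotient.mk 𝔮' β ∈ 𝔓 := by
          apply h𝔓.mem_of_pow_mem 2
          have h1 : Ideal.Quotient.mk 𝔮' β ^ 2 =
              Ideal.Quotient.mk 𝔮' (β ^ 2 + 4 * y * z) -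
                Ideal.Quotient.mk 𝔮' (4 * y) * Ideal.Quotient.mk 𝔮' z := by
            rw [← map_pow, ← map_mul, ← map_sub]; congr 1; ring
          rw [h1]
          exact sub_mem (hzero hmem) (Ideal.mul_mem_left _ _ hz')
        exact (htrans 𝔮' hann' 𝔓 h𝔓 (hzero hϖ𝔮') (hzero hb𝔮) (hzero hc𝔮) (hzero ha𝔮) hy' hz' hβ'
          hE').ge
    have hht := Ideal.height_le_card_of_mem_minimalPrimes_span_finset hmin
    have h2 : ringKrullDim (PP ⧸ 𝔮') ≤ ((E.card + 2 : ℕ) : WithBot ℕ∞) := by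
      rw [← IsLocalRing.maximalIdeal_height_eq_ringKrullDim (R := PP ⧸ 𝔮')]
      have : (maximalIdeal (PP ⧸ 𝔮')).height ≤ ((E.card + 2 : ℕ) : ℕ∞) :=
        hht.trans (by exact_mod_cast hcard)
      exact WithBot.coe_le_coe.mpr this
    exact absurd (hdim'.trans_le (hdimq.trans h2)) (lt_irrefl _)
  -- supports
  have hsup1 : (⟨𝔮', h𝔮'p⟩ : PrimeSpectrum PP) ∈ Module.support PP M1 := by
    have h1 : (⟨𝔮', h𝔮'p⟩ : PrimeSpectrum PP) ∈ Module.support PP Mχ := by
      rw [Module.mem_support_iff_of_finite]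
      exact hann.trans hP𝔮'
    have h2 : (⟨𝔮', h𝔮'p⟩ : PrimeSpectrum PP) ∈
        Module.support PP (QuotSMulTop (algebraMap S PP ϖ) Mχ) := by
      rw [Module.support_quotSMulTop]
      refine ⟨h1, ?_⟩
      rw [PrimeSpectrum.mem_zeroLocus, Set.singleton_subset_iff]
      exact hϖ𝔮'
    rw [iso.support_eq, Module.support_quotSMulTop] at h2
    exact h2.1
  rw [Module.mem_support_iff_of_finite] at hsup1
  obtain ⟨P', hP'min, hP'le⟩ := Ideal.exists_minimalPrimes_le hsup1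
  have hP'ass : P' ∈ associatedPrimes PP M1 :=
    Module.associatedPrimes.minimalPrimes_annihilator_subset_associatedPrimes PP M1 hP'min
  have hP'p : P'.IsPrime := hP'min.1.1
  have hP'ann : Module.annihilator PP M1 ≤ P' := hP'min.1.2
  have hnot : β ^ 2 + 4 * y * z - algebraMap S PP ε ∉ P' := by
    intro hmem
    apply hD4
    have h1 : algebraMap S PP ε ∈ 𝔮' := by
      obtain ⟨ε', rfl⟩ := hε
      rw [map_mul]; exact Ideal.mul_mem_right _ _ hϖ𝔮'
    have := add_mem (hP'le hmem) h1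
    simpa using this
  exact ⟨P', hP'ass, (hP'p.mem_or_mem (hP'ann sb)).resolve_left hnot,
    (hP'p.mem_or_mem (hP'ann sc)).resolve_left hnot,
    (hP'p.mem_or_mem (hP'ann sa)).resolve_left hnot⟩

omit [IsLocalRing PP] in
/-- Specialisation of an associated prime of a torsion-free module at a prime of the base. -/
theorem exists_specialisation {M1 : Type*} [AddCommGroup M1] [Module PP M1]
    [Module S M1] [IsScalarTower S PP M1] [Module.Finite S M1] [Module.IsTorsionFree S M1]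
    {P' : Ideal PP} (hP' : P' ∈ associatedPrimes PP M1) (𝔞 : Ideal S) [h𝔞 : 𝔞.IsPrime] :
    ∃ P'' : PrimeSpectrum PP, P' ≤ P''.asIdeal ∧ P''.asIdeal.comap (algebraMap S PP) = 𝔞 ∧
      P'' ∈ Module.support PP (M1 ⧸ (𝔞.map (algebraMap S PP) • ⊤ : Submodule PP M1)) := by
  have hfin1 : Module.Finite PP M1 := Module.Finite.of_restrictScalars_finite S PP M1
  obtain ⟨hP, x, hx⟩ := isAssociatedPrime_iff.mp hP'
  have hann : Module.annihilator PP M1 ≤ P' := by
    intro p hp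
    rw [hx, Submodule.mem_colon_singleton, Submodule.mem_bot]
    exact Module.mem_annihilator.mp hp x
  have hfinD : Module.Finite S (PP ⧸ P') := finite_quot_of_colon hx
  have hinj : Function.Injective (algebraMap S (PP ⧸ P')) := injective_quot_of_colon hx
  obtain ⟨Q, -, hQ, hQ'⟩ := exists_ideal_over_prime_of_isIntegral 𝔞 (⊥ : Ideal (PP ⧸ P')) (by
    intro s hs
    rw [Ideal.mem_comap, Ideal.mem_bot] at hs
    rw [(injective_iff_map_eq_zero _).mp hinj s hs]
    exact zero_mem _)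
  have hle : P' ≤ Q.comap (Ideal.Quotient.mk P') := by
    intro p hp
    rw [Ideal.mem_comap, Ideal.Quotient.eq_zero_iff_mem.mpr hp]
    exact zero_mem _
  have hcomap : (Q.comap (Ideal.Quotient.mk P')).comap (algebraMap S PP) = 𝔞 := by
    rw [← hQ']; rfl
  refine ⟨⟨Q.comap (Ideal.Quotient.mk P'), hQ.comap _⟩, hle, hcomap, ?_⟩
  rw [Module.support_quotient]
  refine ⟨?_, ?_⟩
  · rw [Module.mem_support_iff_of_finite]
    exact hann.trans hle
  · rw [PrimeSpectrum.mem_zeroLocus, SetLike.coe_subset_coe, Ideal.map_le_iff_le_comap]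
    exact hcomap.ge

end Main

end Fermat.Agent.IH
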