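import Mathlib

/-!
# Dimension facts for power series rings over a discrete valuation ring
-/

set_option autoImplicit false

namespace Fermat.Agent.IH.Dims

open MvPowerSeries IsLocalRing

theorem add_le_ringKrullDim (R : Type*) [CommRing R] (r : ℕ) :
    ringKrullDim R + r ≤ ringKrullDim (MvPowerSeries (Fin r) R) := by
  induction r with
  | zero =>
    rw [ringKrullDim_eq_of_ringEquiv (isEmptyEquiv (Fin 0) R).toRingEquiv]
    simp
  | succ r ih =>
    rw [ringKrullDim_eq_of_ringEquiv (finSuccEquiv R r).toRingEquiv]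
    refine le_trans ?_ ringKrullDim_succ_le_ringKrullDim_powerseries
    rw [Nat.cast_add, Nat.cast_one, ← add_assoc]
    gcongr

variable {𝒪 : Type*} [CommRing 𝒪] {σ : Type*}

theorem mem_span_C_iff (ϖ : 𝒪) (f : MvPowerSeries σ 𝒪) :
    f ∈ Ideal.span {(C ϖ : MvPowerSeries σ 𝒪)} ↔ ∀ e, ϖ ∣ coeff e f := by
  rw [Ideal.mem_span_singleton]
  constructor
  · rintro ⟨g, rfl⟩ e
    rw [coeff_C_mul]
    exact dvd_mul_right _ _
  · intro h
    choose g hg using h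
    let g' : MvPowerSeries σ 𝒪 := g
    have hg' : ∀ e, coeff e g' = g e := fun e => rfl
    refine ⟨g', ?_⟩
    ext e
    rw [coeff_C_mul, hg e, hg']

theorem ker_map_eq_span {k : Type*} [CommRing k] (f : 𝒪 →+* k) (ϖ : 𝒪)
    (hf : RingHom.ker f = Ideal.span {ϖ}) :
    RingHom.ker (MvPowerSeries.map (σ := σ) f) = Ideal.span {(C ϖ : MvPowerSeries σ 𝒪)} := by
  ext g
  rw [mem_span_C_iff, RingHom.mem_ker]
  constructor
  · intro h e
    have h1 : f (coeff e g) = 0 := by rw [← coeff_map, h, map_zero]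
    rw [← Ideal.mem_span_singleton, ← hf]
    exact h1
  · intro h
    ext e
    rw [coeff_map, map_zero]
    have h1 := h e
    rw [← Ideal.mem_span_singleton, ← hf] at h1
    exact h1

theorem map_surjective {k : Type*} [CommRing k] (f : 𝒪 →+* k) (hf : Function.Surjective f) :
    Function.Surjective (MvPowerSeries.map (σ := σ) f) := by
  intro g
  choose h hh using fun e : σ →₀ ℕ => hf (coeff e g)
  let h' : MvPowerSeries σ 𝒪 := h
  have hh' : ∀ e, coeff e h' = h e := fun e => rfl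
  refine ⟨h', ?_⟩
  ext e
  rw [coeff_map, hh', hh e]

theorem prime_C [IsDomain 𝒪] {ϖ : 𝒪} (hϖ : Prime ϖ) : Prime (C ϖ : MvPowerSeries σ 𝒪) := by
  have h0 : (C ϖ : MvPowerSeries σ 𝒪) ≠ 0 := by
    intro h
    apply hϖ.ne_zero
    have := congrArg constantCoeff h
    simpa using this
  have hp : (Ideal.span {ϖ}).IsPrime := (Ideal.span_singleton_prime hϖ.ne_zero).mpr hϖ
  rw [← Ideal.span_singleton_prime h0,
    ← ker_map_eq_span (Ideal.Quotient.mk (Ideal.span {ϖ})) ϖ Ideal.mk_ker]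
  have hdom : IsDomain (𝒪 ⧸ Ideal.span {ϖ}) := Ideal.Quotient.isDomain _
  have hdom' : IsDomain (MvPowerSeries σ (𝒪 ⧸ Ideal.span {ϖ})) := NoZeroDivisors.to_isDomain _
  exact RingHom.ker_isPrime _

/-- `dim 𝒪⟦y₁…y_r⟧ ≥ r + 1` for a discrete valuation ring. -/
theorem lt_ringKrullDim [IsDomain 𝒪] [IsDiscreteValuationRing 𝒪] (r : ℕ) :
    ((r : ℕ) : WithBot ℕ∞) < ringKrullDim (MvPowerSeries (Fin r) 𝒪) := by
  have h1 := add_le_ringKrullDim 𝒪 r
  have h2 : ringKrullDim 𝒪 = 1 := IsDiscreteValuationRing.ringKrullDim_eq_one 𝒪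
  rw [h2] at h1
  refine lt_of_lt_of_le ?_ h1
  have : ((r : ℕ) : WithBot ℕ∞) < ((1 + r : ℕ) : WithBot ℕ∞) := by
    exact_mod_cast Nat.lt_one_add_iff.mpr le_rfl
  simpa using this

/-- `dim 𝒪⟦y₁…y_r⟧/ϖ ≥ r` for a discrete valuation ring. -/
theorem le_ringKrullDim_quot [IsDomain 𝒪] [IsDiscreteValuationRing 𝒪] {ϖ : 𝒪} (hϖ : Prime ϖ)
    (r : ℕ) : ((r : ℕ) : WithBot ℕ∞) ≤
      ringKrullDim (MvPowerSeries (Fin r) 𝒪 ⧸ Ideal.span {(C ϖ : MvPowerSeries (Fin r) 𝒪)}) := by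
  have hp : (Ideal.span {ϖ}).IsPrime := (Ideal.span_singleton_prime hϖ.ne_zero).mpr hϖ
  have h1 := add_le_ringKrullDim (𝒪 ⧸ Ideal.span {ϖ}) r
  have h2 : (0 : WithBot ℕ∞) ≤ ringKrullDim (𝒪 ⧸ Ideal.span {ϖ}) :=
    ringKrullDim_nonneg_of_nontrivial
  have h3 : ((r : ℕ) : WithBot ℕ∞) ≤ ringKrullDim (𝒪 ⧸ Ideal.span {ϖ}) + r := by
    calc ((r : ℕ) : WithBot ℕ∞) = 0 + r := by simp
      _ ≤ _ := by gcongr
  refine (h3.trans h1).trans ?_
  have hle : ∀ a ∈ Ideal.span {(C ϖ : MvPowerSeries (Fin r) 𝒪)},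
      MvPowerSeries.map (σ := Fin r) (Ideal.Quotient.mk (Ideal.span {ϖ})) a = 0 := by
    intro a ha
    rw [← ker_map_eq_span (Ideal.Quotient.mk (Ideal.span {ϖ})) ϖ Ideal.mk_ker] at ha
    exact ha
  exact ringKrullDim_le_of_surjective _ (Ideal.Quotient.lift_surjective_of_surjective _
    (f := MvPowerSeries.map (σ := Fin r) (Ideal.Quotient.mk (Ideal.span {ϖ}))) hle
    (map_surjective _ Ideal.Quotient.mk_surjective))

end Fermat.Agent.IH.Dims
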