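import Fermat.Agent.IH.PairMain

/-!
# Ihara avoidance: contradiction version

If moreover the discriminant of `Φ` is `ε ≡ 0 mod ϖ` on all of `M1`, we get a contradiction.
-/

set_option autoImplicit false
set_option linter.unusedSectionVars false
set_option linter.unusedSimpArgs false

open Filter IsLocalRing Fermat.Agent.RT.ULim MvPowerSeries Fermat.Agent.RT.MvEval
open Fermat.Agent.RT.GroupAlg Fermat.Agent.RT.TWLevel
open scoped Pointwise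

namespace Fermat.Agent.IH

section Main

open Ideal

variable {PP S : Type*} [CommRing PP] [IsLocalRing PP] [IsNoetherianRing PP] [CommRing S]
  [IsDomain S] [IsNoetherianRing S] [Algebra S PP]

/-- **Ihara avoidance**, abstract form, contradiction version. -/
theorem avoid_false (ϖ : S) (hϖ : Prime ϖ) {Mχ M1 : Type*} [AddCommGroup Mχ] [Module PP Mχ]
    [Module S Mχ] [IsScalarTower S PP Mχ] [Module.Finite S Mχ] [Module.IsTorsionFree S Mχ]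
    [Nontrivial Mχ] [AddCommGroup M1] [Module PP M1] [Module S M1] [IsScalarTower S PP M1]
    [Module.Finite S M1]
    (iso : QuotSMulTop (algebraMap S PP ϖ) Mχ ≃ₗ[PP] QuotSMulTop (algebraMap S PP ϖ) M1)
    (b c a y z β : PP) (T : Finset S) (ε : S) (e : ℕ) (hT : ∀ δ ∈ T, δ ∣ ϖ ^ e) (hε : ϖ ∣ ε)
    (r1 : b * z - c * y ∈ Module.annihilator PP Mχ)
    (r2 : b * β - a * y ∈ Module.annihilator PP Mχ)
    (r3 : c * β - a * z ∈ Module.annihilator PP Mχ)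
    (r4 : ∏ δ ∈ T, (a ^ 2 + 4 * b * c - algebraMap S PP δ) ∈ Module.annihilator PP Mχ)
    (hD : β ^ 2 + 4 * y * z - algebraMap S PP ε ∈ Module.annihilator PP M1)
    (hb : b ∈ maximalIdeal PP) (hc : c ∈ maximalIdeal PP) (ha : a ∈ maximalIdeal PP)
    (hy : y ∈ maximalIdeal PP) (hz : z ∈ maximalIdeal PP)
    (E : Finset PP) (hE : ∀ x ∈ E, x ∈ maximalIdeal PP) (J : Ideal PP)
    (hJ : J ≤ Module.annihilator PP Mχ)
    (hmax : ∀ 𝔓 : Ideal PP, 𝔓.IsPrime → J ≤ 𝔓 → algebraMap S PP ϖ ∈ 𝔓 → b ∈ 𝔓 → c ∈ 𝔓 →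
      a ∈ 𝔓 → y ∈ 𝔓 → z ∈ 𝔓 → β ∈ 𝔓 → (∀ x ∈ E, x ∈ 𝔓) → maximalIdeal PP ≤ 𝔓)
    (hdim : ((E.card + 3 : ℕ) : WithBot ℕ∞) < ringKrullDim S)
    (hdim' : ((E.card + 2 : ℕ) : WithBot ℕ∞) < ringKrullDim (S ⧸ span {ϖ})) :
    False := by
  classical
  have hfinχ : Module.Finite PP Mχ := Module.Finite.of_restrictScalars_finite S PP Mχ
  have hfin1 : Module.Finite PP M1 := Module.Finite.of_restrictScalars_finite S PP M1
  obtain ⟨P, hPass⟩ := associatedPrimes.nonempty PP Mχ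
  obtain ⟨hP, x, hx⟩ := isAssociatedPrime_iff.mp hPass
  have hann : Module.annihilator PP Mχ ≤ P := by
    intro p hp
    rw [hx, Submodule.mem_colon_singleton, Submodule.mem_bot]
    exact Module.mem_annihilator.mp hp x
  have hfinD : Module.Finite S (PP ⧸ P) := finite_quot_of_colon hx
  have hinj : Function.Injective (algebraMap S (PP ⧸ P)) := injective_quot_of_colon hx
  have hmk : ∀ s : S, algebraMap S (PP ⧸ P) s = Ideal.Quotient.mk P (algebraMap S PP s) :=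
    fun s => rfl
  have hEcard : (E.image (Ideal.Quotient.mk P)).card ≤ E.card := Finset.card_image_le
  -- maximality transfers to quotients
  have htrans : ∀ (Q : Ideal PP) [Q.IsPrime], Module.annihilator PP Mχ ≤ Q →
      ∀ 𝔓 : Ideal (PP ⧸ Q), 𝔓.IsPrime → Ideal.Quotient.mk Q (algebraMap S PP ϖ) ∈ 𝔓 →
      Ideal.Quotient.mk Q b ∈ 𝔓 → Ideal.Quotient.mk Q c ∈ 𝔓 → Ideal.Quotient.mk Q a ∈ 𝔓 →
      Ideal.Quotient.mk Q y ∈ 𝔓 → Ideal.Quotient.mk Q z ∈ 𝔓 → Ideal.Quotient.mk Q β ∈ 𝔓 →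
      (∀ x ∈ E.image (Ideal.Quotient.mk Q), x ∈ 𝔓) → 𝔓 = maximalIdeal (PP ⧸ Q) := by
    intro Q hQ hQann 𝔓 h𝔓 hϖ𝔓 hb𝔓 hc𝔓 ha𝔓 hy𝔓 hz𝔓 hβ𝔓 hE𝔓
    have h1 : maximalIdeal PP ≤ 𝔓.comap (Ideal.Quotient.mk Q) := by
      refine hmax _ (h𝔓.comap _) ?_ hϖ𝔓 hb𝔓 hc𝔓 ha𝔓 hy𝔓 hz𝔓 hβ𝔓 ?_
      · intro j hj
        rw [Ideal.mem_comap, Ideal.Quotient.eq_zero_iff_mem.mpr (hQann (hJ hj))]
        exact zero_mem _
      · intro x hx
        exact hE𝔓 _ (Finset.mem_image_of_mem _ hx)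
    refine le_antisymm (le_maximalIdeal h𝔓.ne_top) ?_
    intro x hx
    obtain ⟨y, hy, rfl⟩ := exists_of_mem_maximalIdeal Q hx
    exact h1 hy
  obtain ⟨δ, hδT, hδP⟩ := (hP.prod_mem_iff).mp (hann r4)
  have hδ : δ ∣ ϖ ^ e := hT δ hδT
  -- apply the core lemma
  obtain ⟨𝔮, h𝔮, h𝔮ϖ, hb𝔮, hc𝔮, ha𝔮⟩ := core (S := S) (D := PP ⧸ P) hinj ϖ hϖ δ e hδ
    (Ideal.Quotient.mk P b) (Ideal.Quotient.mk P c) (Ideal.Quotient.mk P a)
    (Ideal.Quotient.mk P y) (Ideal.Quotient.mk P z) (Ideal.Quotient.mk P β)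
    (by
      rw [← map_mul, ← map_mul, Ideal.Quotient.eq]; exact hann r1)
    (by
      rw [← map_mul, ← map_mul, Ideal.Quotient.eq]; exact hann r2)
    (by
      rw [← map_mul, ← map_mul, Ideal.Quotient.eq]; exact hann r3)
    (by
      have h4 : (4 : PP ⧸ P) = Ideal.Quotient.mk P 4 := (map_ofNat _ 4).symm
      rw [hmk, h4, ← map_pow, ← map_mul, ← map_mul, ← map_add, Ideal.Quotient.eq]
      exact hδP)
    (E.image (Ideal.Quotient.mk P))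
    (mk_mem_maximalIdeal P hP.ne_top hb) (mk_mem_maximalIdeal P hP.ne_top hc)
    (mk_mem_maximalIdeal P hP.ne_top ha)
    (by
      intro x hx
      obtain ⟨x', hx', rfl⟩ := Finset.mem_image.mp hx
      exact mk_mem_maximalIdeal P hP.ne_top (hE x' hx'))
    (htrans P hann)
    (lt_of_le_of_lt (by exact_mod_cast Nat.add_le_add_right hEcard 3) hdim)
  -- the prime of `PP`
  set 𝔮' : Ideal PP := 𝔮.comap (Ideal.Quotient.mk P) with h𝔮'
  have h𝔮'p : 𝔮'.IsPrime := h𝔮.comap _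
  have hP𝔮' : P ≤ 𝔮' := by
    intro p hp
    rw [h𝔮', Ideal.mem_comap, Ideal.Quotient.eq_zero_iff_mem.mpr hp]
    exact zero_mem _
  have hϖ𝔮' : algebraMap S PP ϖ ∈ 𝔮' := by
    have : ϖ ∈ 𝔮.comap (algebraMap S (PP ⧸ P)) := by
      rw [h𝔮ϖ]; exact mem_span_singleton_self ϖ
    exact this
  -- the dimension of the quotient by `𝔮'`
  have hdimq : ringKrullDim (S ⧸ span {ϖ}) ≤ ringKrullDim (PP ⧸ 𝔮') := by
    have h1 := ringKrullDim_quot_le (S := S) (D := PP ⧸ P) (span {ϖ}) 𝔮 h𝔮ϖ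
    refine h1.trans ?_
    have hsurj : Function.Surjective (Ideal.quotientMap 𝔮 (Ideal.Quotient.mk P) (le_refl _) :
        PP ⧸ 𝔮' →+* (PP ⧸ P) ⧸ 𝔮) :=
      Ideal.quotientMap_surjective Ideal.Quotient.mk_surjective
    exact ringKrullDim_le_of_surjective _ hsurj
  have hD4 : β ^ 2 + 4 * y * z ∉ 𝔮' := by
    intro hmem
    have hann' : Module.annihilator PP Mχ ≤ 𝔮' := hann.trans hP𝔮'
    let E' : Finset (PP ⧸ 𝔮') := insert (Ideal.Quotient.mk 𝔮' y)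
      (insert (Ideal.Quotient.mk 𝔮' z) (E.image (Ideal.Quotient.mk 𝔮')))
    have hcard : E'.card ≤ E.card + 2 := by
      have h1 := Finset.card_insert_le (Ideal.Quotient.mk 𝔮' y)
        (insert (Ideal.Quotient.mk 𝔮' z) (E.image (Ideal.Quotient.mk 𝔮')))
      have h2 := Finset.card_insert_le (Ideal.Quotient.mk 𝔮' z)
        (E.image (Ideal.Quotient.mk 𝔮'))
      have h3 : (E.image (Ideal.Quotient.mk 𝔮')).card ≤ E.card := Finset.card_image_le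
      exact h1.trans (by omega)
    have hmin : maximalIdeal (PP ⧸ 𝔮') ∈ (span (E' : Set (PP ⧸ 𝔮'))).minimalPrimes := by
      refine ⟨⟨inferInstance, ?_⟩, ?_⟩
      · rw [Ideal.span_le]
        intro x hx
        simp only [E', Finset.coe_insert, Set.mem_insert_iff, Finset.mem_coe] at hx
        rcases hx with rfl | rfl | hx
        · exact mk_mem_maximalIdeal 𝔮' h𝔮'p.ne_top hy
        · exact mk_mem_maximalIdeal 𝔮' h𝔮'p.ne_top hz
        · obtain ⟨x', hx', rfl⟩ := Finset.mem_image.mp hx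
          exact mk_mem_maximalIdeal 𝔮' h𝔮'p.ne_top (hE x' hx')
      · rintro 𝔓 ⟨h𝔓, hle⟩ -
        have hy' : Ideal.Quotient.mk 𝔮' y ∈ 𝔓 := hle (subset_span (by simp [E']))
        have hz' : Ideal.Quotient.mk 𝔮' z ∈ 𝔓 := hle (subset_span (by simp [E']))
        have hE' : ∀ x ∈ E.image (Ideal.Quotient.mk 𝔮'), x ∈ 𝔓 := fun x hx =>
          hle (subset_span (by
            simp only [E', Finset.coe_insert, Set.mem_insert_iff, Finset.mem_coe]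
            exact Or.inr (Or.inr hx)))
        have hzero : ∀ {t : PP}, t ∈ 𝔮' → Ideal.Quotient.mk 𝔮' t ∈ 𝔓 := by
          intro t ht
          rw [Ideal.Quotient.eq_zero_iff_mem.mpr ht]; exact zero_mem _
        have hβ' : Ideal.Quotient.mk 𝔮' β ∈ 𝔓 := by
          apply h𝔓.mem_of_pow_mem 2
          have h1 : Ideal.Quotient.mk 𝔮' β ^ 2 =
              Ideal.Quotient.mk 𝔮' (β ^ 2 + 4 * y * z) -
                Ideal.Quotient.mk 𝔮' (4 * y) * Ideal.Quotient.mk 𝔮' z := by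
            rw [← map_pow, ← map_mul, ← map_sub]; congr 1; ring
          rw [h1]
          exact sub_mem (hzero hmem) (Ideal.mul_mem_left _ _ hz')
        exact (htrans 𝔮' hann' 𝔓 h𝔓 (hzero hϖ𝔮') (hzero hb𝔮) (hzero hc𝔮) (hzero ha𝔮) hy' hz' hβ'
          hE').ge
    have hht := Ideal.height_le_card_of_mem_minimalPrimes_span_finset hmin
    have h2 : ringKrullDim (PP ⧸ 𝔮') ≤ ((E.card + 2 : ℕ) : WithBot ℕ∞) := by
      rw [← IsLocalRing.maximalIdeal_height_eq_ringKrullDim (R := PP ⧸ 𝔮')]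
      have : (maximalIdeal (PP ⧸ 𝔮')).height ≤ ((E.card + 2 : ℕ) : ℕ∞) :=
        hht.trans (by exact_mod_cast hcard)
      exact WithBot.coe_le_coe.mpr this
    exact absurd (hdim'.trans_le (hdimq.trans h2)) (lt_irrefl _)
  -- supports
  have hsup1 : (⟨𝔮', h𝔮'p⟩ : PrimeSpectrum PP) ∈ Module.support PP M1 := by
    have h1 : (⟨𝔮', h𝔮'p⟩ : PrimeSpectrum PP) ∈ Module.support PP Mχ := by
      rw [Module.mem_support_iff_of_finite]
      exact hann.trans hP𝔮'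
    have h2 : (⟨𝔮', h𝔮'p⟩ : PrimeSpectrum PP) ∈
        Module.support PP (QuotSMulTop (algebraMap S PP ϖ) Mχ) := by
      rw [Module.support_quotSMulTop]
      refine ⟨h1, ?_⟩
      rw [PrimeSpectrum.mem_zeroLocus, Set.singleton_subset_iff]
      exact hϖ𝔮'
    rw [iso.support_eq, Module.support_quotSMulTop] at h2
    exact h2.1
  rw [Module.mem_support_iff_of_finite] at hsup1
  apply hD4
  have h1 : algebraMap S PP ε ∈ 𝔮' := by
    obtain ⟨ε', rfl⟩ := hε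
    rw [map_mul]; exact Ideal.mul_mem_right _ _ hϖ𝔮'
  have := add_mem (hsup1 hD) h1
  simpa using this

end Main

section main

variable {𝒪 : Type} [CommRing 𝒪] [IsDomain 𝒪] [IsDiscreteValuationRing 𝒪]
    [IsAdicComplete (maximalIdeal 𝒪) 𝒪] [Finite (ResidueField 𝒪)]
    {r : ℕ} {PP : Type} [CommRing PP] [IsLocalRing PP] [IsNoetherianRing PP] [Algebra 𝒪 PP]

/-- Contradiction version of `exists_point`. -/
theorem no_point (𝓤 : Ultrafilter ℕ) (hPP : HasULim 𝓤 (maximalIdeal PP))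
    (J : ℕ → Ideal (MvPowerSeries (Fin r) 𝒪))
    (hJ : ∀ k, ∀ᶠ n in (𝓤 : Filter ℕ), J n ≤ maximalIdeal (MvPowerSeries (Fin r) 𝒪) ^ k)
    (φ : ℕ → MvPowerSeries (Fin r) 𝒪 →ₐ[𝒪] PP)
    {d : ℕ} (hd : 0 < d)
    (c1 cχ : ∀ n, PP →+* Matrix (Fin d) (Fin d) (MvPowerSeries (Fin r) 𝒪 ⧸ J n))
    (hc1 : ∀ n s, c1 n (φ n s) = Matrix.scalar (Fin d) (Ideal.Quotient.mk (J n) s))
    (hcχ : ∀ n s, cχ n (φ n s) = Matrix.scalar (Fin d) (Ideal.Quotient.mk (J n) s))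
    (ϖ : 𝒪) (hϖ : Prime ϖ)
    (hcong : ∀ n f i j, c1 n f i j - cχ n f i j ∈
      (Ideal.span {(C ϖ : MvPowerSeries (Fin r) 𝒪)}).map (Ideal.Quotient.mk (J n)))
    (b c a y z β : PP) (T : Finset 𝒪) (hT : ∀ δ ∈ T, δ ≠ 0) (ε : 𝒪) (hε : ϖ ∣ ε)
    (r1 : ∀ n, cχ n (b * z - c * y) = 0) (r2 : ∀ n, cχ n (b * β - a * y) = 0)
    (r3 : ∀ n, cχ n (c * β - a * z) = 0)
    (r4 : ∀ n, cχ n (∏ δ ∈ T, (a ^ 2 + 4 * b * c - algebraMap 𝒪 PP δ)) = 0)
    (hD : ∀ n, c1 n (β ^ 2 + 4 * y * z - algebraMap 𝒪 PP ε) = 0)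
    (hb : b ∈ maximalIdeal PP) (hc : c ∈ maximalIdeal PP) (ha : a ∈ maximalIdeal PP)
    (hy : y ∈ maximalIdeal PP) (hz : z ∈ maximalIdeal PP)
    (E : Finset PP) (hE : ∀ x ∈ E, x ∈ maximalIdeal PP) (hEcard : E.card + 3 ≤ r)
    (rel : Set PP) (hrel : ∀ f ∈ rel, ∀ n, ∃ t : PP, cχ n (f - algebraMap 𝒪 PP ϖ * t) = 0)
    (hmax : ∀ 𝔓 : Ideal PP, 𝔓.IsPrime → algebraMap 𝒪 PP ϖ ∈ 𝔓 → rel ⊆ 𝔓 → b ∈ 𝔓 → c ∈ 𝔓 →
      a ∈ 𝔓 → y ∈ 𝔓 → z ∈ 𝔓 → β ∈ 𝔓 → (∀ x ∈ E, x ∈ 𝔓) → maximalIdeal PP ≤ 𝔓) :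
    False := by
  classical
  have h𝒪 : HasULim 𝓤 (maximalIdeal 𝒪) := hasULim_maximalIdeal
  have hS : HasULim 𝓤 (maximalIdeal (MvPowerSeries (Fin r) 𝒪)) := hasULim_mvPowerSeries h𝒪
  have hPPH : UHaus (maximalIdeal PP) := uHaus_maximalIdeal
  have h𝒪H : UHaus (maximalIdeal 𝒪) := uHaus_maximalIdeal
  -- limits
  obtain ⟨φ', hφ'⟩ := exists_algHom_lim (𝓤 := 𝓤) hPP hPPH φ
  obtain ⟨k1, hk1⟩ := exists_clim hS hJ c1
  obtain ⟨kχ, hkχ⟩ := exists_clim hS hJ cχ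
  have hscal : ∀ (e : ∀ n, PP →+* Matrix (Fin d) (Fin d) (MvPowerSeries (Fin r) 𝒪 ⧸ J n))
      (e' : PP →+* Matrix (Fin d) (Fin d) (MvPowerSeries (Fin r) 𝒪))
      (_ : ∀ n s, e n (φ n s) = Matrix.scalar (Fin d) (Ideal.Quotient.mk (J n) s))
      (_ : ∀ f i j, TQ 𝓤 J (fun n => e n f i j) (e' f i j)) (s : MvPowerSeries (Fin r) 𝒪),
      e' (φ' s) = Matrix.scalar (Fin d) s := by
    intro e e' he he' s
    ext1 i j
    refine TQ.unique hJ (he' (φ' s) i j) ?_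
    have h1 : TendsU 𝓤 (maximalIdeal PP) (fun n => φ' s - φ n s) 0 := by
      have := (TendsU.const (φ' s)).sub (hφ' s)
      rwa [sub_self] at this
    have h2 := TQ.cont hJ e h1 i j
    have h3 : TQ 𝓤 J (fun n => Ideal.Quotient.mk (J n) ((Matrix.scalar (Fin d) s) i j))
      ((Matrix.scalar (Fin d) s) i j) := TQ.const _
    have h4 := h3.add h2
    rw [add_zero] at h4
    refine h4.congr fun n => ?_
    have h5 : φ' s = φ n s + (φ' s - φ n s) := by ring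
    conv_rhs => rw [h5]
    rw [map_add, he n s, Matrix.add_apply]
    congr 1
    rw [Matrix.scalar_apply, Matrix.scalar_apply, Matrix.diagonal_apply, Matrix.diagonal_apply]
    split_ifs <;> simp
  let algS : Algebra (MvPowerSeries (Fin r) 𝒪) PP := φ'.toRingHom.toAlgebra
  have halgS : ∀ s, algebraMap (MvPowerSeries (Fin r) 𝒪) PP s = φ' s := fun s => rfl
  have halgC : ∀ o : 𝒪, algebraMap (MvPowerSeries (Fin r) 𝒪) PP (C o) = algebraMap 𝒪 PP o := by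
    intro o
    rw [halgS]
    exact φ'.commutes o
  have hs1 : ∀ s, k1 (algebraMap (MvPowerSeries (Fin r) 𝒪) PP s) = Matrix.scalar (Fin d) s :=
    fun s => hscal c1 k1 hc1 hk1 s
  have hsχ : ∀ s, kχ (algebraMap (MvPowerSeries (Fin r) 𝒪) PP s) = Matrix.scalar (Fin d) s :=
    fun s => hscal cχ kχ hcχ hkχ s
  have htow1 := MV.isScalarTower k1 hs1
  have htowχ := MV.isScalarTower kχ hsχ
  have hcong' : ∀ f i j, k1 f i j - kχ f i j ∈
      Ideal.span {(C ϖ : MvPowerSeries (Fin r) 𝒪)} := by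
    intro f i j
    exact TQ.mem_of_forall _ hJ ((hk1 f i j).sub (hkχ f i j)) (fun n => hcong n f i j)
  obtain ⟨iso⟩ := MV.exists_iso k1 kχ hs1 hsχ (C ϖ) hcong'
  -- relations pass to the limit
  have hzero : ∀ (e : ∀ n, PP →+* Matrix (Fin d) (Fin d) (MvPowerSeries (Fin r) 𝒪 ⧸ J n))
      (e' : PP →+* Matrix (Fin d) (Fin d) (MvPowerSeries (Fin r) 𝒪))
      (_ : ∀ f i j, TQ 𝓤 J (fun n => e n f i j) (e' f i j)) (f : PP),
      (∀ n, e n f = 0) → f ∈ Module.annihilator PP (MV e') := by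
    intro e e' he' f hf
    rw [MV.mem_annihilator_iff]
    ext1 i j
    refine TQ.unique hJ (he' f i j) ?_
    refine (TQ.const (0 : MvPowerSeries (Fin r) 𝒪)).congr fun n => ?_
    rw [hf n, map_zero, Matrix.zero_apply]
  have hrel' : ∀ f ∈ rel, ∃ t : PP,
      f - algebraMap 𝒪 PP ϖ * t ∈ Module.annihilator PP (MV kχ) := by
    intro f hf
    choose t ht using hrel f hf
    obtain ⟨t', ht'⟩ := hPP t
    refine ⟨t', ?_⟩
    rw [MV.mem_annihilator_iff]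
    ext1 i j
    refine TQ.unique hJ (hkχ _ i j) ?_
    have h1 : TendsU 𝓤 (maximalIdeal PP)
        (fun n => (f - algebraMap 𝒪 PP ϖ * t') - (f - algebraMap 𝒪 PP ϖ * t n)) 0 := by
      have h2 := (TendsU.const (algebraMap 𝒪 PP ϖ)).mul (ht'.sub (TendsU.const t'))
      rw [sub_self, mul_zero] at h2
      refine h2.congr fun k => Eventually.of_forall fun n => ?_
      have h3 : algebraMap 𝒪 PP ϖ * (t n - t') -
          (f - algebraMap 𝒪 PP ϖ * t' - (f - algebraMap 𝒪 PP ϖ * t n)) = 0 := by ring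
      rw [h3]
      exact zero_mem _
    have h2 := TQ.cont hJ cχ h1 i j
    rw [Matrix.zero_apply]
    refine h2.congr fun n => ?_
    rw [map_sub, ht n, sub_zero]
  -- nontriviality
  have hnt : Nontrivial (MV kχ) := by
    have : Nonempty (Fin d) := ⟨⟨0, hd⟩⟩
    exact inferInstanceAs (Nontrivial (Fin d → MvPowerSeries (Fin r) 𝒪))
  have hϖS : Prime (C ϖ : MvPowerSeries (Fin r) 𝒪) := Dims.prime_C hϖ
  obtain ⟨e, he⟩ := exists_dvd_pow hϖ T hT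
  have hdomS : IsDomain (MvPowerSeries (Fin r) 𝒪) := NoZeroDivisors.to_isDomain _
  have hCinj : Function.Injective (C : 𝒪 →+* MvPowerSeries (Fin r) 𝒪) := by
    intro x y hxy
    have := congrArg constantCoeff hxy
    simpa using this
  have hT' : ∀ δ ∈ T.map ⟨C, hCinj⟩, δ ∣ (C ϖ : MvPowerSeries (Fin r) 𝒪) ^ e := by
    intro δ hδ
    obtain ⟨δ', hδ', rfl⟩ := Finset.mem_map.mp hδ
    have h1 := map_dvd (C : 𝒪 →+* MvPowerSeries (Fin r) 𝒪) (he δ' hδ')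
    rw [map_pow] at h1
    exact h1
  have hprod : ∏ δ ∈ T.map ⟨C, hCinj⟩,
      (a ^ 2 + 4 * b * c - algebraMap (MvPowerSeries (Fin r) 𝒪) PP δ) =
      ∏ δ ∈ T, (a ^ 2 + 4 * b * c - algebraMap 𝒪 PP δ) := by
    rw [Finset.prod_map]
    refine Finset.prod_congr rfl fun δ _ => ?_
    rw [← halgC]
    rfl
  exact avoid_false (S := MvPowerSeries (Fin r) 𝒪) (PP := PP) (C ϖ) hϖS
    (Mχ := MV kχ) (M1 := MV k1) iso b c a y z β (T.map ⟨C, hCinj⟩) (C ε) e hT' (map_dvd C hε)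
    (hzero cχ kχ hkχ _ r1) (hzero cχ kχ hkχ _ r2) (hzero cχ kχ hkχ _ r3)
    (by rw [hprod]; exact hzero cχ kχ hkχ _ r4)
    (by rw [halgC]; exact hzero c1 k1 hk1 _ hD)
    hb hc ha hy hz E hE (Module.annihilator PP (MV kχ)) le_rfl
    (by
      intro 𝔓 h𝔓 hJ𝔓 hϖ𝔓 h1 h2 h3 h4 h5 h6 h7
      rw [halgC] at hϖ𝔓
      refine hmax 𝔓 h𝔓 hϖ𝔓 ?_ h1 h2 h3 h4 h5 h6 h7
      intro f hf
      obtain ⟨t, ht⟩ := hrel' f hf
      have h8 := 𝔓.add_mem (hJ𝔓 ht) (𝔓.mul_mem_right t hϖ𝔓)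
      rwa [sub_add_cancel] at h8)
    (lt_of_le_of_lt (by exact_mod_cast hEcard) (Dims.lt_ringKrullDim r))
    (lt_of_lt_of_le (by exact_mod_cast (by omega : E.card + 2 < r)) (Dims.le_ringKrullDim_quot hϖ r))

end main

section

variable (𝒪 : Type) [CommRing 𝒪] {k m : ℕ}

/-- Matrix data at one level, contradiction version. -/
def MatData0 (p r k m d : ℕ) (ϖ : 𝒪) (T : Finset 𝒪) (ε : 𝒪) (n : ℕ) : Prop :=
  ∃ a : Fin r → ℕ, (∀ i, n ≤ a i) ∧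
  ∃ (φ : MvPowerSeries (Fin r) 𝒪 →ₐ[𝒪] PPr 𝒪 k m)
    (c1 cχ : PPr 𝒪 k m →+* Matrix (Fin d) (Fin d) (MvPowerSeries (Fin r) 𝒪 ⧸ idealJ 𝒪 p a)),
    ((∀ s, c1 (φ s) = Matrix.scalar (Fin d) (Ideal.Quotient.mk _ s)) ∧
    (∀ s, cχ (φ s) = Matrix.scalar (Fin d) (Ideal.Quotient.mk _ s)) ∧
    (∀ f i j, c1 f i j - cχ f i j ∈
      (Ideal.span {(C ϖ : MvPowerSeries (Fin r) 𝒪)}).map (Ideal.Quotient.mk (idealJ 𝒪 p a)))) ∧
    -- relations at the distinguished prime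
    ((cχ (var 𝒪 (.inl 0) * var 𝒪 (.inl 4) - var 𝒪 (.inl 1) * var 𝒪 (.inl 3)) = 0 ∧
    cχ (var 𝒪 (.inl 0) * var 𝒪 (.inl 5) - var 𝒪 (.inl 2) * var 𝒪 (.inl 3)) = 0 ∧
    cχ (var 𝒪 (.inl 1) * var 𝒪 (.inl 5) - var 𝒪 (.inl 2) * var 𝒪 (.inl 4)) = 0 ∧
    cχ (∏ δ ∈ T, (var 𝒪 (.inl 2) ^ 2 + 4 * var 𝒪 (.inl 0) * var 𝒪 (.inl 1) -
      algebraMap 𝒪 (PPr 𝒪 k m) δ)) = 0) ∧
    c1 (var 𝒪 (.inl 5) ^ 2 + 4 * var 𝒪 (.inl 3) * var 𝒪 (.inl 4) -
      algebraMap 𝒪 (PPr 𝒪 k m) ε) = 0) ∧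
    -- relations at the other primes
    (∀ l : Fin k,
      (∃ t, cχ (var 𝒪 (.inr (.inl (l, 0))) * var 𝒪 (.inr (.inl (l, 4))) -
        var 𝒪 (.inr (.inl (l, 1))) * var 𝒪 (.inr (.inl (l, 3))) -
          algebraMap 𝒪 (PPr 𝒪 k m) ϖ * t) = 0) ∧
      (∃ t, cχ (var 𝒪 (.inr (.inl (l, 0))) * var 𝒪 (.inr (.inl (l, 5))) -
        var 𝒪 (.inr (.inl (l, 2))) * var 𝒪 (.inr (.inl (l, 3))) -
          algebraMap 𝒪 (PPr 𝒪 k m) ϖ * t) = 0) ∧
      (∃ t, cχ (var 𝒪 (.inr (.inl (l, 1))) * var 𝒪 (.inr (.inl (l, 5))) -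
        var 𝒪 (.inr (.inl (l, 2))) * var 𝒪 (.inr (.inl (l, 4))) -
          algebraMap 𝒪 (PPr 𝒪 k m) ϖ * t) = 0) ∧
      (∃ t, cχ (var 𝒪 (.inr (.inl (l, 2))) ^ 2 + 4 * var 𝒪 (.inr (.inl (l, 0))) *
        var 𝒪 (.inr (.inl (l, 1))) - algebraMap 𝒪 (PPr 𝒪 k m) ϖ * t) = 0))

end

/-- Contradiction out of matrix data at all levels. -/
theorem false_of_matData0 {𝒪 : Type} [CommRing 𝒪] [IsDomain 𝒪] [IsDiscreteValuationRing 𝒪]
    [IsAdicComplete (maximalIdeal 𝒪) 𝒪] [Finite (ResidueField 𝒪)] {p : ℕ}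
    (hp𝒪 : (p : 𝒪) ∈ maximalIdeal 𝒪) (h2 : IsUnit (2 : 𝒪)) {r k m d : ℕ} (hd : 0 < d)
    (hr : m + 3 * k + 3 ≤ r) {ϖ : 𝒪} (hϖ : Prime ϖ) {T : Finset 𝒪} (hT : ∀ δ ∈ T, δ ≠ 0)
    {ε : 𝒪} (hε : ϖ ∣ ε) (h : ∀ n, MatData0 𝒪 p r k m d ϖ T ε n) : False := by
  classical
  choose a ha φ c1 cχ h using h
  let 𝓤 : Ultrafilter ℕ := Filter.hyperfilter ℕ
  have hmax𝒪 : maximalIdeal 𝒪 = Ideal.span {ϖ} :=
    (IsDiscreteValuationRing.irreducible_iff_uniformizer ϖ).mp hϖ.irreducible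
  refine no_point (r := r) (PP := PPr 𝒪 k m) 𝓤 (hasULim_mvPowerSeries hasULim_maximalIdeal)
    (fun n => idealJ 𝒪 p (a n)) ?_ φ hd c1 cχ (fun n => (h n).1.1) (fun n => (h n).1.2.1) ϖ hϖ
    (fun n => (h n).1.2.2) (var 𝒪 (.inl 0)) (var 𝒪 (.inl 1)) (var 𝒪 (.inl 2))
    (var 𝒪 (.inl 3)) (var 𝒪 (.inl 4)) (var 𝒪 (.inl 5)) T hT ε hε
    (fun n => (h n).2.1.1.1) (fun n => (h n).2.1.1.2.1) (fun n => (h n).2.1.1.2.2.1)
    (fun n => (h n).2.1.1.2.2.2) (fun n => (h n).2.1.2)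
    (var_mem_maximalIdeal _) (var_mem_maximalIdeal _) (var_mem_maximalIdeal _)
    (var_mem_maximalIdeal _) (var_mem_maximalIdeal _) (EE 𝒪 k m) EE_le_maximalIdeal
    ((Nat.add_le_add_right card_EE 3).trans hr)
    {f | ∃ l : Fin k, f = var 𝒪 (.inr (.inl (l, 0))) * var 𝒪 (.inr (.inl (l, 4))) -
        var 𝒪 (.inr (.inl (l, 1))) * var 𝒪 (.inr (.inl (l, 3))) ∨
      f = var 𝒪 (.inr (.inl (l, 0))) * var 𝒪 (.inr (.inl (l, 5))) -
        var 𝒪 (.inr (.inl (l, 2))) * var 𝒪 (.inr (.inl (l, 3))) ∨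
      f = var 𝒪 (.inr (.inl (l, 1))) * var 𝒪 (.inr (.inl (l, 5))) -
        var 𝒪 (.inr (.inl (l, 2))) * var 𝒪 (.inr (.inl (l, 4))) ∨
      f = var 𝒪 (.inr (.inl (l, 2))) ^ 2 + 4 * var 𝒪 (.inr (.inl (l, 0))) *
        var 𝒪 (.inr (.inl (l, 1)))} ?_ ?_
  · intro j
    have h1 : ∀ᶠ n in (𝓤 : Filter ℕ), j ≤ n := by
      have : (𝓤 : Filter ℕ) ≤ Filter.atTop := by
        rw [← Nat.cofinite_eq_atTop]
        exact Filter.hyperfilter_le_cofinite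
      exact this (Filter.eventually_ge_atTop j)
    filter_upwards [h1] with n hn
    exact idealJ_le_pow hp𝒪 (fun i => hn.trans (ha n i))
  · rintro f ⟨l, rfl | rfl | rfl | rfl⟩ n
    · exact ((h n).2.2 l).1
    · exact ((h n).2.2 l).2.1
    · exact ((h n).2.2 l).2.2.1
    · exact ((h n).2.2 l).2.2.2
  · intro 𝔓 h𝔓 hϖ𝔓 hrel hb hc ha' hy hz hβ hE
    have h2' : IsUnit (2 : PPr 𝒪 k m) := by
      have := h2.map (algebraMap 𝒪 (PPr 𝒪 k m))
      rwa [map_ofNat] at this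
    refine maximalIdeal_le_of_var hmax𝒪 𝔓 hϖ𝔓 ?_
    rintro (j | ⟨l, j⟩ | j)
    · fin_cases j
      · exact hb
      · exact hc
      · exact ha'
      · exact hy
      · exact hz
      · exact hβ
    · obtain ⟨g0, g1, g2, g3, g4⟩ := mem_of_relations 𝔓 h2'
        (hrel ⟨l, Or.inl rfl⟩) (hrel ⟨l, Or.inr (Or.inl rfl)⟩)
        (hrel ⟨l, Or.inr (Or.inr (Or.inl rfl))⟩) (hrel ⟨l, Or.inr (Or.inr (Or.inr rfl))⟩)
        (hE _ (mem_EE_0 l)) (hE _ (mem_EE_1 l)) (hE _ (mem_EE_2 l))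
      fin_cases j
      · exact g0
      · exact g1
      · exact g2
      · exact g3
      · exact g4
      · exact hE _ (mem_EE_0 l)
    · exact hE _ (mem_EE_ext j)

section level

variable {𝒪 : Type} [CommRing 𝒪] [IsDomain 𝒪] [IsDiscreteValuationRing 𝒪]
    [IsAdicComplete (maximalIdeal 𝒪) 𝒪] [Finite (ResidueField 𝒪)] {p : ℕ} [hpp : Fact p.Prime]
    {r : ℕ} (a : Fin r → ℕ)
    {R' : Type} [CommRing R'] [IsLocalRing R'] [IsNoetherianRing R'] [Algebra 𝒪 R']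
    [IsLocalHom (algebraMap 𝒪 R')] [IsAdicComplete (maximalIdeal R') R']
    {M1 : Type} [AddCommGroup M1] [Module R' M1] [Module (Lam 𝒪 p a) M1]
    [Module.Free (Lam 𝒪 p a) M1] [Module.Finite (Lam 𝒪 p a) M1]
    {Mχ : Type} [AddCommGroup Mχ] [Module R' Mχ] [Module (Lam 𝒪 p a) Mχ]
    [Module.Free (Lam 𝒪 p a) Mχ] [Module.Finite (Lam 𝒪 p a) Mχ]

theorem matData0_of_level (hp𝒪 : (p : 𝒪) ∈ maximalIdeal 𝒪) {ϖ : 𝒪} (hϖ : Prime ϖ)
    {k m d n : ℕ} (ha : ∀ i, n ≤ a i)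
    (hres : Function.Surjective (residue R' ∘ algebraMap 𝒪 R'))
    (x : Idx k m → R') (hx : ∀ i, x i ∈ maximalIdeal R')
    (hspan : maximalIdeal R' ≤ Ideal.span (Set.range x) ⊔
      (maximalIdeal 𝒪).map (algebraMap 𝒪 R'))
    (δ : (Grp fun i => p ^ a i) →* R') (hδ : ∀ i, δ (gen _ i) - 1 ∈ maximalIdeal R')
    (hG1 : ∀ (g : Grp fun i => p ^ a i) (u : M1), MonoidAlgebra.of 𝒪 _ g • u = δ g • u)
    (h𝒪1 : ∀ (c : 𝒪) (u : M1), algebraMap 𝒪 (Lam 𝒪 p a) c • u = algebraMap 𝒪 R' c • u)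
    (hGχ : ∀ (g : Grp fun i => p ^ a i) (u : Mχ), MonoidAlgebra.of 𝒪 _ g • u = δ g • u)
    (h𝒪χ : ∀ (c : 𝒪) (u : Mχ), algebraMap 𝒪 (Lam 𝒪 p a) c • u = algebraMap 𝒪 R' c • u)
    (iso : QuotSMulTop (algebraMap 𝒪 R' ϖ) M1 ≃ₗ[R'] QuotSMulTop (algebraMap 𝒪 R' ϖ) Mχ)
    (hrank : Module.finrank (Lam 𝒪 p a) M1 = d)
    (T : Finset 𝒪) (ε : 𝒪)
    (r1 : ∀ u : Mχ, (x (.inl 0) * x (.inl 4) - x (.inl 1) * x (.inl 3)) • u = 0)
    (r2 : ∀ u : Mχ, (x (.inl 0) * x (.inl 5) - x (.inl 2) * x (.inl 3)) • u = 0)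
    (r3 : ∀ u : Mχ, (x (.inl 1) * x (.inl 5) - x (.inl 2) * x (.inl 4)) • u = 0)
    (r4 : ∀ u : Mχ, (∏ t ∈ T, (x (.inl 2) ^ 2 + 4 * x (.inl 0) * x (.inl 1) -
      algebraMap 𝒪 R' t)) • u = 0)
    (hD : ∀ u : M1, (x (.inl 5) ^ 2 + 4 * x (.inl 3) * x (.inl 4) - algebraMap 𝒪 R' ε) • u = 0)
    (o1 : ∀ l : Fin k, ∃ t, ∀ u : Mχ, (x (.inr (.inl (l, 0))) * x (.inr (.inl (l, 4))) -
        x (.inr (.inl (l, 1))) * x (.inr (.inl (l, 3))) - algebraMap 𝒪 R' ϖ * t) • u = 0)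
    (o2 : ∀ l : Fin k, ∃ t, ∀ u : Mχ, (x (.inr (.inl (l, 0))) * x (.inr (.inl (l, 5))) -
        x (.inr (.inl (l, 2))) * x (.inr (.inl (l, 3))) - algebraMap 𝒪 R' ϖ * t) • u = 0)
    (o3 : ∀ l : Fin k, ∃ t, ∀ u : Mχ, (x (.inr (.inl (l, 1))) * x (.inr (.inl (l, 5))) -
        x (.inr (.inl (l, 2))) * x (.inr (.inl (l, 4))) - algebraMap 𝒪 R' ϖ * t) • u = 0)
    (o4 : ∀ l : Fin k, ∃ t, ∀ u : Mχ, (x (.inr (.inl (l, 2))) ^ 2 + 4 * x (.inr (.inl (l, 0))) *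
        x (.inr (.inl (l, 1))) - algebraMap 𝒪 R' ϖ * t) • u = 0) :
    MatData0 𝒪 p r k m d ϖ T ε n := by
  classical
  have hloc : IsLocalRing (Lam 𝒪 p a) := isLocalRing_Lam a hp𝒪
  have hϖm : ϖ ∈ maximalIdeal 𝒪 := by
    rw [mem_maximalIdeal, mem_nonunits_iff]; exact hϖ.not_isUnit
  have hl1 := Fd_smul a δ hG1 h𝒪1
  have hlχ := Fd_smul a δ hGχ h𝒪χ
  -- the ring homs
  obtain ⟨γ, hγ⟩ := exists_eval (𝒪 := 𝒪) (fun i => x ((idxEquiv k m).symm i)) (fun i => hx _)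
  have hγvar : ∀ i, γ (var 𝒪 i) = x i := by
    intro i
    rw [var, hγ, Equiv.symm_apply_apply]
  have hγs : Function.Surjective γ := by
    refine eval_surjective hres γ (fun i => by rw [hγ]; exact hx _) ?_
    have h1 : Set.range (fun i => γ (X i)) = Set.range x := by
      ext y
      constructor
      · rintro ⟨i, rfl⟩
        exact ⟨(idxEquiv k m).symm i, (hγ i).symm⟩
      · rintro ⟨i, rfl⟩
        exact ⟨idxEquiv k m i, hγvar i⟩
    rw [h1]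
    exact hspan
  obtain ⟨β, hβ⟩ := exists_eval (𝒪 := 𝒪) (fun i => δ (gen _ i) - 1) hδ
  have hmapγ : (maximalIdeal (PPr 𝒪 k m)).map (γ : PPr 𝒪 k m →+* R') = maximalIdeal R' :=
    IsLocalRing.map_maximalIdeal_of_surjective _ hγs
  have hlocγ : IsLocalHom (γ : PPr 𝒪 k m →+* R') := Function.Surjective.isLocalHom _ hγs
  have hcomp : IsAdicComplete (maximalIdeal (PPr 𝒪 k m)) (PPr 𝒪 k m) :=
    isAdicComplete_mvPowerSeries
  have hlocC : IsLocalHom (algebraMap 𝒪 (PPr 𝒪 k m)) := by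
    refine ⟨fun a ha => ?_⟩
    change IsUnit (C a) at ha
    rw [isUnit_iff_constantCoeff] at ha
    simpa using ha
  have hlift : ∀ i, ∃ s ∈ maximalIdeal (PPr 𝒪 k m), γ s = β (X i) := by
    intro i
    obtain ⟨s, hs⟩ := hγs (β (X i))
    refine ⟨s, ?_, hs⟩
    have h1 : β (X i) ∈ maximalIdeal R' := by rw [hβ]; exact hδ i
    rw [← hs] at h1
    have h2 : s ∈ (maximalIdeal R').comap (γ : PPr 𝒪 k m →+* R') := h1
    rwa [IsLocalRing.maximalIdeal_comap] at h2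
  choose s hs hsβ using hlift
  obtain ⟨φ, hφ⟩ := exists_eval (𝒪 := 𝒪) s hs
  have hγφ : ∀ f, γ (φ f) = β f := by
    have : γ.comp φ = β := by
      refine hom_ext (J := maximalIdeal R') uHaus_maximalIdeal ?_ ?_
      · intro i
        rw [AlgHom.comp_apply, hφ, hsβ, hβ]
        exact hδ i
      · intro i
        rw [AlgHom.comp_apply, hφ, hsβ]
    intro f
    rw [← this]; rfl
  -- `β` and the group algebra
  have hβJ : ∀ c ∈ idealJ 𝒪 p a, β c = 0 := by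
    have h1 : idealJ 𝒪 p a ≤ RingHom.ker (β : MvPowerSeries (Fin r) 𝒪 →+* R') := by
      rw [idealJ, Ideal.span_le]
      rintro _ ⟨i, rfl⟩
      rw [SetLike.mem_coe, RingHom.mem_ker]
      change β ((1 + X i) ^ (p ^ a i) - 1) = 0
      rw [map_sub, map_pow, map_add, map_one, hβ, add_sub_cancel, ← map_pow,
        gen_pow (q := fun i => p ^ a i), map_one, sub_self]
    exact fun c hc => h1 hc
  have hkey : ∀ (c : MvPowerSeries (Fin r) 𝒪) (l : Lam 𝒪 p a),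
      F a l = Ideal.Quotient.mk (idealJ 𝒪 p a) c → β c = Fd a δ l := by
    let βbar : (MvPowerSeries (Fin r) 𝒪 ⧸ idealJ 𝒪 p a) →ₐ[𝒪] R' :=
      Ideal.Quotient.liftₐ (idealJ 𝒪 p a) β hβJ
    have h1 : βbar.comp (F a) = Fd a δ := by
      refine MonoidAlgebra.algHom_ext ?_ (Subsingleton.elim _ _)
      intro g
      have h2 : Fd (𝒪 := 𝒪) a δ (MonoidAlgebra.single g 1) = δ g := Fd_of a δ g
      rw [h2, AlgHom.comp_apply]
      have h3 : F (𝒪 := 𝒪) (p := p) a (MonoidAlgebra.single g 1) =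
          Ideal.Quotient.mk (idealJ 𝒪 p a) (∏ i, (1 + X i) ^ expo _ g i) := by
        rw [F, MonoidAlgebra.lift_single, one_smul, powHom_apply, map_prod]
        simp only [map_pow]
      rw [h3]
      change β (∏ i, (1 + X i) ^ expo _ g i) = δ g
      rw [map_prod]
      conv_rhs => rw [eq_prod_gen g, map_prod]
      refine Finset.prod_congr rfl fun i _ => ?_
      rw [map_pow, map_pow, map_add, map_one, hβ, add_sub_cancel]
    intro c l hl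
    rw [← h1, AlgHom.comp_apply, hl]
    rfl
  -- the basis of `M1`
  let b1 : Module.Basis (Fin d) (Lam 𝒪 p a) M1 :=
    (Module.finBasis (Lam 𝒪 p a) M1).reindex (finCongr hrank)
  -- the basis of `Mχ`
  obtain ⟨w, hw, hwiso⟩ := exists_transfer a δ hl1 h𝒪χ hlχ hϖm iso b1 b1.span_eq
  have hdχ : d = Module.finrank (Lam 𝒪 p a) Mχ := by
    refine le_antisymm ?_ (finrank_le_of_span w hw)
    let b' := Module.finBasis (Lam 𝒪 p a) Mχ
    obtain ⟨w', hw', -⟩ := exists_transfer a δ hlχ h𝒪1 hl1 hϖm iso.symm b' b'.span_eq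
    exact hrank.ge.trans (finrank_le_of_span w' hw')
  obtain ⟨bχ, hbχ⟩ := exists_basis_of_span w hw hdχ
  -- the matrices
  obtain ⟨k1, hk1, hk1z, hk1l⟩ := exists_matHom a δ hl1 b1
  obtain ⟨kχ, hkχ, hkχz, hkχl⟩ := exists_matHom a δ hlχ bχ
  let Fm : Matrix (Fin d) (Fin d) (Lam 𝒪 p a) →+*
      Matrix (Fin d) (Fin d) (MvPowerSeries (Fin r) 𝒪 ⧸ idealJ 𝒪 p a) :=
    (F (𝒪 := 𝒪) (p := p) a : Lam 𝒪 p a →+* _).mapMatrix
  have hFm : ∀ N i j, Fm N i j = F a (N i j) := fun N i j => rfl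
  have hscal : ∀ (κ : R' →+* Matrix (Fin d) (Fin d) (Lam 𝒪 p a))
      (_ : ∀ l, κ (Fd a δ l) = Matrix.scalar (Fin d) l) (s : MvPowerSeries (Fin r) 𝒪),
      Fm (κ (γ (φ s))) = Matrix.scalar (Fin d) (Ideal.Quotient.mk _ s) := by
    intro κ hκ s
    obtain ⟨l, hl⟩ := F_surjective (𝒪 := 𝒪) (p := p) a hp𝒪 (Ideal.Quotient.mk _ s)
    rw [hγφ, hkey s l hl, hκ]
    ext i j
    rw [hFm, Matrix.scalar_apply, Matrix.scalar_apply, Matrix.diagonal_apply,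
      Matrix.diagonal_apply]
    split_ifs
    · exact hl
    · exact map_zero _
  have hzero : ∀ f, (∀ u : Mχ, γ f • u = 0) → Fm (kχ (γ f)) = 0 := by
    intro f hf
    rw [hkχz _ hf, map_zero]
  have hzero1 : ∀ f, (∀ u : M1, γ f • u = 0) → Fm (k1 (γ f)) = 0 := by
    intro f hf
    rw [hk1z _ hf, map_zero]
  have hγalg : ∀ c : 𝒪, γ (algebraMap 𝒪 (PPr 𝒪 k m) c) = algebraMap 𝒪 R' c := fun c =>
    γ.commutes c
  have hother : ∀ (f : PPr 𝒪 k m), (∃ t, ∀ u : Mχ, (γ f - algebraMap 𝒪 R' ϖ * t) • u = 0) →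
      ∃ t, Fm (kχ (γ (f - algebraMap 𝒪 (PPr 𝒪 k m) ϖ * t))) = 0 := by
    rintro f ⟨t, ht⟩
    obtain ⟨t', rfl⟩ := hγs t
    refine ⟨t', hzero _ fun u => ?_⟩
    rw [map_sub, map_mul, hγalg]
    exact ht u
  refine ⟨a, ha, φ, (Fm.comp k1).comp (γ : PPr 𝒪 k m →+* R'),
    (Fm.comp kχ).comp (γ : PPr 𝒪 k m →+* R'),
    ⟨fun s => hscal k1 hk1l s, fun s => hscal kχ hkχl s, ?_⟩,
    ⟨⟨?_, ?_, ?_, ?_⟩, ?_⟩, ?_⟩
  · -- congruence
    intro f i j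
    change Fm (k1 (γ f)) i j - Fm (kχ (γ f)) i j ∈ _
    rw [hFm, hFm, ← map_sub]
    have h1 : (∑ i, (k1 (γ f) i j - kχ (γ f) i j) • bχ i) ∈
        (algebraMap 𝒪 R' ϖ) • (⊤ : Submodule R' Mχ) := by
      rw [← Submodule.Quotient.mk_eq_zero]
      have h2 : iso (Submodule.Quotient.mk (γ f • b1 j)) = Submodule.Quotient.mk (γ f • bχ j) := by
        rw [Submodule.Quotient.mk_smul, map_smul, hwiso, hbχ]
        rfl
      rw [hk1, hkχ] at h2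
      have h3 : iso (Submodule.Quotient.mk (∑ i, k1 (γ f) i j • b1 i)) =
          Submodule.Quotient.mk (∑ i, k1 (γ f) i j • bχ i) := by
        have h4 : (∑ i, k1 (γ f) i j • b1 i) = ∑ i, Fd a δ (k1 (γ f) i j) • b1 i :=
          Finset.sum_congr rfl fun j _ => hl1 _ _
        have h5 : (∑ i, k1 (γ f) i j • bχ i) = ∑ i, Fd a δ (k1 (γ f) i j) • bχ i :=
          Finset.sum_congr rfl fun j _ => hlχ _ _
        rw [h4, h5, ← Submodule.mkQ_apply, ← Submodule.mkQ_apply, map_sum, map_sum, map_sum]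
        refine Finset.sum_congr rfl fun i _ => ?_
        rw [map_smul, map_smul, map_smul, Submodule.mkQ_apply, Submodule.mkQ_apply, hbχ,
          hwiso]
      rw [h3] at h2
      simp only [sub_smul, Finset.sum_sub_distrib]
      rw [← Submodule.mkQ_apply, map_sub, Submodule.mkQ_apply, Submodule.mkQ_apply, h2, sub_self]
    rw [mem_smul_top_iff a h𝒪χ] at h1
    obtain ⟨u, hu⟩ := h1
    have h2 : k1 (γ f) i j - kχ (γ f) i j = algebraMap 𝒪 (Lam 𝒪 p a) ϖ * bχ.repr u i := by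
      have h3 := congrArg (fun y => bχ.repr y i) hu
      simp only [map_smul, Finsupp.smul_apply, smul_eq_mul] at h3
      rw [← h3, map_sum, Finsupp.finsetSum_apply]
      simp only [map_smul, Finsupp.smul_apply, Module.Basis.repr_self, smul_eq_mul]
      rw [Finset.sum_eq_single i]
      · rw [Finsupp.single_eq_same, mul_one]
      · intro l _ hl
        rw [Finsupp.single_eq_of_ne' hl, mul_zero]
      · intro h; exact absurd (Finset.mem_univ _) h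
    rw [h2, map_mul, AlgHom.commutes]
    exact Ideal.mul_mem_right _ _ (Ideal.mem_map_of_mem _ (Ideal.mem_span_singleton_self _))
  · exact hzero _ fun u => by
      rw [map_sub, map_mul, map_mul, hγvar, hγvar, hγvar, hγvar]; exact r1 u
  · exact hzero _ fun u => by
      rw [map_sub, map_mul, map_mul, hγvar, hγvar, hγvar, hγvar]; exact r2 u
  · exact hzero _ fun u => by
      rw [map_sub, map_mul, map_mul, hγvar, hγvar, hγvar, hγvar]; exact r3 u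
  · refine hzero _ fun u => ?_
    rw [map_prod]
    simp only [map_sub, map_add, map_mul, map_pow, map_ofNat, hγvar, hγalg]
    exact r4 u
  · refine hzero1 _ fun u => ?_
    simp only [map_sub, map_add, map_mul, map_pow, map_ofNat, hγvar, hγalg]
    exact hD u
  · intro l
    refine ⟨hother _ ?_, hother _ ?_, hother _ ?_, hother _ ?_⟩
    · obtain ⟨t, ht⟩ := o1 l
      refine ⟨t, fun u => ?_⟩
      simp only [map_sub, map_add, map_mul, map_pow, map_ofNat, hγvar]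
      exact ht u
    · obtain ⟨t, ht⟩ := o2 l
      refine ⟨t, fun u => ?_⟩
      simp only [map_sub, map_add, map_mul, map_pow, map_ofNat, hγvar]
      exact ht u
    · obtain ⟨t, ht⟩ := o3 l
      refine ⟨t, fun u => ?_⟩
      simp only [map_sub, map_add, map_mul, map_pow, map_ofNat, hγvar]
      exact ht u
    · obtain ⟨t, ht⟩ := o4 l
      refine ⟨t, fun u => ?_⟩
      simp only [map_sub, map_add, map_mul, map_pow, map_ofNat, hγvar]
      exact ht u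

end level


end Fermat.Agent.IH
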