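import Mathlib

/-!
# `2 × 2` matrix relations at a prime with scalar residual Frobenius (team IH)

`S` is (the image of) a tame generator, `F` a Frobenius, `F S F⁻¹ = S ^ q`.
-/

set_option autoImplicit false

open Matrix

namespace Fermat.Agent.IH.Local

section ring

variable {A : Type*} [CommRing A]

/-- the six local coordinates `b, c, a, y, z, β` -/
def coord (S F : Matrix (Fin 2) (Fin 2) A) : Fin 6 → A :=
  ![S 0 1, S 1 0, S 0 0 - S 1 1, F 0 1, F 1 0, F 0 0 - F 1 1]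

theorem coord_map {B : Type*} [CommRing B] (f : A →+* B) (S F : Matrix (Fin 2) (Fin 2) A)
    (i : Fin 6) : f (coord S F i) = coord (S.map f) (F.map f) i := by
  fin_cases i <;> simp [coord]

/-- discriminant -/
theorem disc_eq (S : Matrix (Fin 2) (Fin 2) A) :
    (S 0 0 - S 1 1) ^ 2 + 4 * S 0 1 * S 1 0 = S.trace ^ 2 - 4 * S.det := by
  rw [Matrix.trace_fin_two, Matrix.det_fin_two]; ring

theorem minors_of_commute {S F : Matrix (Fin 2) (Fin 2) A} (h : F * S = S * F) :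
    S 0 1 * F 1 0 - S 1 0 * F 0 1 = 0 ∧
    S 0 1 * (F 0 0 - F 1 1) - (S 0 0 - S 1 1) * F 0 1 = 0 ∧
    S 1 0 * (F 0 0 - F 1 1) - (S 0 0 - S 1 1) * F 1 0 = 0 := by
  have h00 := congrFun (congrFun h 0) 0
  have h01 := congrFun (congrFun h 0) 1
  have h10 := congrFun (congrFun h 1) 0
  simp only [Matrix.mul_apply, Fin.sum_univ_two] at h00 h01 h10
  refine ⟨?_, ?_, ?_⟩
  · linear_combination -h00
  · linear_combination h01
  · linear_combination -h10

/-- Cayley–Hamilton for `2 × 2` matrices -/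
theorem cayley (S : Matrix (Fin 2) (Fin 2) A) : S ^ 2 = S.trace • S - S.det • (1 : Matrix _ _ A) := by
  ext i j
  rw [pow_two, Matrix.mul_apply, Fin.sum_univ_two, Matrix.sub_apply, Matrix.smul_apply,
    Matrix.smul_apply, Matrix.trace_fin_two, Matrix.det_fin_two, smul_eq_mul, smul_eq_mul]
  fin_cases i <;> fin_cases j <;> simp <;> ring

/-- a `2 × 2` matrix with trace `2` and determinant `1` -/
theorem sub_one_sq {S : Matrix (Fin 2) (Fin 2) A} (ht : S.trace = 2) (hd : S.det = 1) :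
    (S - 1) * (S - 1) = 0 := by
  have h := cayley S
  rw [ht, hd, one_smul, pow_two] at h
  rw [sub_mul, mul_sub, h, mul_one, one_mul, two_smul]
  abel

theorem pow_eq_of_sub_one_sq {S : Matrix (Fin 2) (Fin 2) A} (h : (S - 1) * (S - 1) = 0) (n : ℕ) :
    S ^ n = 1 + (n : A) • (S - 1) := by
  induction n with
  | zero => simp
  | succ n ih =>
    have h1 : S = 1 + (S - 1) := by abel
    rw [pow_succ, ih]
    conv_lhs => rw [h1]
    rw [add_sub_cancel_left, mul_add, mul_one, add_mul, one_mul, Matrix.smul_mul, h, smul_zero,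
      add_zero, Nat.cast_succ, add_smul, one_smul]
    abel

/-- unipotent case: the minors are divisible by `v - 1` -/
theorem minors_of_unipotent {S F : Matrix (Fin 2) (Fin 2) A} {v : ℕ} (ht : S.trace = 2)
    (hd : S.det = 1) (hconj : F * S = S ^ v * F) :
    (S 0 1 * F 1 0 - S 1 0 * F 0 1 = ((v : A) - 1) * -((S - 1) * F) 0 0) ∧
    (S 0 1 * (F 0 0 - F 1 1) - (S 0 0 - S 1 1) * F 0 1 = ((v : A) - 1) * ((S - 1) * F) 0 1) ∧
    (S 1 0 * (F 0 0 - F 1 1) - (S 0 0 - S 1 1) * F 1 0 = ((v : A) - 1) * -((S - 1) * F) 1 0) ∧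
    ((S 0 0 - S 1 1) ^ 2 + 4 * S 0 1 * S 1 0 = 0) := by
  have h2 := sub_one_sq ht hd
  rw [pow_eq_of_sub_one_sq h2] at hconj
  have key : F * S - S * F = ((v : A) - 1) • ((S - 1) * F) := by
    rw [hconj, add_mul, one_mul, Matrix.smul_mul, sub_smul, one_smul]
    have : (S - 1) * F = S * F - F := by rw [sub_mul, one_mul]
    rw [this]
    abel
  have h00 := congrFun (congrFun key 0) 0
  have h01 := congrFun (congrFun key 0) 1
  have h10 := congrFun (congrFun key 1) 0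
  rw [Matrix.sub_apply, Matrix.smul_apply, smul_eq_mul, Matrix.mul_apply, Matrix.mul_apply (M := S),
    Fin.sum_univ_two, Fin.sum_univ_two] at h00 h01 h10
  refine ⟨?_, ?_, ?_, ?_⟩
  · linear_combination -h00
  · linear_combination h01
  · linear_combination -h10
  · rw [disc_eq, ht, hd]; ring

/-- discriminant of Frobenius in the special case -/
theorem disc_special {F : Matrix (Fin 2) (Fin 2) A} {q : ℕ}
    (ht : F.trace = q + 1 ∨ F.trace = -(q + 1)) (hd : F.det = q) :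
    (F 0 0 - F 1 1) ^ 2 + 4 * F 0 1 * F 1 0 - ((q : A) - 1) ^ 2 = 0 := by
  rw [disc_eq, hd]
  rcases ht with h | h <;> rw [h] <;> ring

end ring

section field

variable {K : Type*} [Field K]

/-- traces of powers -/
theorem trace_pow {S : Matrix (Fin 2) (Fin 2) K} {ζ : K} (hζ : ζ ≠ 0) (ht : S.trace = ζ + ζ⁻¹)
    (hd : S.det = 1) (n : ℕ) : (S ^ n).trace = ζ ^ n + (ζ⁻¹) ^ n := by
  have key : ∀ n : ℕ, (S ^ n).trace = ζ ^ n + (ζ⁻¹) ^ n ∧
      (S ^ (n + 1)).trace = ζ ^ (n + 1) + (ζ⁻¹) ^ (n + 1) := by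
    intro n
    induction n with
    | zero =>
      refine ⟨?_, ?_⟩
      · rw [pow_zero, pow_zero, pow_zero, Matrix.trace_one, Fintype.card_fin]; norm_num
      · rw [zero_add, pow_one, pow_one, pow_one, ht]
    | succ n ih =>
      refine ⟨ih.2, ?_⟩
      have h1 : S ^ (n + 1 + 1) = S.trace • S ^ (n + 1) - S.det • S ^ n := by
        have h2 : S ^ (n + 1 + 1) = S ^ n * S ^ 2 := by rw [← pow_add]
        rw [h2, cayley, mul_sub, Matrix.mul_smul, Matrix.mul_smul, mul_one, ← pow_succ]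
      rw [h1, Matrix.trace_sub, Matrix.trace_smul, Matrix.trace_smul, ih.1, ih.2, ht, hd,
        smul_eq_mul, smul_eq_mul]
      have h3 : ζ * ζ⁻¹ = 1 := mul_inv_cancel₀ hζ
      have e1 : ζ ^ (n + 1 + 1) = ζ ^ n * ζ ^ 2 := by rw [← pow_add]
      have e2 : ζ⁻¹ ^ (n + 1 + 1) = ζ⁻¹ ^ n * ζ⁻¹ ^ 2 := by rw [← pow_add]
      rw [e1, e2, pow_succ, pow_succ]
      linear_combination (ζ ^ n + ζ⁻¹ ^ n) * h3
  exact (key n).1

/-- if `1 + a` is a nontrivial... : a root of unity of order prime to the residue characteristic,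
congruent to `1`, is `1`. -/
theorem eq_one_of_pow_eq_one {B : Subring K} [IsLocalRing B] {ζ : K} (hζ : ζ ∈ B)
    (h1 : (⟨ζ, hζ⟩ : B) - 1 ∈ IsLocalRing.maximalIdeal B) {m : ℕ}
    (hm : IsUnit (m : B)) (h : ζ ^ m = 1) : ζ = 1 := by
  set z : B := ⟨ζ, hζ⟩ with hz
  have hzm : z ^ m = 1 := Subtype.ext (by simpa [hz] using h)
  have h2 : (z - 1) * (∑ i ∈ Finset.range m, z ^ i) = 0 := by
    rw [mul_comm, geom_sum_mul, hzm, sub_self]
  have h3 : IsUnit (∑ i ∈ Finset.range m, z ^ i) := by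
    have h4 : (∑ i ∈ Finset.range m, z ^ i) - m ∈ IsLocalRing.maximalIdeal B := by
      have h5 : (∑ i ∈ Finset.range m, z ^ i) - m = ∑ i ∈ Finset.range m, (z ^ i - 1) := by
        rw [Finset.sum_sub_distrib]; simp
      rw [h5]
      refine Ideal.sum_mem _ fun i _ => ?_
      have h6 := sub_dvd_pow_sub_pow z 1 i
      rw [one_pow] at h6
      exact Ideal.mem_of_dvd _ h6 h1
    by_contra h7
    have h8 : (∑ i ∈ Finset.range m, z ^ i) ∈ IsLocalRing.maximalIdeal B := h7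
    have h9 : (m : B) ∈ IsLocalRing.maximalIdeal B := by
      have := sub_mem h8 h4
      rwa [sub_sub_cancel] at this
    exact h9 hm
  have h10 : z - 1 = 0 := by
    rwa [h3.mul_left_eq_zero] at h2
  have h11 : z = 1 := sub_eq_zero.mp h10
  exact congrArg Subtype.val h11

/-- **Key field-level statement.** `S` residually unipotent but not unipotent, `F S F⁻¹ = S ^ q`,
`q ≡ 1` modulo the odd residue characteristic; then `F` and `S` commute and the trace of `S`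
is `ζ + ζ⁻¹` with `ζ ^ (q - 1) = 1`, `ζ ≠ 1`, `ζ ≡ 1`. -/
theorem commute_of_not_unipotent [IsAlgClosed K] {B : Subring K} [IsLocalRing B]
    (hB : IsIntegrallyClosedIn B K)
    {S F : Matrix (Fin 2) (Fin 2) K} {q : ℕ} (hq : 0 < q) (hd : S.det = 1) (hF : IsUnit F.det)
    (hconj : F * S = S ^ q * F) (hne : S.trace ≠ 2) (htB : S.trace ∈ B)
    (ht : (⟨S.trace, htB⟩ : B) - 2 ∈ IsLocalRing.maximalIdeal B)
    (h2 : IsUnit (2 : B)) (hq1 : IsUnit ((q : B) + 1)) :
    F * S = S * F ∧ ∃ (ζ : K) (hζ : ζ ∈ B), S.trace = ζ + ζ⁻¹ ∧ ζ ^ (q - 1) = 1 ∧ ζ ≠ 1 ∧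
      (⟨ζ, hζ⟩ : B) - 1 ∈ IsLocalRing.maximalIdeal B := by
  -- a root
  obtain ⟨ζ, hζ⟩ := IsAlgClosed.exists_root (Polynomial.X ^ 2 - Polynomial.C S.trace * Polynomial.X + 1 :
    Polynomial K) (by
      have : (Polynomial.X ^ 2 - Polynomial.C S.trace * Polynomial.X + 1 : Polynomial K).degree = 2 := by
        compute_degree!
      rw [this]; decide)
  have hroot : ζ ^ 2 - S.trace * ζ + 1 = 0 := by
    have := hζ
    rw [Polynomial.IsRoot] at this
    simpa using this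
  have hζ0 : ζ ≠ 0 := by
    rintro rfl
    simp at hroot
  have htr : S.trace = ζ + ζ⁻¹ := by
    field_simp
    linear_combination -hroot
  -- `ζ ∈ B`
  have hζB : ζ ∈ B := by
    have hint : IsIntegral B ζ := by
      refine ⟨Polynomial.X ^ 2 - Polynomial.C (⟨S.trace, htB⟩ : B) * Polynomial.X + 1, ?_, ?_⟩
      · monicity!
      · simp only [Polynomial.eval₂_add, Polynomial.eval₂_sub, Polynomial.eval₂_mul,
          Polynomial.eval₂_pow, Polynomial.eval₂_X, Polynomial.eval₂_C, Polynomial.eval₂_one]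
        exact hroot
    obtain ⟨y, hy⟩ := IsIntegrallyClosedIn.algebraMap_eq_of_integral hint
    rw [← hy]
    exact y.2
  set z : B := ⟨ζ, hζB⟩ with hz
  have hz1 : z - 1 ∈ IsLocalRing.maximalIdeal B := by
    have h1 : (z - 1) ^ 2 = (⟨S.trace, htB⟩ - 2) * z := by
      apply Subtype.ext
      show (ζ - 1) ^ 2 = (S.trace - 2) * ζ
      linear_combination hroot
    have h3 : (z - 1) ^ 2 ∈ IsLocalRing.maximalIdeal B := by
      rw [h1]; exact Ideal.mul_mem_right _ _ ht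
    exact (IsLocalRing.maximalIdeal.isMaximal B).isPrime.mem_of_pow_mem 2 h3
  have hζ1 : ζ ≠ 1 := by
    rintro rfl
    apply hne
    rw [htr, inv_one]; norm_num
  have hconjt : (S ^ q).trace = S.trace := by
    have h1 : S ^ q = F * S * F⁻¹ := by
      rw [hconj, Matrix.mul_assoc, Matrix.mul_nonsing_inv _ hF, mul_one]
    rw [h1, Matrix.trace_mul_comm, ← Matrix.mul_assoc, Matrix.nonsing_inv_mul _ hF, one_mul]
  have hpow : ζ ^ q = ζ ∨ ζ ^ (q + 1) = 1 := by
    rw [trace_pow hζ0 htr hd, htr] at hconjt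
    have h1 : (ζ ^ q - ζ) * (ζ ^ (q + 1) - 1) = 0 := by
      have e1 : ζ⁻¹ ^ q * ζ ^ q = 1 := by rw [← mul_pow, inv_mul_cancel₀ hζ0, one_pow]
      have e2 : ζ⁻¹ * ζ = 1 := inv_mul_cancel₀ hζ0
      have e3 : (ζ ^ q + ζ⁻¹ ^ q) * ζ ^ q * ζ = (ζ + ζ⁻¹) * ζ ^ q * ζ := by rw [hconjt]
      rw [pow_succ]
      linear_combination e3 - ζ * e1 + ζ ^ q * e2
    rcases mul_eq_zero.mp h1 with h | h
    · exact Or.inl (sub_eq_zero.mp h)
    · exact Or.inr (sub_eq_zero.mp h)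
  have hq1' : ζ ^ (q - 1) = 1 := by
    rcases hpow with h | h
    · obtain ⟨k, rfl⟩ : ∃ k, q = k + 1 := ⟨q - 1, by omega⟩
      rw [Nat.add_sub_cancel]
      rw [pow_succ] at h
      exact mul_right_cancel₀ hζ0 (by rw [h, one_mul])
    · exact absurd (eq_one_of_pow_eq_one hζB hz1 (by push_cast; exact hq1) h) hζ1
  refine ⟨?_, ζ, hζB, htr, hq1', hζ1, hz1⟩
  -- `S ^ (q - 1) = 1`
  have hζ2 : ζ ≠ ζ⁻¹ := by
    intro h
    apply hζ1
    refine eq_one_of_pow_eq_one hζB hz1 (m := 2) (by exact_mod_cast h2) ?_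
    rw [pow_two]
    nth_rewrite 2 [h]
    exact mul_inv_cancel₀ hζ0
  have hS : S ^ (q - 1) = 1 := by
    -- `(S - ζ)(S - ζ⁻¹) = 0`
    have hch : ∀ n : ℕ, (ζ - ζ⁻¹) • S ^ n = (ζ ^ n - ζ⁻¹ ^ n) • S -
        (ζ ^ n * ζ⁻¹ - ζ⁻¹ ^ n * ζ) • (1 : Matrix (Fin 2) (Fin 2) K) := by
      intro n
      induction n with
      | zero => simp [sub_smul]
      | succ n ih =>
        rw [pow_succ, ← Matrix.smul_mul, ih, sub_mul, Matrix.smul_mul, Matrix.smul_mul, one_mul,
          ← pow_two, cayley, htr, hd, one_smul]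
        ext i j
        simp only [Matrix.sub_apply, Matrix.smul_apply, smul_eq_mul]
        have e2 : ζ * ζ⁻¹ = 1 := mul_inv_cancel₀ hζ0
        rw [pow_succ, pow_succ]
        linear_combination ((ζ⁻¹ ^ n - ζ ^ n) * (1 : Matrix (Fin 2) (Fin 2) K) i j * (-1)) * e2
    have h1 := hch (q - 1)
    rw [hq1', inv_pow, hq1', inv_one, sub_self, zero_smul, zero_sub, one_mul, one_mul,
      ← neg_smul, neg_sub] at h1
    have h3 : ζ - ζ⁻¹ ≠ 0 := sub_ne_zero.mpr hζ2
    exact smul_right_injective _ h3 h1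
  obtain ⟨k, rfl⟩ : ∃ k, q = k + 1 := ⟨q - 1, by omega⟩
  rw [Nat.add_sub_cancel] at hS
  rw [hconj, pow_succ, hS, one_mul]

/-- the discriminant of `S` -/
theorem disc_zeta {S : Matrix (Fin 2) (Fin 2) K} {ζ : K} (hζ : ζ ≠ 0) (ht : S.trace = ζ + ζ⁻¹)
    (hd : S.det = 1) : (S 0 0 - S 1 1) ^ 2 + 4 * S 0 1 * S 1 0 = (ζ - ζ⁻¹) ^ 2 := by
  rw [disc_eq, ht, hd]
  have e2 : ζ * ζ⁻¹ = 1 := mul_inv_cancel₀ hζ
  linear_combination 4 * e2

end field

end Fermat.Agent.IH.Local
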