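import Mathlib
import Fermat.Agent.IH.Local

set_option autoImplicit false

/-!
# Relations at the points of a local ring
-/

open Matrix IsLocalRing

namespace Fermat.Agent.IH.Local

section point

variable {A : Type*} [CommRing A] [IsLocalRing A] {K : Type*} [Field K] [IsAlgClosed K]

/-- The relations at a point of a local ring with values in an algebraically closed field. -/
theorem point_commute (x : A →+* K) {S F : Matrix (Fin 2) (Fin 2) A} {q : ℕ} (hq : 0 < q)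
    (hd : S.det = 1) (hF : x F.det ≠ 0) (hconj : F * S = S ^ q * F) (hne : x S.trace ≠ 2)
    (ht : S.trace - 2 ∈ maximalIdeal A) (h2 : IsUnit (2 : A)) (hq1 : IsUnit ((q : A) + 1)) :
    (F * S).map x = (S * F).map x ∧ ∃ ζ : K, ζ ≠ 0 ∧ x S.trace = ζ + ζ⁻¹ ∧ ζ ^ (q - 1) = 1 ∧ ζ ≠ 1 ∧
      ∀ m N : ℕ, IsUnit (m : A) → ζ ^ (N * m) = 1 → ζ ^ N = 1 := by
  obtain ⟨V, hV, hloc⟩ := IsLocalRing.exists_factor_valuationRing x
  let B : Subring K := V.toSubring
  have hBloc : IsLocalRing B := (inferInstance : IsLocalRing V)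
  let g : A →+* B := x.codRestrict V.toSubring hV
  have hgx : ∀ a, (g a : K) = x a := fun a => rfl
  have hlg : IsLocalHom g := hloc
  have hBint : IsIntegrallyClosedIn B K := by
    have h1 : IsIntegrallyClosed V := inferInstance
    exact (isIntegrallyClosed_iff_isIntegrallyClosedIn (R := V) K).mp h1
  have hgm : ∀ a ∈ maximalIdeal A, g a ∈ maximalIdeal B := by
    intro a ha
    rw [mem_maximalIdeal, mem_nonunits_iff] at ha ⊢
    exact fun hu => ha (hlg.map_nonunit a hu)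
  have hmap : ∀ X Y : Matrix (Fin 2) (Fin 2) A, (X * Y).map x = X.map x * Y.map x := fun X Y =>
    map_mul x.mapMatrix X Y
  have hdet : ∀ X : Matrix (Fin 2) (Fin 2) A, (X.map x).det = x X.det := fun X =>
    (RingHom.map_det x X).symm
  have htr : ∀ X : Matrix (Fin 2) (Fin 2) A, (X.map x).trace = x X.trace := fun X => by
    rw [Matrix.trace_fin_two, Matrix.trace_fin_two, map_add]; rfl
  have htB : (S.map x).trace ∈ B := by
    rw [htr, ← hgx]; exact (g _).2
  have key := commute_of_not_unipotent (B := B) hBint (S := S.map x) (F := F.map x) hq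
    (by rw [hdet, hd, map_one]) (by rw [hdet]; exact isUnit_iff_ne_zero.mpr hF)
    (by
      rw [← hmap, hconj, hmap]
      congr 1
      exact map_pow x.mapMatrix S q)
    (by rw [htr]; exact hne) htB
    (by
      have h3 := hgm _ ht
      have h4 : g (S.trace - 2) = (⟨(S.map x).trace, htB⟩ : B) - 2 := by
        apply Subtype.ext
        rw [hgx, map_sub, map_ofNat]
        show _ = (S.map x).trace - 2
        rw [htr]
      rwa [h4] at h3)
    (by
      have h3 := h2.map g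
      rwa [map_ofNat] at h3)
    (by
      have h3 := hq1.map g
      rwa [map_add, map_natCast, map_one] at h3)
  obtain ⟨hc, ζ, hζ, h1, h3, h4, h5⟩ := key
  refine ⟨by rw [hmap, hmap]; exact hc, ζ, ?_, by rw [← htr]; exact h1, h3, h4, ?_⟩
  · rintro rfl
    by_cases hq1' : q - 1 = 0
    · -- then `q = 1`; `ζ - 1` is in the maximal ideal
      apply (maximalIdeal.isMaximal B).ne_top
      rw [Ideal.eq_top_iff_one]
      have h6 : (⟨0, hζ⟩ : B) - 1 = -1 := by
        apply Subtype.ext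
        show (0 : K) - 1 = -1
        ring
      rw [h6] at h5
      simpa using (maximalIdeal B).neg_mem h5
    · rw [zero_pow hq1'] at h3
      exact zero_ne_one h3
  · intro m N hm hN
    have hζN : ζ ^ N ∈ B := B.pow_mem hζ N
    refine eq_one_of_pow_eq_one (B := B) (ζ := ζ ^ N) hζN ?_ (m := m) ?_ ?_
    · have h6 : (⟨ζ ^ N, hζN⟩ : B) = (⟨ζ, hζ⟩ : B) ^ N := rfl
      rw [h6]
      have h7 := sub_dvd_pow_sub_pow (⟨ζ, hζ⟩ : B) 1 N
      rw [one_pow] at h7
      exact Ideal.mem_of_dvd _ h7 h5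
    · have h6 := hm.map g
      rwa [map_natCast] at h6
    · rw [← pow_mul]; exact hN

/-- The discriminants at the points. -/
theorem disc_mem {𝒪 : Type*} [CommRing 𝒪] [IsDomain 𝒪] [Algebra 𝒪 A] [Algebra 𝒪 K]
    (hinj : Function.Injective (algebraMap 𝒪 K)) (x : A →ₐ[𝒪] K)
    {S F : Matrix (Fin 2) (Fin 2) A} {q p e m : ℕ} (hp : p.Prime) (hqm : q - 1 = p ^ e * m)
    (hm : IsUnit (m : A)) {ω : 𝒪} (hω : IsPrimitiveRoot ω (p ^ e)) (hq : 0 < q)
    (hd : S.det = 1) (hF : x F.det ≠ 0) (hconj : F * S = S ^ q * F) (hne : x S.trace ≠ 2)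
    (ht : S.trace - 2 ∈ maximalIdeal A) (h2 : IsUnit (2 : A)) (hq1 : IsUnit ((q : A) + 1)) :
    (F * S).map x = (S * F).map x ∧ ∃ j ∈ Finset.Ico 1 (p ^ e),
      x ((S 0 0 - S 1 1) ^ 2 + 4 * S 0 1 * S 1 0) =
        algebraMap 𝒪 K ((ω ^ j - ω ^ (p ^ e - j)) ^ 2) := by
  obtain ⟨hc, ζ, hζ0, h1, h3, h4, h5⟩ := point_commute (x : A →+* K) hq hd hF hconj hne ht h2 hq1
  refine ⟨hc, ?_⟩
  have h6 : ζ ^ (p ^ e) = 1 := h5 m (p ^ e) hm (by rw [← hqm]; exact h3)
  have hpe : 0 < p ^ e := pow_pos hp.pos e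
  have hω' : IsPrimitiveRoot (algebraMap 𝒪 K ω) (p ^ e) := hω.map_of_injective hinj
  have : NeZero (p ^ e) := ⟨hpe.ne'⟩
  obtain ⟨j, hj, hjζ⟩ := hω'.eq_pow_of_pow_eq_one h6
  have hj0 : j ≠ 0 := by
    rintro rfl
    rw [pow_zero] at hjζ
    exact h4 hjζ.symm
  refine ⟨j, Finset.mem_Ico.mpr ⟨Nat.pos_of_ne_zero hj0, hj⟩, ?_⟩
  have hinv : ζ⁻¹ = algebraMap 𝒪 K (ω ^ (p ^ e - j)) := by
    rw [eq_comm, ← mul_right_inj' hζ0, mul_inv_cancel₀ hζ0, ← hjζ, map_pow, ← pow_add,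
      Nat.add_sub_cancel' hj.le, hω'.pow_eq_one]
  have h7 : x ((S 0 0 - S 1 1) ^ 2 + 4 * S 0 1 * S 1 0) =
      ((S.map x) 0 0 - (S.map x) 1 1) ^ 2 + 4 * (S.map x) 0 1 * (S.map x) 1 0 := by
    simp only [map_add, map_sub, map_mul, map_pow, map_ofNat, Matrix.map_apply]
  rw [h7, disc_zeta (ζ := ζ) hζ0, hinv]
  · rw [map_pow (algebraMap 𝒪 K) (ω ^ j - _), map_sub, map_pow (algebraMap 𝒪 K) ω j, hjζ]
  · rw [Matrix.trace_fin_two]
    have h8 : x S.trace = ζ + ζ⁻¹ := h1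
    rw [Matrix.trace_fin_two, map_add] at h8
    exact h8
  · have h8 : (x : A →+* K) S.det = 1 := by rw [hd, map_one]
    rw [RingHom.map_det] at h8
    exact h8

/-- The set of possible discriminants. -/
noncomputable def discSet {𝒪 : Type*} [CommRing 𝒪] [DecidableEq 𝒪] (ω : 𝒪) (P : ℕ) : Finset 𝒪 :=
  (Finset.Ico 1 P).image fun j => (ω ^ j - ω ^ (P - j)) ^ 2

theorem discSet_ne_zero {𝒪 : Type*} [CommRing 𝒪] [IsDomain 𝒪] [DecidableEq 𝒪] {ω : 𝒪} {p e : ℕ}
    (hp : p.Prime) (hp2 : p ≠ 2) (hω : IsPrimitiveRoot ω (p ^ e)) :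
    ∀ t ∈ discSet ω (p ^ e), t ≠ 0 := by
  intro t ht
  rw [discSet, Finset.mem_image] at ht
  obtain ⟨j, hj, rfl⟩ := ht
  rw [Finset.mem_Ico] at hj
  intro h
  rw [pow_eq_zero_iff two_ne_zero, sub_eq_zero] at h
  have h1 : ω ^ (j + j) = 1 := by
    rw [pow_add]
    nth_rewrite 2 [h]
    rw [← pow_add, Nat.add_sub_cancel' hj.2.le, hω.pow_eq_one]
  have h2 : p ^ e ∣ j + j := hω.dvd_of_pow_eq_one _ h1
  rw [← two_mul] at h2
  have h3 : Nat.Coprime (p ^ e) 2 :=
    Nat.Coprime.pow_left e ((Nat.coprime_primes hp Nat.prime_two).mpr hp2)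
  have h4 := Nat.le_of_dvd (by omega) (h3.dvd_of_dvd_mul_left h2)
  omega

end point

end Fermat.Agent.IH.Local
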