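import Mathlib
import Fermat.Agent.TWP.TangentSpace
import Fermat.Agent.RT.FiniteComplete
import Fermat.Agent.RT.ULimPS

set_option autoImplicit false
set_option linter.style.haveILetI false
set_option linter.unusedSectionVars false

/-!
# Generators of a deformation ring over given local coordinates

`R` a complete local `𝒪`-algebra with a representation of type `𝒟`, determined on tangent vectors
by the representation up to conjugation; `y i ∈ 𝔪_R` such that the first order deformations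
killing the `y i` lie in a subspace `W`.  A bound on the dimension of the tangent cocycles in `W`
gives a bound for the number of generators of `R` relative to the `y i`.
-/

namespace Fermat.Agent.IH

open IsLocalRing Matrix
open Fermat.Agent.UDef (GalQ IsModel IsModelR MCont ofMatrix isModel_ofMatrix mapRep Dual dmk dfst
  dsnd CoefAlg toK dual_ext Good)
open Fermat.Agent.TWP (adCocycle adCobound adBoundary dualRep matMk tangentSpace mem_tangentSpace
  adCobound_le_tangentSpace finrank_adCobound exists_cocycle dualRep_conj type_baseChange)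

theorem isAdicComplete_quotient {R : Type*} [CommRing R] [IsLocalRing R] [IsNoetherianRing R]
    [IsAdicComplete (maximalIdeal R) R] (I : Ideal R) [IsLocalRing (R ⧸ I)] :
    IsAdicComplete (maximalIdeal (R ⧸ I)) (R ⧸ I) := by
  have hmap : (maximalIdeal R).map (Ideal.Quotient.mk I) = maximalIdeal (R ⧸ I) :=
    IsLocalRing.map_maximalIdeal_of_surjective _ Ideal.Quotient.mk_surjective
  have hH : IsHausdorff (maximalIdeal (R ⧸ I)) (R ⧸ I) := inferInstance
  have hP0 : IsPrecomplete (maximalIdeal R) (R ⧸ I) :=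
    Fermat.Agent.RT.FiniteComplete.isPrecomplete_of_surjective
      (Ideal.Quotient.mkₐ R I).toLinearMap (Ideal.Quotient.mkₐ_surjective R I)
  have hsm : ∀ n : ℕ, ∀ x : R ⧸ I, x ∈ (maximalIdeal R ^ n • ⊤ : Submodule R (R ⧸ I)) ↔
      x ∈ (maximalIdeal (R ⧸ I) ^ n • ⊤ : Submodule (R ⧸ I) (R ⧸ I)) := by
    intro n x
    rw [← hmap, ← Ideal.map_pow, smul_eq_mul, Ideal.mul_top, Ideal.smul_top_eq_map]
    rfl
  have hP : IsPrecomplete (maximalIdeal (R ⧸ I)) (R ⧸ I) := by
    refine ⟨fun f hf => ?_⟩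
    obtain ⟨L, hL⟩ := IsPrecomplete.prec hP0 (f := f) (by
      intro m n hmn
      have := hf hmn
      rw [SModEq.sub_mem] at this ⊢
      exact (hsm m _).mpr this)
    refine ⟨L, fun n => ?_⟩
    have := hL n
    rw [SModEq.sub_mem] at this ⊢
    exact (hsm n _).mp this
  exact { toIsHausdorff := hH, toIsPrecomplete := hP }

section main

variable {𝒪 : Type} [CommRing 𝒪] [IsDomain 𝒪] [IsDiscreteValuationRing 𝒪]
  [IsAdicComplete (maximalIdeal 𝒪) 𝒪] [Finite (ResidueField 𝒪)]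
  {𝒟 : ∀ ⦃A : Type⦄ [CommRing A] [IsLocalRing A] [Algebra 𝒪 A], GaloisRepAdic A → Prop}
  {Mbar : GalQ →* Matrix (Fin 2) (Fin 2) (ResidueField 𝒪)}
  {R : Type} [CommRing R] [IsLocalRing R] [IsNoetherianRing R] [IsAdicComplete (maximalIdeal R) R]
  [Algebra 𝒪 R] [CoefAlg 𝒪 R]

theorem good_of_type (h𝒟 : GaloisRep.IsDeformationCondition 𝒪 𝒟) {ρ : GaloisRepAdic R}
    (hρ : 𝒟 ρ) {M : GalQ →* Matrix (Fin 2) (Fin 2) R} (hM : IsModel ρ M)
    (hMl : mapRep (toK 𝒪 R : R →+* ResidueField 𝒪) M = Mbar)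
    {B : Type} [CommRing B] [IsLocalRing B] [Algebra 𝒪 B] [CoefAlg 𝒪 B] [Finite B]
    (φ : R →ₐ[𝒪] B) : Good 𝒟 Mbar (mapRep (φ : R →+* B) M) := by
  refine ⟨?_, ρ.baseChangeAlong (φ : R →+* B) (UDef.isLocalHom_algHom φ),
    hM.baseChangeAlong _ _, type_baseChange h𝒟 hρ φ _⟩
  rw [UDef.mapRep_toK, hMl]

theorem good_residual' (h𝒟 : GaloisRep.IsDeformationCondition 𝒪 𝒟) {ρ : GaloisRepAdic R}
    (hρ : 𝒟 ρ) {M : GalQ →* Matrix (Fin 2) (Fin 2) R} (hM : IsModel ρ M)
    (hMl : mapRep (toK 𝒪 R : R →+* ResidueField 𝒪) M = Mbar) : Good 𝒟 Mbar Mbar := by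
  have h1 := good_of_type h𝒟 hρ hM hMl (toK 𝒪 R)
  have h2 : mapRep ((toK 𝒪 R : R →ₐ[𝒪] ResidueField 𝒪) : R →+* ResidueField 𝒪) M = Mbar := hMl
  rwa [h2] at h1

/-- **Generators relative to local coordinates.** -/
theorem exists_span_of_selmer (h𝒟 : GaloisRep.IsDeformationCondition 𝒪 𝒟)
    (hspan : Submodule.span (ResidueField 𝒪) (Set.range Mbar) = ⊤)
    {ρ : GaloisRepAdic R} (hρ : 𝒟 ρ) {M : GalQ →* Matrix (Fin 2) (Fin 2) R} (hM : IsModel ρ M)
    (hMl : mapRep (toK 𝒪 R : R →+* ResidueField 𝒪) M = Mbar)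
    (hinj : ∀ φ ψ : R →ₐ[𝒪] Dual 𝒪, (∃ P : Matrix (Fin 2) (Fin 2) (Dual 𝒪), IsUnit P ∧
      ∀ σ, P * mapRep (ψ : R →+* Dual 𝒪) M σ = mapRep (φ : R →+* Dual 𝒪) M σ * P) → φ = ψ)
    {ι : Type*} (y : ι → R) (hy : ∀ i, y i ∈ maximalIdeal R)
    (W : Submodule (ResidueField 𝒪) (GalQ → Matrix (Fin 2) (Fin 2) (ResidueField 𝒪)))
    (hWc : adCobound Mbar ≤ W)
    (hW : ∀ (φ : R →ₐ[𝒪] Dual 𝒪) (a : adCocycle Mbar), (∀ i, φ (y i) = 0) →
      dualRep Mbar a = mapRep (φ : R →+* Dual 𝒪) M → a.1 ∈ W) {r : ℕ}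
    (hr : ∀ Z : Submodule (ResidueField 𝒪) (GalQ → Matrix (Fin 2) (Fin 2) (ResidueField 𝒪)),
      adCobound Mbar ≤ Z →
      (∀ a ∈ Z, a ∈ W ∧ ∃ ha : a ∈ adCocycle Mbar, Good 𝒟 Mbar (dualRep Mbar ⟨a, ha⟩)) →
      Module.Finite (ResidueField 𝒪) Z ∧ Module.finrank (ResidueField 𝒪) Z ≤ r + 3) :
    ∃ x : Fin r → R, (∀ i, x i ∈ maximalIdeal R) ∧ maximalIdeal R ≤
      Ideal.span (Set.range y) ⊔ Ideal.span (Set.range x) ⊔
        (maximalIdeal 𝒪).map (algebraMap 𝒪 R) := by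
  classical
  set I : Ideal R := Ideal.span (Set.range y) with hI
  have hIle : I ≤ maximalIdeal R := by
    rw [hI, Ideal.span_le]
    rintro _ ⟨i, rfl⟩
    exact hy i
  have hItop : I ≠ ⊤ := fun h => (maximalIdeal.isMaximal R).ne_top (top_le_iff.mp (h ▸ hIle))
  have hnt : Nontrivial (R ⧸ I) := Ideal.Quotient.nontrivial_iff.mpr hItop
  have hlocI : IsLocalRing (R ⧸ I) :=
    IsLocalRing.of_surjective' (Ideal.Quotient.mk I) Ideal.Quotient.mk_surjective
  have hcomp : IsAdicComplete (maximalIdeal (R ⧸ I)) (R ⧸ I) := isAdicComplete_quotient I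
  let qI : R →ₐ[𝒪] (R ⧸ I) := Ideal.Quotient.mkₐ 𝒪 I
  have hmkm : ∀ a : R, a ∈ maximalIdeal R ↔ qI a ∈ maximalIdeal (R ⧸ I) := by
    intro a
    constructor
    · intro ha
      have h1 : (maximalIdeal R).map (Ideal.Quotient.mk I) = maximalIdeal (R ⧸ I) :=
        IsLocalRing.map_maximalIdeal_of_surjective _ Ideal.Quotient.mk_surjective
      rw [← h1]
      exact Ideal.mem_map_of_mem _ ha
    · intro ha
      rw [mem_maximalIdeal, mem_nonunits_iff] at ha ⊢
      exact fun hu => ha (hu.map qI)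
  have hcoef : CoefAlg 𝒪 (R ⧸ I) := by
    refine ⟨⟨fun c hc => ?_⟩, fun x => ?_⟩
    · by_contra hn
      have h1 : algebraMap 𝒪 R c ∈ maximalIdeal R :=
        CoefAlg.algebraMap_mem (𝒪 := 𝒪) (A := R) hn
      exact ((mem_maximalIdeal _).mp ((hmkm _).mp h1)) hc
    · obtain ⟨x, rfl⟩ := residue_surjective x
      obtain ⟨x, rfl⟩ := Ideal.Quotient.mk_surjective x
      obtain ⟨c, hc⟩ := UDef.exists_sub_mem 𝒪 R x
      refine ⟨c, ?_⟩
      have h1 := (hmkm _).mp hc
      rw [← residue_eq_zero_iff, map_sub, map_sub, sub_eq_zero] at h1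
      exact h1.symm
  have hlocalg : IsLocalHom (algebraMap 𝒪 (R ⧸ I)) := CoefAlg.isLocalHom
  have h0 : Good 𝒟 Mbar Mbar := good_residual' h𝒟 hρ hM hMl
  set Z := tangentSpace h𝒟 h0 ⊓ W with hZ
  have hcZ : adCobound Mbar ≤ Z := le_inf (adCobound_le_tangentSpace h𝒟 h0) hWc
  obtain ⟨hfin, hle⟩ := hr Z hcZ (fun a ha => ⟨ha.2, mem_tangentSpace.mp ha.1⟩)
  have h3 : Module.finrank (ResidueField 𝒪) ((adCobound Mbar).comap Z.subtype) = 3 := by
    rw [← finrank_adCobound hspan]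
    exact LinearEquiv.finrank_eq (Submodule.comapSubtypeEquivOfLe hcZ)
  set Q := Z ⧸ (adCobound Mbar).comap Z.subtype with hQ
  haveI : Finite Q := Module.finite_of_finite (ResidueField 𝒪)
  have hcard : Nat.card Q ≤ Nat.card (ResidueField 𝒪) ^ r := by
    rw [Module.natCard_eq_pow_finrank (K := ResidueField 𝒪) (V := Q)]
    refine Nat.pow_le_pow_right Nat.card_pos ?_
    have h4 : Module.finrank (ResidueField 𝒪) Q +
        Module.finrank (ResidueField 𝒪) ((adCobound Mbar).comap Z.subtype) =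
        Module.finrank (ResidueField 𝒪) Z :=
      Submodule.finrank_quotient_add_finrank ((adCobound Mbar).comap Z.subtype)
    omega
  -- conversion between algebra structures
  let conv : ((R ⧸ I) →ₐ[𝒪] DualNumber (ResidueField 𝒪)) → (R →ₐ[𝒪] Dual 𝒪) := fun φ =>
    { toFun := fun x => φ (qI x)
      map_one' := by rw [map_one, map_one]; rfl
      map_mul' := fun x y => by rw [map_mul, map_mul]; rfl
      map_zero' := by rw [map_zero, map_zero]; rfl
      map_add' := fun x y => by rw [map_add, map_add]; rfl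
      commutes' := fun c => by rw [AlgHom.commutes]; exact φ.commutes c }
  have hconv : Function.Injective conv := by
    intro φ ψ h
    ext x : 1
    obtain ⟨x, rfl⟩ := Ideal.Quotient.mk_surjective x
    exact DFunLike.congr_fun h x
  have hconvy : ∀ φ i, conv φ (y i) = 0 := by
    intro φ i
    show φ (qI (y i)) = 0
    have : qI (y i) = 0 := Ideal.Quotient.eq_zero_iff_mem.mpr (Ideal.subset_span ⟨i, rfl⟩)
    rw [this, map_zero]
  have key : ∀ φ : (R ⧸ I) →ₐ[𝒪] DualNumber (ResidueField 𝒪), ∃ a : adCocycle Mbar,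
      dualRep Mbar a = mapRep (conv φ : R →+* Dual 𝒪) M ∧ a.1 ∈ Z := by
    intro φ
    obtain ⟨a, ha⟩ := exists_cocycle Mbar (mapRep (conv φ : R →+* Dual 𝒪) M) (by
      rw [UDef.mapRep_toK, hMl])
    refine ⟨a, ha, ?_, hW _ a (hconvy φ) ha⟩
    rw [SetLike.mem_coe, mem_tangentSpace]
    refine ⟨a.2, ?_⟩
    have h1 := good_of_type h𝒟 hρ hM hMl (conv φ)
    rwa [← ha] at h1
  choose a ha haZ using key
  let f : ((R ⧸ I) →ₐ[𝒪] DualNumber (ResidueField 𝒪)) → Q := fun φ =>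
    Submodule.Quotient.mk ⟨(a φ).1, haZ φ⟩
  have hf : Function.Injective f := by
    intro φ ψ h
    apply hconv
    apply hinj
    have h1 : (a φ).1 - (a ψ).1 ∈ adCobound Mbar := by
      have h2 := (Submodule.Quotient.eq _).mp h
      exact h2
    obtain ⟨X, hX⟩ := h1
    obtain ⟨hu, hconj⟩ := dualRep_conj Mbar (a φ) (a ψ) X hX.symm
    refine ⟨_, hu, fun σ => ?_⟩
    rw [← ha φ, ← ha ψ]
    exact hconj σ
  have hcoef2 : Function.Surjective (residue (R ⧸ I) ∘ algebraMap 𝒪 (R ⧸ I)) :=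
    CoefAlg.residue_surjective
  obtain ⟨γ, hγ⟩ := TWP.exists_mvPowerSeries_surjective_of_card hcoef2 hcard f hf
  choose x hx using fun i : Fin r => Ideal.Quotient.mk_surjective (I := I) (γ (MvPowerSeries.X i))
  have hlocγ : IsLocalHom (γ : MvPowerSeries (Fin r) 𝒪 →+* R ⧸ I) :=
    Function.Surjective.isLocalHom _ hγ
  have hγm : ∀ g ∈ maximalIdeal (MvPowerSeries (Fin r) 𝒪), γ g ∈ maximalIdeal (R ⧸ I) := by
    intro g hg
    have h1 := IsLocalRing.map_maximalIdeal_le (γ : MvPowerSeries (Fin r) 𝒪 →+* R ⧸ I)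
    exact h1 (Ideal.mem_map_of_mem _ hg)
  refine ⟨x, fun i => (hmkm _).mpr ?_, fun z hz => ?_⟩
  · have h1 : qI (x i) = γ (MvPowerSeries.X i) := hx i
    rw [h1]
    exact hγm _ (Fermat.Agent.RT.ULim.X_mem_maximalIdeal i)
  · obtain ⟨g, hg⟩ := hγ (qI z)
    have hgm : g ∈ maximalIdeal (MvPowerSeries (Fin r) 𝒪) := by
      rw [mem_maximalIdeal, mem_nonunits_iff]
      intro hu
      have h1 := hu.map γ
      rw [hg] at h1
      exact ((mem_maximalIdeal _).mp ((hmkm z).mp hz)) h1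
    have hg0 : MvPowerSeries.constantCoeff g ∈ maximalIdeal 𝒪 :=
      Fermat.Agent.RT.ULim.constantCoeff_mem_of_mem hgm
    choose t ht using fun i : Fin r =>
      Ideal.Quotient.mk_surjective (I := I) (γ (Fermat.Agent.RT.ULim.xquot g i))
    have h1 : z - (algebraMap 𝒪 R (MvPowerSeries.constantCoeff g) + ∑ i, x i * t i) ∈ I := by
      rw [← Ideal.Quotient.eq_zero_iff_mem]
      have h2 : (Ideal.Quotient.mk I) z = γ g := hg.symm
      rw [map_sub, map_add, map_sum, h2]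
      have h3 : γ g = γ (MvPowerSeries.C (MvPowerSeries.constantCoeff g)) +
          ∑ i, γ (MvPowerSeries.X i) * γ (Fermat.Agent.RT.ULim.xquot g i) := by
        conv_lhs => rw [Fermat.Agent.RT.ULim.eq_C_add_sum g]
        rw [map_add, map_sum]
        simp only [map_mul]
      rw [h3]
      have h4 : γ (MvPowerSeries.C (MvPowerSeries.constantCoeff g)) =
          Ideal.Quotient.mk I (algebraMap 𝒪 R (MvPowerSeries.constantCoeff g)) :=
        γ.commutes _
      rw [h4]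
      simp only [map_mul, hx, ht]
      rw [sub_self]
    have h5 : z = (z - (algebraMap 𝒪 R (MvPowerSeries.constantCoeff g) + ∑ i, x i * t i)) +
        (∑ i, x i * t i) + algebraMap 𝒪 R (MvPowerSeries.constantCoeff g) := by ring
    rw [h5]
    refine add_mem (add_mem ?_ ?_) ?_
    · exact Ideal.mem_sup_left (Ideal.mem_sup_left h1)
    · refine Ideal.sum_mem _ fun i _ => Ideal.mul_mem_right _ _ ?_
      exact Ideal.mem_sup_left (Ideal.mem_sup_right (Ideal.subset_span ⟨i, rfl⟩))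
    · exact Ideal.mem_sup_right (Ideal.mem_map_of_mem _ hg0)

end main

end Fermat.Agent.IH
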