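import Mathlib
import Fermat.Agent.DefRing.Dictionary
import Fermat.Agent.TWP.Tame
import Fermat.Agent.RT.SelTame

set_option autoImplicit false
set_option linter.style.haveILetI false
set_option linter.unusedSectionVars false

/-!
# Tame generators for representations over local rings

`M` a continuous matrix representation over a Noetherian local ring `R`, trivial modulo `𝔪` on the
inertia group at a place `P` above a prime different from the residue characteristic `p`.  There is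
an element `τ` of the inertia group such that `M τ` is a topological generator of the image of the
inertia group, and `M φ * M τ = M τ ^ q * M φ` for a Frobenius `φ`.
-/

namespace Fermat.Agent.IH

open IsLocalRing Matrix Pointwise
open Fermat.Agent.UDef (GalQ MCont)

section pow

variable {A : Type*} [CommRing A] {J : Ideal A}

theorem entries_mul {a b : ℕ} {X Y : Matrix (Fin 2) (Fin 2) A} (hX : ∀ i j, X i j ∈ J ^ a)
    (hY : ∀ i j, Y i j ∈ J ^ b) : ∀ i j, (X * Y) i j ∈ J ^ (a + b) := by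
  intro i j
  rw [Matrix.mul_apply]
  refine Ideal.sum_mem _ fun l _ => ?_
  rw [pow_add]
  exact Ideal.mul_mem_mul (hX i l) (hY l j)

theorem pow_sub_one_mem {p : ℕ} (hp : (p : A) ∈ J) {X : Matrix (Fin 2) (Fin 2) A}
    (hX : ∀ i j, (X - 1) i j ∈ J) (a : ℕ) : ∀ i j, (X ^ (p ^ a) - 1) i j ∈ J ^ (a + 1) := by
  induction a with
  | zero => simpa using hX
  | succ a ih =>
    have h1 : X ^ (p ^ (a + 1)) - 1 =
        (∑ i ∈ Finset.range p, (X ^ (p ^ a)) ^ i) * (X ^ (p ^ a) - 1) := by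
      rw [geom_sum_mul, pow_succ, pow_mul]
    have h2 : ∀ i j, (∑ i ∈ Finset.range p, (X ^ (p ^ a)) ^ i) i j ∈ J ^ 1 := by
      intro i j
      rw [pow_one, ← Ideal.Quotient.eq_zero_iff_mem]
      have h3 : (X ^ (p ^ a)).map (Ideal.Quotient.mk J) = 1 := by
        ext i j
        have h4 := Ideal.pow_le_self (Nat.succ_ne_zero a) (ih i j)
        rw [← Ideal.Quotient.eq_zero_iff_mem, Matrix.sub_apply, map_sub, sub_eq_zero] at h4
        rw [Matrix.map_apply, h4, Matrix.one_apply, Matrix.one_apply]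
        split_ifs <;> simp
      have h5 : (Ideal.Quotient.mk J).mapMatrix (∑ i ∈ Finset.range p, (X ^ (p ^ a)) ^ i) = 0 := by
        rw [map_sum]
        have h6 : ∀ i ∈ Finset.range p, (Ideal.Quotient.mk J).mapMatrix ((X ^ (p ^ a)) ^ i) = 1 := by
          intro i _
          rw [map_pow]
          change ((X ^ (p ^ a)).map (Ideal.Quotient.mk J)) ^ i = 1
          rw [h3, one_pow]
        rw [Finset.sum_congr rfl h6, Finset.sum_const, Finset.card_range, nsmul_one]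
        have h7 : ((p : ℕ) : A ⧸ J) = 0 := by
          rw [← map_natCast (Ideal.Quotient.mk J), Ideal.Quotient.eq_zero_iff_mem]
          exact hp
        have h8 : ((p : ℕ) : Matrix (Fin 2) (Fin 2) (A ⧸ J)) =
            (algebraMap (A ⧸ J) (Matrix (Fin 2) (Fin 2) (A ⧸ J))) (p : A ⧸ J) := by
          rw [map_natCast]
        rw [h8, h7, map_zero]
      exact congrFun (congrFun h5 i) j
    rw [h1]
    have h3 := entries_mul h2 ih
    have e : 1 + (a + 1) = a + 1 + 1 := by ring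
    rwa [e] at h3

end pow

section main

variable {R : Type} [CommRing R] [IsLocalRing R]

/-- The reduction modulo `𝔪 ^ n`. -/
noncomputable def redU (M : GalQ →* Matrix (Fin 2) (Fin 2) R) (n : ℕ) :
    GalQ →* (Matrix (Fin 2) (Fin 2) (R ⧸ maximalIdeal R ^ n))ˣ :=
  MonoidHom.toHomUnits
    (((Ideal.Quotient.mk (maximalIdeal R ^ n)).mapMatrix : Matrix (Fin 2) (Fin 2) R →+* _).toMonoidHom.comp M)

theorem redU_coe (M : GalQ →* Matrix (Fin 2) (Fin 2) R) (n : ℕ) (σ : GalQ) :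
    (redU M n σ : Matrix (Fin 2) (Fin 2) (R ⧸ maximalIdeal R ^ n)) =
      (M σ).map (Ideal.Quotient.mk (maximalIdeal R ^ n)) := rfl

theorem map_eq_iff {I : Ideal R} {X Y : Matrix (Fin 2) (Fin 2) R} :
    X.map (Ideal.Quotient.mk I) = Y.map (Ideal.Quotient.mk I) ↔ ∀ i j, (X - Y) i j ∈ I := by
  constructor
  · intro h i j
    have h1 := congrFun (congrFun h i) j
    rw [Matrix.map_apply, Matrix.map_apply, Ideal.Quotient.eq] at h1
    exact h1
  · intro h
    ext i j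
    rw [Matrix.map_apply, Matrix.map_apply, Ideal.Quotient.eq]
    exact h i j

theorem map_pow_mk {I : Ideal R} (X : Matrix (Fin 2) (Fin 2) R) (j : ℕ) :
    (X ^ j).map (Ideal.Quotient.mk I) = (X.map (Ideal.Quotient.mk I)) ^ j :=
  map_pow (Ideal.Quotient.mk I).mapMatrix X j

theorem redU_eq_pow_iff (M : GalQ →* Matrix (Fin 2) (Fin 2) R) (n : ℕ) (σ τ : GalQ) (j : ℕ) :
    redU M n σ = redU M n τ ^ j ↔ ∀ i i', (M σ - M τ ^ j) i i' ∈ maximalIdeal R ^ n := by
  rw [← map_eq_iff, Units.ext_iff, Units.val_pow_eq_pow_val, redU_coe, redU_coe, map_pow_mk]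

theorem redU_eq_one_iff (M : GalQ →* Matrix (Fin 2) (Fin 2) R) (n : ℕ) (σ : GalQ) :
    redU M n σ = 1 ↔ ∀ i i', (M σ - 1) i i' ∈ maximalIdeal R ^ n := by
  have := redU_eq_pow_iff M n σ 1 1
  rwa [map_one, map_one, one_pow, one_pow] at this

theorem redU_factors {M : GalQ →* Matrix (Fin 2) (Fin 2) R} (hM : MCont M) (n : ℕ) :
    ∃ L : IntermediateField ℚ (AlgebraicClosure ℚ), FiniteDimensional ℚ L ∧
      ∀ σ : GalQ, (∀ x ∈ L, σ x = x) → redU M n σ = 1 := by
  obtain ⟨L, hL, h⟩ := hM n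
  exact ⟨L, hL, fun σ hσ => (redU_eq_one_iff M n σ).mpr (h σ hσ)⟩

variable {M : GalQ →* Matrix (Fin 2) (Fin 2) R} {P : ValuationSubring (AlgebraicClosure ℚ)}
  {p : ℕ}

theorem redU_exp (hp : (p : R) ∈ maximalIdeal R)
    (hI : ∀ σ ∈ P.inertiaSubgroupIn ℚ, ∀ i j, (M σ - 1) i j ∈ maximalIdeal R) (n : ℕ) :
    ∀ σ ∈ P.inertiaSubgroupIn ℚ, redU M n σ ^ p ^ n = 1 := by
  intro σ hσ
  have h1 := pow_sub_one_mem hp (hI σ hσ) n
  rw [← map_pow, redU_eq_one_iff]
  intro i i'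
  rw [map_pow]
  exact Ideal.pow_le_pow_right (Nat.le_succ n) (h1 i i')

/-- **Tame topological generator.** -/
theorem exists_topGen {q : ℕ} (hq : q.Prime) (hP : P.LiesOverPrime q) (hpp : p.Prime)
    (hpq : p ≠ q) (hM : MCont M) (hp : (p : R) ∈ maximalIdeal R)
    (hI : ∀ σ ∈ P.inertiaSubgroupIn ℚ, ∀ i j, (M σ - 1) i j ∈ maximalIdeal R) :
    ∃ τ ∈ P.inertiaSubgroupIn ℚ, ∀ n, ∀ σ ∈ P.inertiaSubgroupIn ℚ, ∃ j : ℕ,
      ∀ i i', (M σ - M τ ^ j) i i' ∈ maximalIdeal R ^ n := by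
  classical
  have hcop : ∀ n, (p ^ n).Coprime q := fun n =>
    Nat.Coprime.pow_left n ((Nat.coprime_primes hpp hq).mpr hpq)
  have hgen : ∀ n, ∃ τ ∈ P.inertiaSubgroupIn ℚ, ∀ σ ∈ P.inertiaSubgroupIn ℚ, ∃ j : ℕ,
      redU M n σ = redU M n τ ^ j := fun n =>
    TWP.Tame.exists_tame_generator hq hP (redU M n) (redU_factors hM n) (hcop n)
      (redU_exp hp hI n)
  choose t ht htg using hgen
  by_cases htriv : ∀ n, ∀ σ ∈ P.inertiaSubgroupIn ℚ, redU M n σ = 1
  · refine ⟨1, one_mem _, fun n σ hσ => ⟨0, ?_⟩⟩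
    rw [pow_zero]
    exact (redU_eq_one_iff M n σ).mp (htriv n σ hσ)
  push Not at htriv
  obtain ⟨n₀, σ₀, hσ₀, hne⟩ := htriv
  -- reduction from a higher to a lower level
  have hred : ∀ {m n : ℕ} (_ : m ≤ n) {σ τ : GalQ} {j : ℕ}, redU M n σ = redU M n τ ^ j →
      redU M m σ = redU M m τ ^ j := by
    intro m n hmn σ τ j h
    rw [redU_eq_pow_iff] at h ⊢
    exact fun i i' => Ideal.pow_le_pow_right hmn (h i i')
  have htau_ne : redU M n₀ (t n₀) ≠ 1 := by
    intro h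
    obtain ⟨j, hj⟩ := htg n₀ σ₀ hσ₀
    rw [h, one_pow] at hj
    exact hne hj
  have hpord : ∀ n, ∀ σ ∈ P.inertiaSubgroupIn ℚ, ∃ a, a ≤ n ∧ orderOf (redU M n σ) = p ^ a := by
    intro n σ hσ
    exact (Nat.dvd_prime_pow hpp).mp (orderOf_dvd_of_pow_eq_one (redU_exp hp hI n σ hσ))
  have key : ∀ n, n₀ ≤ n → ∀ σ ∈ P.inertiaSubgroupIn ℚ, ∃ j : ℕ,
      redU M n σ = redU M n (t n₀) ^ j := by
    intro n hn
    obtain ⟨j, hj⟩ := htg n (t n₀) (ht n₀)
    have hpj : ¬ p ∣ j := by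
      intro hdvd
      have h1 := hred hn hj
      obtain ⟨i, hi⟩ := htg n₀ (t n) (ht n)
      rw [hi, ← pow_mul] at h1
      have h2 : redU M n₀ (t n₀) ^ (i * j) = redU M n₀ (t n₀) ^ 1 := by rw [pow_one]; exact h1.symm
      rw [pow_eq_pow_iff_modEq] at h2
      obtain ⟨a, -, ha⟩ := hpord n₀ (t n₀) (ht n₀)
      rw [ha] at h2
      have ha0 : a ≠ 0 := by
        rintro rfl
        rw [pow_zero, orderOf_eq_one_iff] at ha
        exact htau_ne ha
      have h3 : i * j ≡ 1 [MOD p] := h2.of_dvd (dvd_pow_self p ha0)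
      have h4 : p ∣ i * j := Dvd.dvd.mul_left hdvd i
      have h5 : (1 : ℕ) ≡ 0 [MOD p] := h3.symm.trans ((Nat.modEq_zero_iff_dvd).mpr h4)
      have h6 : p ∣ 1 := (Nat.modEq_zero_iff_dvd).mp h5
      exact hpp.one_lt.ne' (Nat.dvd_one.mp h6)
    have hcopj : Nat.Coprime (orderOf (redU M n (t n))) j := by
      obtain ⟨a, -, ha⟩ := hpord n (t n) (ht n)
      rw [ha]
      exact Nat.Coprime.pow_left a ((Nat.Prime.coprime_iff_not_dvd hpp).mpr hpj)
    have hmem : redU M n (t n) ∈ Subgroup.zpowers (redU M n (t n₀)) := by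
      have h1 : redU M n (t n) ∈ Subgroup.zpowers (redU M n (t n) ^ j) :=
        (mem_zpowers_pow_iff).mpr hcopj.symm
      rwa [← hj] at h1
    have hfin : IsOfFinOrder (redU M n (t n₀)) :=
      isOfFinOrder_iff_pow_eq_one.mpr ⟨p ^ n, pow_pos hpp.pos n, redU_exp hp hI n _ (ht n₀)⟩
    have hmem' : redU M n (t n) ∈ Submonoid.powers (redU M n (t n₀)) :=
      hfin.mem_powers_iff_mem_zpowers.mpr hmem
    obtain ⟨j', hj'⟩ := hmem'
    intro σ hσ
    obtain ⟨i, hi⟩ := htg n σ hσ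
    refine ⟨j' * i, ?_⟩
    rw [hi, ← hj', pow_mul]
  refine ⟨t n₀, ht n₀, fun n σ hσ => ?_⟩
  obtain ⟨j, hj⟩ := key (max n n₀) (le_max_right _ _) σ hσ
  exact ⟨j, (redU_eq_pow_iff M n σ (t n₀) j).mp (hred (le_max_left _ _) hj)⟩

/-- **Frobenius relation.** -/
theorem frobenius_mul [IsNoetherianRing R] {q : ℕ} (hq : q.Prime) (hP : P.LiesOverPrime q)
    (hpp : p.Prime) (hpq : p ≠ q) (hM : MCont M) (hp : (p : R) ∈ maximalIdeal R)
    (hI : ∀ σ ∈ P.inertiaSubgroupIn ℚ, ∀ i j, (M σ - 1) i j ∈ maximalIdeal R)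
    {φ τ : GalQ} (hφ : P.IsFrobeniusAt φ q) (hτ : τ ∈ P.inertiaSubgroupIn ℚ) :
    M φ * M τ = M τ ^ q * M φ := by
  have hcop : ∀ n, (p ^ n).Coprime q := fun n =>
    Nat.Coprime.pow_left n ((Nat.coprime_primes hpp hq).mpr hpq)
  have h1 : ∀ n, ∀ i i', (M (φ * τ * φ⁻¹) - M τ ^ q) i i' ∈ maximalIdeal R ^ n := by
    intro n
    rw [← redU_eq_pow_iff]
    exact RT.SelTame.frobenius_tame hq hP (redU M n) (redU_factors hM n) (hcop n)
      (redU_exp hp hI n) hφ hτ
  have h2 : M (φ * τ * φ⁻¹) = M τ ^ q := by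
    ext i i'
    rw [← sub_eq_zero, ← Matrix.sub_apply]
    have h3 : (M (φ * τ * φ⁻¹) - M τ ^ q) i i' ∈ ⨅ n : ℕ, maximalIdeal R ^ n := by
      rw [Ideal.mem_iInf]
      exact fun n => h1 n i i'
    rw [Ideal.iInf_pow_eq_bot_of_isLocalRing _ (maximalIdeal.isMaximal R).ne_top] at h3
    exact (Submodule.mem_bot R).mp h3
  have h3 : φ * τ = φ * τ * φ⁻¹ * φ := by group
  rw [← map_mul, h3, map_mul, h2]

end main

end Fermat.Agent.IH
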