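import Mathlib
import Fermat.Agent.IH.RingSide
import Fermat.Agent.IH.TameGen
import Fermat.Agent.IH.Local
import Fermat.Agent.RT.SelUnram
import Fermat.Agent.TWP.FlatLoc.FrobDec

set_option autoImplicit false
set_option linter.style.haveILetI false
set_option linter.unusedSectionVars false

/-!
# Generators of a deformation ring: local coordinates at primes where the residual
representation is scalar

Main theorem: `exists_generators_sigma`.
-/

namespace Fermat.Agent.IH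

open IsLocalRing Matrix Pointwise
open Fermat.Agent.UDef (GalQ IsModel IsModelR MCont ofMatrix isModel_ofMatrix mapRep Dual dmk dfst
  dsnd CoefAlg toK dual_ext Good)
open Fermat.Agent.TWP (adCocycle adCobound adBoundary dualRep matMk tangentSpace mem_tangentSpace
  adCobound_le_tangentSpace finrank_adCobound exists_cocycle dualRep_conj type_baseChange)
open Fermat.Agent.IH.Local (coord)

section dual

variable {𝒪 : Type} [CommRing 𝒪] [IsLocalRing 𝒪]

/-- A matrix over the dual numbers which is scalar, with constant determinant and invertible, is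
constant (`2` invertible). -/
theorem matMk_eq_zero_of_scalar (h2 : (2 : ResidueField 𝒪) ≠ 0)
    {X Y : Matrix (Fin 2) (Fin 2) (ResidueField 𝒪)} (hX : X.det ≠ 0) {c : ResidueField 𝒪}
    (hdet : (matMk X Y).det = dmk c 0) (h01 : matMk X Y 0 1 = 0)
    (h10 : matMk X Y 1 0 = 0) (hd : matMk X Y 0 0 - matMk X Y 1 1 = 0) : Y = 0 := by
  have e : ∀ i j, matMk X Y i j = dmk (X i j) (Y i j) := fun i j => rfl
  have a01 : X 0 1 = 0 ∧ Y 0 1 = 0 := by
    rw [e] at h01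
    exact ⟨by simpa using congrArg dfst h01, by simpa using congrArg dsnd h01⟩
  have a10 : X 1 0 = 0 ∧ Y 1 0 = 0 := by
    rw [e] at h10
    exact ⟨by simpa using congrArg dfst h10, by simpa using congrArg dsnd h10⟩
  have ad : X 0 0 = X 1 1 ∧ Y 0 0 = Y 1 1 := by
    rw [e, e, sub_eq_zero] at hd
    exact ⟨by simpa using congrArg dfst hd, by simpa using congrArg dsnd hd⟩
  have hdet' : X 1 1 * Y 1 1 + X 1 1 * Y 1 1 = 0 := by
    rw [Matrix.det_fin_two, h01, zero_mul, sub_zero, e, e, ad.1, ad.2] at hdet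
    have := congrArg dsnd hdet
    rw [UDef.dsnd_mul] at this
    simpa using this
  have hX1 : X 1 1 ≠ 0 := by
    intro h
    apply hX
    rw [Matrix.det_fin_two, a01.1, ad.1, h]
    ring
  have hY1 : Y 1 1 = 0 := by
    have h3 : (2 : ResidueField 𝒪) * (X 1 1 * Y 1 1) = 0 := by rw [two_mul]; exact hdet'
    rcases mul_eq_zero.mp h3 with h | h
    · exact absurd h h2
    · rcases mul_eq_zero.mp h with h | h
      · exact absurd h hX1
      · exact h
  ext i j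
  fin_cases i <;> fin_cases j
  · exact ad.2.trans hY1
  · exact a01.2
  · exact a10.2
  · exact hY1

end dual

section main

variable {𝒪 : Type} [CommRing 𝒪] [IsDomain 𝒪] [IsDiscreteValuationRing 𝒪]
  [IsAdicComplete (maximalIdeal 𝒪) 𝒪] [Finite (ResidueField 𝒪)]
  {𝒟 : ∀ ⦃A : Type⦄ [CommRing A] [IsLocalRing A] [Algebra 𝒪 A], GaloisRepAdic A → Prop}
  {Mbar : GalQ →* Matrix (Fin 2) (Fin 2) (ResidueField 𝒪)}
  {R : Type} [CommRing R] [IsLocalRing R] [IsNoetherianRing R] [IsAdicComplete (maximalIdeal R) R]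
  [Algebra 𝒪 R] [CoefAlg 𝒪 R]

theorem mem_maximalIdeal_of_toK {x : R} (h : toK 𝒪 R x = 0) : x ∈ maximalIdeal R := by
  rw [mem_maximalIdeal, mem_nonunits_iff]
  intro hu
  have h1 := hu.map (toK 𝒪 R)
  rw [h] at h1
  exact not_isUnit_zero h1

theorem entries_of_map_toK {M : GalQ →* Matrix (Fin 2) (Fin 2) R}
    (hMl : mapRep (toK 𝒪 R : R →+* ResidueField 𝒪) M = Mbar) {σ : GalQ} (h : Mbar σ = 1) :
    ∀ i j, (M σ - 1) i j ∈ maximalIdeal R := by
  intro i j
  apply mem_maximalIdeal_of_toK (𝒪 := 𝒪)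
  have h1 : (M σ).map (toK 𝒪 R : R →+* ResidueField 𝒪) = 1 := by
    rw [← h, ← hMl]; rfl
  have h2 := congrFun (congrFun h1 i) j
  rw [Matrix.sub_apply, map_sub, sub_eq_zero]
  rw [Matrix.map_apply] at h2
  refine h2.trans ?_
  rw [Matrix.one_apply, Matrix.one_apply]
  split_ifs <;> simp

theorem coord_mem {M : GalQ →* Matrix (Fin 2) (Fin 2) R}
    (hMl : mapRep (toK 𝒪 R : R →+* ResidueField 𝒪) M = Mbar) {σ φ : GalQ}
    (hσ : ∃ c : ResidueField 𝒪, Mbar σ = c • 1) (hφ : ∃ c : ResidueField 𝒪, Mbar φ = c • 1)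
    (i : Fin 6) : coord (M σ) (M φ) i ∈ maximalIdeal R := by
  have key : ∀ g : GalQ, (∃ c : ResidueField 𝒪, Mbar g = c • 1) →
      toK 𝒪 R (M g 0 1) = 0 ∧ toK 𝒪 R (M g 1 0) = 0 ∧ toK 𝒪 R (M g 0 0 - M g 1 1) = 0 := by
    rintro g ⟨c, hc⟩
    have h1 : ∀ i j, toK 𝒪 R (M g i j) = Mbar g i j := by
      intro i j
      rw [← hMl]; rfl
    refine ⟨?_, ?_, ?_⟩
    · rw [h1, hc]; simp
    · rw [h1, hc]; simp
    · rw [map_sub, h1, h1, hc]; simp
  obtain ⟨a1, a2, a3⟩ := key σ hσ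
  obtain ⟨b1, b2, b3⟩ := key φ hφ
  apply mem_maximalIdeal_of_toK (𝒪 := 𝒪)
  fin_cases i
  · exact a1
  · exact a2
  · exact a3
  · exact b1
  · exact b2
  · exact b3

/-- A tangent vector kills the square of the maximal ideal. -/
theorem map_sq_eq_zero (φ : R →ₐ[𝒪] Dual 𝒪) {x : R} (hx : x ∈ maximalIdeal R ^ 2) : φ x = 0 := by
  have hm : ∀ y ∈ maximalIdeal R, dfst (φ y) = 0 := by
    intro y hy
    by_contra hne
    have hu : IsUnit (φ y) := by
      refine IsUnit.of_mul_eq_one (dmk (dfst (φ y))⁻¹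
        (-(dfst (φ y))⁻¹ * (dfst (φ y))⁻¹ * dsnd (φ y))) ?_
      apply dual_ext
      · simp [hne]
      · simp
        field_simp
        ring
    have hloc : IsLocalHom (φ : R →+* Dual 𝒪) := UDef.isLocalHom_algHom φ
    have := hloc.map_nonunit y hu
    exact ((mem_maximalIdeal _).mp hy) this
  rw [pow_two] at hx
  refine Submodule.mul_induction_on hx ?_ ?_
  · intro a ha b hb
    rw [map_mul]
    apply dual_ext
    · simp [hm a ha]
    · simp [hm a ha, hm b hb]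
  · intro a b ha hb
    rw [map_add, ha, hb, add_zero]

/-- Tangent vectors killing the coordinates at `P`: the cocycle vanishes on the decomposition
group. -/
theorem cocycle_vanish {p q : ℕ} (hpp : p.Prime) (hq : q.Prime) (hpq : p ≠ q)
    (h2 : (2 : ResidueField 𝒪) ≠ 0)
    {ρ : GaloisRepAdic R} (hdet : ρ.DetIsCyclotomic p) {M : GalQ →* Matrix (Fin 2) (Fin 2) R}
    (hM : IsModel ρ M) (hMl : mapRep (toK 𝒪 R : R →+* ResidueField 𝒪) M = Mbar)
    {P : ValuationSubring (AlgebraicClosure ℚ)} (hP : P.LiesOverPrime q)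
    (hI : ∀ σ ∈ P.inertiaSubgroupIn ℚ, Mbar σ = 1)
    {τ F : GalQ} (hτ : τ ∈ P.inertiaSubgroupIn ℚ) (hF : P.IsFrobeniusAt F q)
    (hgen : ∀ n, ∀ σ ∈ P.inertiaSubgroupIn ℚ, ∃ j : ℕ,
      ∀ i i', (M σ - M τ ^ j) i i' ∈ maximalIdeal R ^ n)
    (φ : R →ₐ[𝒪] Dual 𝒪) (hφ : ∀ i, φ (coord (M τ) (M F) i) = 0)
    (a : adCocycle Mbar) (ha : dualRep Mbar a = mapRep (φ : R →+* Dual 𝒪) M) :
    ∀ d ∈ P.decompositionSubgroup ℚ, a.1 d = 0 := by
  have hent : ∀ g i j, matMk (Mbar g) (a.1 g * Mbar g) i j = φ (M g i j) := by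
    intro g i j
    have := congrFun (congrFun (DFunLike.congr_fun ha g) i) j
    exact this
  have hdet' : ∀ g, (matMk (Mbar g) (a.1 g * Mbar g)).det = φ ((M g).det) := by
    intro g
    rw [Matrix.det_fin_two, Matrix.det_fin_two, map_sub, map_mul, map_mul]
    simp only [hent]
  have hMdet : ∀ g, (Mbar g).det ≠ 0 := by
    intro g h
    have h1 := congrArg Matrix.det (TWP.mul_inv_rep Mbar g)
    rw [Matrix.det_mul, h, zero_mul, Matrix.det_one] at h1
    exact one_ne_zero h1.symm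
  have hnat : ∀ n : ℕ, φ (n : R) = dmk (n : ResidueField 𝒪) 0 := by
    intro n
    rw [map_natCast, ← map_natCast (algebraMap 𝒪 (Dual 𝒪))]
    apply dual_ext
    · rw [UDef.dfst_algebraMap, UDef.dfst_dmk, map_natCast]
    · rw [UDef.dsnd_algebraMap, UDef.dsnd_dmk]
  have hzero : ∀ g, (∃ n : ℕ, (M g).det = n) → φ (M g 0 1) = 0 → φ (M g 1 0) = 0 →
      φ (M g 0 0 - M g 1 1) = 0 → a.1 g = 0 := by
    rintro g ⟨n, hn⟩ h01 h10 hd
    have h3 : a.1 g * Mbar g = 0 := by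
      refine matMk_eq_zero_of_scalar h2 (hMdet g) (c := (n : ResidueField 𝒪)) ?_ ?_ ?_ ?_
      · rw [hdet', hn, hnat]
      · rw [hent]; exact h01
      · rw [hent]; exact h10
      · rw [hent, hent, ← map_sub]; exact hd
    have h4 := congrArg (fun X => X * Mbar g⁻¹) h3
    simp only [Matrix.mul_assoc, TWP.mul_inv_rep, Matrix.mul_one, Matrix.zero_mul] at h4
    exact h4
  have h0 : φ (M τ 0 1) = 0 := hφ 0
  have h1 : φ (M τ 1 0) = 0 := hφ 1
  have h2' : φ (M τ 0 0 - M τ 1 1) = 0 := hφ 2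
  have h3 : φ (M F 0 1) = 0 := hφ 3
  have h4 : φ (M F 1 0) = 0 := hφ 4
  have h5 : φ (M F 0 0 - M F 1 1) = 0 := hφ 5
  have hdetI : ∀ σ ∈ P.inertiaSubgroupIn ℚ, (M σ).det = ((1 : ℕ) : R) := by
    intro σ hσ
    rw [RT.SelUnram.IsModel.det hM σ]
    exact RT.SelUnram.det_eq_natCast hdet (fun n μ hμ =>
      RT.SelUnram.inertia_root hpp hq hpq hP hσ n μ hμ)
  have hdetF : (M F).det = (q : R) := by
    rw [RT.SelUnram.IsModel.det hM F]
    exact RT.SelUnram.det_eq_natCast hdet (fun n μ hμ =>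
      RT.SelUnram.frobenius_root hpp hq hpq hP hF n μ hμ)
  have haτ : a.1 τ = 0 := hzero τ ⟨1, hdetI τ hτ⟩ h0 h1 h2'
  have haF : a.1 F = 0 := hzero F ⟨q, hdetF⟩ h3 h4 h5
  have hφτ : mapRep (φ : R →+* Dual 𝒪) M τ = 1 := by
    rw [← ha, TWP.dualRep_apply, haτ, zero_mul, hI τ hτ, TWP.matMk_one]
  have haI : ∀ σ ∈ P.inertiaSubgroupIn ℚ, a.1 σ = 0 := by
    intro σ hσ
    obtain ⟨j, hj⟩ := hgen 2 σ hσ
    have h6 : mapRep (φ : R →+* Dual 𝒪) M σ = 1 := by
      have h7 : mapRep (φ : R →+* Dual 𝒪) M σ = (mapRep (φ : R →+* Dual 𝒪) M τ) ^ j := by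
        ext i i'
        have h8 := map_sq_eq_zero φ (hj i i')
        rw [Matrix.sub_apply, map_sub, sub_eq_zero] at h8
        have h9 : (mapRep (φ : R →+* Dual 𝒪) M τ) ^ j = (M τ ^ j).map (φ : R →+* Dual 𝒪) :=
          (map_pow (φ : R →+* Dual 𝒪).mapMatrix (M τ) j).symm
        rw [h9]
        exact h8
      rw [h7, hφτ, one_pow]
    rw [← ha, TWP.dualRep_apply, hI σ hσ, mul_one, ← TWP.matMk_one] at h6
    exact (TWP.matMk_injective h6).2
  have hFn : ∀ n : ℕ, a.1 (F ^ n) = 0 := by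
    intro n
    induction n with
    | zero =>
      rw [pow_zero]
      have h6 := a.2 1 1
      simp only [mul_one, map_one, inv_one, one_mul] at h6
      simpa using h6.symm
    | succ n ih =>
      rw [pow_succ, a.2, ih, haF, mul_zero, zero_mul, add_zero]
  -- density
  obtain ⟨L, hL, hLa⟩ :=
    (hM.baseChangeAlong (φ : R →+* Dual 𝒪) (UDef.isLocalHom_algHom φ)).mcont 2
  have hL1 : ∀ σ : GalQ, (∀ x ∈ L, σ x = x) → a.1 σ = 0 := by
    intro σ hσ
    have h6 := hLa σ hσ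
    have h7 : mapRep (φ : R →+* Dual 𝒪) M σ = 1 := by
      ext i j
      rw [← sub_eq_zero, ← Matrix.sub_apply]
      have h8 := map_sq_eq_zero (AlgHom.id 𝒪 (Dual 𝒪)) (h6 i j)
      exact h8
    rw [← ha, TWP.dualRep_apply, ← TWP.matMk_one] at h7
    obtain ⟨h8, h9⟩ := TWP.matMk_injective h7
    rw [h8, mul_one] at h9
    exact h9
  intro d hd
  obtain ⟨n, σ, hσ, hdσ⟩ := TWFlat.exists_frob_mul_inertia hq hP hF hd L
  have h6 : a.1 ((F ^ n * σ)⁻¹ * d) = 0 := by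
    apply hL1
    intro x hx
    have h7 := hdσ x hx
    change (F ^ n * σ)⁻¹ (d x) = x
    rw [h7]
    exact (F ^ n * σ).symm_apply_apply x
  have h7 : d = (F ^ n * σ) * ((F ^ n * σ)⁻¹ * d) := by group
  rw [h7, a.2, h6, mul_zero, zero_mul, add_zero, a.2, hFn, haI σ hσ, mul_zero, zero_mul, add_zero]

theorem residue_two_ne_zero {p : ℕ} (hpp : p.Prime) (hp2 : p ≠ 2)
    (hp𝒪 : (p : 𝒪) ∈ maximalIdeal 𝒪) : (2 : ResidueField 𝒪) ≠ 0 := by
  intro h
  have h1 : ((p : ℕ) : ResidueField 𝒪) = 0 := by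
    rw [← map_natCast (residue 𝒪), residue_eq_zero_iff]
    exact hp𝒪
  obtain ⟨m, hm⟩ := hpp.odd_of_ne_two hp2
  rw [hm] at h1
  push_cast at h1
  rw [h, zero_mul, zero_add] at h1
  exact one_ne_zero h1

theorem natCast_mem_maximalIdeal {p : ℕ} (hp𝒪 : (p : 𝒪) ∈ maximalIdeal 𝒪) :
    (p : R) ∈ maximalIdeal R := by
  rw [← map_natCast (algebraMap 𝒪 R)]
  exact CoefAlg.algebraMap_mem hp𝒪

/-- **Generators of a deformation ring: local coordinates at the places `P l` plus `m` further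
elements.** -/
theorem exists_generators_sigma (h𝒟 : GaloisRep.IsDeformationCondition 𝒪 𝒟)
    (hspan : Submodule.span (ResidueField 𝒪) (Set.range Mbar) = ⊤)
    {p : ℕ} (hpp : p.Prime) (hp2 : p ≠ 2) (hp𝒪 : (p : 𝒪) ∈ maximalIdeal 𝒪)
    {ρ : GaloisRepAdic R} (hρ : 𝒟 ρ) (hdet : ρ.DetIsCyclotomic p)
    {M : GalQ →* Matrix (Fin 2) (Fin 2) R} (hM : IsModel ρ M)
    (hMl : mapRep (toK 𝒪 R : R →+* ResidueField 𝒪) M = Mbar)
    (hinj : ∀ φ ψ : R →ₐ[𝒪] Dual 𝒪, (∃ P : Matrix (Fin 2) (Fin 2) (Dual 𝒪), IsUnit P ∧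
      ∀ σ, P * mapRep (ψ : R →+* Dual 𝒪) M σ = mapRep (φ : R →+* Dual 𝒪) M σ * P) → φ = ψ)
    {ι : Type*} (v : ι → ℕ) (hv : ∀ l, (v l).Prime) (hpv : ∀ l, p ≠ v l)
    (P : ι → ValuationSubring (AlgebraicClosure ℚ)) (hP : ∀ l, (P l).LiesOverPrime (v l))
    (F : ι → GalQ) (hF : ∀ l, (P l).IsFrobeniusAt (F l) (v l))
    (hI : ∀ l, ∀ σ ∈ (P l).inertiaSubgroupIn ℚ, Mbar σ = 1)
    (hD : ∀ l, ∃ c : ResidueField 𝒪, Mbar (F l) = c • 1) {m : ℕ}
    (hr : ∀ Z : Submodule (ResidueField 𝒪) (GalQ → Matrix (Fin 2) (Fin 2) (ResidueField 𝒪)),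
      adCobound Mbar ≤ Z →
      (∀ a ∈ Z, (∀ l, ∀ d ∈ (P l).decompositionSubgroup ℚ, a d = 0) ∧
        ∃ ha : a ∈ adCocycle Mbar, Good 𝒟 Mbar (dualRep Mbar ⟨a, ha⟩)) →
      Module.Finite (ResidueField 𝒪) Z ∧ Module.finrank (ResidueField 𝒪) Z ≤ m + 3) :
    ∃ (τ : ι → GalQ) (x : Fin m → R),
      (∀ l, τ l ∈ (P l).inertiaSubgroupIn ℚ) ∧
      (∀ l, ∀ n, ∀ σ ∈ (P l).inertiaSubgroupIn ℚ, ∃ j : ℕ,
        ∀ i i', (M σ - M (τ l) ^ j) i i' ∈ maximalIdeal R ^ n) ∧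
      (∀ l, M (F l) * M (τ l) = M (τ l) ^ v l * M (F l)) ∧
      (∀ l, (M (τ l)).det = 1) ∧ (∀ l, (M (F l)).det = (v l : R)) ∧
      (∀ l i, coord (M (τ l)) (M (F l)) i ∈ maximalIdeal R) ∧
      (∀ i, x i ∈ maximalIdeal R) ∧
      maximalIdeal R ≤ Ideal.span (Set.range fun li : ι × Fin 6 =>
          coord (M (τ li.1)) (M (F li.1)) li.2) ⊔ Ideal.span (Set.range x) ⊔
        (maximalIdeal 𝒪).map (algebraMap 𝒪 R) := by
  have h2 := residue_two_ne_zero hpp hp2 hp𝒪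
  have hpR : (p : R) ∈ maximalIdeal R := natCast_mem_maximalIdeal hp𝒪
  have hIR : ∀ l, ∀ σ ∈ (P l).inertiaSubgroupIn ℚ, ∀ i j, (M σ - 1) i j ∈ maximalIdeal R :=
    fun l σ hσ => entries_of_map_toK hMl (hI l σ hσ)
  choose τ hτ hgen using fun l => exists_topGen (hv l) (hP l) hpp (hpv l) hM.mcont hpR (hIR l)
  have hcoord : ∀ l i, coord (M (τ l)) (M (F l)) i ∈ maximalIdeal R := fun l i =>
    coord_mem hMl ⟨1, by rw [hI l _ (hτ l), one_smul]⟩ (hD l) i
  -- the local condition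
  let W : Submodule (ResidueField 𝒪) (GalQ → Matrix (Fin 2) (Fin 2) (ResidueField 𝒪)) :=
    { carrier := {a | ∀ l, ∀ d ∈ (P l).decompositionSubgroup ℚ, a d = 0}
      zero_mem' := fun l d _ => rfl
      add_mem' := fun {a b} ha hb l d hd => by
        rw [Pi.add_apply, ha l d hd, hb l d hd, add_zero]
      smul_mem' := fun c a ha l d hd => by
        rw [Pi.smul_apply, ha l d hd, smul_zero] }
  have hWc : adCobound Mbar ≤ W := by
    -- coboundaries vanish where `Mbar` is scalar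
    rintro _ ⟨X, rfl⟩ l d hd
    have hsc : ∃ c : ResidueField 𝒪, Mbar d = c • 1 := by
      have hmodel : ∃ L : IntermediateField ℚ (AlgebraicClosure ℚ), FiniteDimensional ℚ L ∧
          ∀ σ : GalQ, (∀ x ∈ L, σ x = x) → Mbar σ = 1 := by
        obtain ⟨L, hL, h⟩ := hM.mcont 1
        refine ⟨L, hL, fun σ hσ => ?_⟩
        rw [← hMl]
        ext i j
        have h3 := h σ hσ i j
        rw [pow_one] at h3
        have h4 : toK 𝒪 R ((M σ - 1) i j) = 0 := by
          by_contra hne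
          have hu : IsUnit (toK 𝒪 R ((M σ - 1) i j)) := isUnit_iff_ne_zero.mpr hne
          have hloc : IsLocalHom (toK 𝒪 R : R →+* ResidueField 𝒪) :=
            UDef.isLocalHom_algHom (toK 𝒪 R)
          exact ((mem_maximalIdeal _).mp h3) (hloc.map_nonunit _ hu)
        rw [Matrix.sub_apply, map_sub, sub_eq_zero] at h4
        rw [UDef.mapRep_apply, Matrix.map_apply]
        refine h4.trans ?_
        rw [Matrix.one_apply, Matrix.one_apply]
        split_ifs <;> simp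
      obtain ⟨L, hL, hLM⟩ := hmodel
      obtain ⟨n, σ, hσ, hdσ⟩ := TWFlat.exists_frob_mul_inertia (hv l) (hP l) (hF l) hd L
      obtain ⟨c, hc⟩ := hD l
      refine ⟨c ^ n, ?_⟩
      have h3 : Mbar ((F l ^ n * σ)⁻¹ * d) = 1 := by
        apply hLM
        intro x hx
        have h7 := hdσ x hx
        change (F l ^ n * σ)⁻¹ (d x) = x
        rw [h7]
        exact (F l ^ n * σ).symm_apply_apply x
      have h4 : d = (F l ^ n * σ) * ((F l ^ n * σ)⁻¹ * d) := by group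
      rw [h4, map_mul, h3, mul_one, map_mul, map_pow, hI l σ hσ, mul_one, hc, smul_pow, one_pow]
    obtain ⟨c, hc⟩ := hsc
    rw [TWP.adBoundary_apply, hc]
    have h3 : (c • (1 : Matrix (Fin 2) (Fin 2) (ResidueField 𝒪))) * X = X * Mbar d := by
      rw [hc]; simp
    rw [h3, Matrix.mul_assoc, TWP.mul_inv_rep, Matrix.mul_one, sub_self]
  obtain ⟨x, hx, hspanx⟩ := exists_span_of_selmer h𝒟 hspan hρ hM hMl hinj
    (fun li : ι × Fin 6 => coord (M (τ li.1)) (M (F li.1)) li.2) (fun li => hcoord _ _) W hWc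
    (fun φ a hφ ha l => cocycle_vanish hpp (hv l) (hpv l) h2 hdet hM hMl (hP l) (hI l) (hτ l)
      (hF l) (hgen l) φ (fun i => hφ (l, i)) a ha) (r := m)
    (fun Z hZ h => hr Z hZ fun a ha => ⟨(h a ha).1, (h a ha).2⟩)
  refine ⟨τ, x, hτ, hgen, fun l => frobenius_mul (hv l) (hP l) hpp (hpv l) hM.mcont hpR (hIR l)
    (hF l) (hτ l), fun l => ?_, fun l => ?_, hcoord, hx, hspanx⟩
  · rw [RT.SelUnram.IsModel.det hM, RT.SelUnram.det_eq_natCast hdet (a := 1) (fun n μ hμ =>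
      RT.SelUnram.inertia_root hpp (hv l) (hpv l) (hP l) (hτ l) n μ hμ), Nat.cast_one]
  · rw [RT.SelUnram.IsModel.det hM]
    exact RT.SelUnram.det_eq_natCast hdet (fun n μ hμ =>
      RT.SelUnram.frobenius_root hpp (hv l) (hpv l) (hP l) (hF l) n μ hμ)

end main

end Fermat.Agent.IH
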