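import Mathlib
import Fermat.Agent.IH.NoPair
import Fermat.Agent.IH.Points
import Fermat.Agent.IH.RingSigma

set_option autoImplicit false
set_option linter.style.haveILetI false
set_option linter.unusedSectionVars false

/-!
# Level data for the patching argument out of pointwise information
-/

namespace Fermat.Agent.IH

open IsLocalRing Matrix Pointwise
open Fermat.Agent.UDef (GalQ IsModel MCont)
open Fermat.Agent.IH.Local (coord discSet discSet_ne_zero)
open Fermat.Agent.RT.GroupAlg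

section points

variable {R : Type} [CommRing R] [IsLocalRing R] [IsNoetherianRing R]

/-- If the tame generator is unipotent at a point, all of inertia is. -/
theorem trace_eq_two_of_gen {K : Type*} [Field K] (x : R →+* K)
    {M : GalQ → Matrix (Fin 2) (Fin 2) R} {S : Matrix (Fin 2) (Fin 2) R} (hd : S.det = 1)
    (ht : x S.trace = 2) {σ : GalQ}
    (hgen : ∀ n, ∃ j : ℕ, ∀ i i', (M σ - S ^ j) i i' ∈ maximalIdeal R ^ n) :
    x (M σ).trace = 2 := by
  have hker : RingHom.ker x ≠ ⊤ := (RingHom.ker_ne_top x)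
  have hnt : Nontrivial (R ⧸ RingHom.ker x) := Ideal.Quotient.nontrivial_iff.mpr hker
  have hloc : IsLocalRing (R ⧸ RingHom.ker x) :=
    IsLocalRing.of_surjective' (Ideal.Quotient.mk _) Ideal.Quotient.mk_surjective
  let π : R →+* R ⧸ RingHom.ker x := Ideal.Quotient.mk _
  have hπm : (maximalIdeal R).map π = maximalIdeal (R ⧸ RingHom.ker x) :=
    IsLocalRing.map_maximalIdeal_of_surjective _ Ideal.Quotient.mk_surjective
  have hπ0 : ∀ a, π a = 0 ↔ x a = 0 := fun a => by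
    rw [Ideal.Quotient.eq_zero_iff_mem, RingHom.mem_ker]
  have htπ : (S.map π).trace = 2 := by
    have h1 : π (S.trace - 2) = 0 := by
      rw [hπ0, map_sub, ht, map_ofNat, sub_self]
    rw [map_sub, map_ofNat, sub_eq_zero] at h1
    rw [← h1, Matrix.trace_fin_two, Matrix.trace_fin_two, map_add]
    rfl
  have hdπ : (S.map π).det = 1 := by
    have h1 : π S.det = 1 := by rw [hd, map_one]
    rw [RingHom.map_det] at h1
    exact h1
  have hj : ∀ j : ℕ, ((S.map π) ^ j).trace = 2 := by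
    intro j
    rw [Local.pow_eq_of_sub_one_sq (Local.sub_one_sq htπ hdπ), Matrix.trace_add, Matrix.trace_one,
      Matrix.trace_smul, Matrix.trace_sub, Matrix.trace_one, htπ, Fintype.card_fin]
    norm_num
  have key : π ((M σ).trace - 2) = 0 := by
    have h1 : π ((M σ).trace - 2) ∈ ⨅ n : ℕ, maximalIdeal (R ⧸ RingHom.ker x) ^ n := by
      rw [Ideal.mem_iInf]
      intro n
      obtain ⟨j, hj'⟩ := hgen n
      have h2 : (M σ).trace - (S ^ j).trace ∈ maximalIdeal R ^ n := by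
        rw [← Matrix.trace_sub, Matrix.trace_fin_two]
        exact Ideal.add_mem _ (hj' 0 0) (hj' 1 1)
      have h3 := Ideal.mem_map_of_mem π h2
      rw [Ideal.map_pow, hπm, map_sub] at h3
      have h4 : π (S ^ j).trace = 2 := by
        rw [← hj j, Matrix.trace_fin_two, map_add]
        have h5 : (S.map π) ^ j = (S ^ j).map π := (map_pow π.mapMatrix S j).symm
        rw [h5, Matrix.trace_fin_two]
        rfl
      rw [h4] at h3
      rw [map_sub, map_ofNat]
      exact h3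
    rw [Ideal.iInf_pow_eq_bot_of_isLocalRing _ (maximalIdeal.isMaximal _).ne_top] at h1
    exact (Submodule.mem_bot _).mp h1
  rw [hπ0, map_sub, map_ofNat, sub_eq_zero] at key
  exact key

end points

section level

variable {𝒪 : Type} [CommRing 𝒪] [IsDomain 𝒪] [IsDiscreteValuationRing 𝒪]
    [IsAdicComplete (maximalIdeal 𝒪) 𝒪] [Finite (ResidueField 𝒪)] {p : ℕ} [hpp : Fact p.Prime]
    {r : ℕ} (a : Fin r → ℕ)
    {R : Type} [CommRing R] [IsLocalRing R] [IsNoetherianRing R] [Algebra 𝒪 R]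
    [IsLocalHom (algebraMap 𝒪 R)] [IsAdicComplete (maximalIdeal R) R]
    {M1 : Type} [AddCommGroup M1] [Module R M1] [Module (Lam 𝒪 p a) M1]
    [Module.Free (Lam 𝒪 p a) M1] [Module.Finite (Lam 𝒪 p a) M1]
    {Mχ : Type} [AddCommGroup Mχ] [Module R Mχ] [Module (Lam 𝒪 p a) Mχ]
    [Module.Free (Lam 𝒪 p a) Mχ] [Module.Finite (Lam 𝒪 p a) Mχ]

/-- the distinguished family of generators -/
noncomputable def xs {k m : ℕ} (S F : Fin (k + 1) → Matrix (Fin 2) (Fin 2) R) (x : Fin m → R) :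
    Idx k m → R
  | .inl i => coord (S 0) (F 0) i
  | .inr (.inl (l, i)) => coord (S l.succ) (F l.succ) i
  | .inr (.inr j) => x j

theorem xs_inl {k m : ℕ} (S F : Fin (k + 1) → Matrix (Fin 2) (Fin 2) R) (x : Fin m → R)
    (i : Fin 6) : xs S F x (.inl i) = coord (S 0) (F 0) i := rfl

theorem xs_inr {k m : ℕ} (S F : Fin (k + 1) → Matrix (Fin 2) (Fin 2) R) (x : Fin m → R)
    (l : Fin k) (i : Fin 6) : xs S F x (.inr (.inl (l, i))) = coord (S l.succ) (F l.succ) i := rfl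

theorem coord_zero (S F : Matrix (Fin 2) (Fin 2) R) : coord S F 0 = S 0 1 := rfl

theorem coord_one (S F : Matrix (Fin 2) (Fin 2) R) : coord S F 1 = S 1 0 := rfl

theorem coord_two (S F : Matrix (Fin 2) (Fin 2) R) : coord S F 2 = S 0 0 - S 1 1 := rfl

theorem coord_three (S F : Matrix (Fin 2) (Fin 2) R) : coord S F 3 = F 0 1 := rfl

theorem coord_four (S F : Matrix (Fin 2) (Fin 2) R) : coord S F 4 = F 1 0 := rfl

theorem coord_five (S F : Matrix (Fin 2) (Fin 2) R) : coord S F 5 = F 0 0 - F 1 1 := rfl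

theorem range_xs {k m : ℕ} (S F : Fin (k + 1) → Matrix (Fin 2) (Fin 2) R) (x : Fin m → R) :
    Ideal.span (Set.range fun li : Fin (k + 1) × Fin 6 => coord (S li.1) (F li.1) li.2) ⊔
      Ideal.span (Set.range x) ≤ Ideal.span (Set.range (xs S F x)) := by
  refine sup_le ?_ ?_
  · rw [Ideal.span_le]
    rintro _ ⟨⟨l, i⟩, rfl⟩
    refine Fin.cases ?_ (fun l => ?_) l
    · exact Ideal.subset_span ⟨.inl i, rfl⟩
    · exact Ideal.subset_span ⟨.inr (.inl (l, i)), rfl⟩
  · rw [Ideal.span_le]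
    rintro _ ⟨j, rfl⟩
    exact Ideal.subset_span ⟨.inr (.inr j), rfl⟩

open Classical in
/-- **Level data from points.** -/
theorem matData0_of_points (hp2 : p ≠ 2) (hp𝒪 : (p : 𝒪) ∈ maximalIdeal 𝒪) {ϖ : 𝒪}
    (hϖ : Prime ϖ) {k m d n : ℕ} (ha : ∀ i, n ≤ a i)
    (hres : Function.Surjective (residue R ∘ algebraMap 𝒪 R))
    {M : GalQ →* Matrix (Fin 2) (Fin 2) R}
    (v : Fin (k + 1) → ℕ) (hv : ∀ l, (v l).Prime) (hv1 : ∀ l, p ∣ v l - 1)
    (P : Fin (k + 1) → ValuationSubring (AlgebraicClosure ℚ))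
    (F τ : Fin (k + 1) → GalQ) (x : Fin m → R)
    (hτ : ∀ l, τ l ∈ (P l).inertiaSubgroupIn ℚ)
    (hgen : ∀ l, ∀ n, ∀ σ ∈ (P l).inertiaSubgroupIn ℚ, ∃ j : ℕ,
        ∀ i i', (M σ - M (τ l) ^ j) i i' ∈ maximalIdeal R ^ n)
    (hconj : ∀ l, M (F l) * M (τ l) = M (τ l) ^ v l * M (F l))
    (hdetτ : ∀ l, (M (τ l)).det = 1) (hdetF : ∀ l, (M (F l)).det = (v l : R))
    (hcoord : ∀ l i, coord (M (τ l)) (M (F l)) i ∈ maximalIdeal R)
    (htrτ : ∀ l, (M (τ l)).trace - 2 ∈ maximalIdeal R)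
    (hx : ∀ i, x i ∈ maximalIdeal R)
    (hspan : maximalIdeal R ≤ Ideal.span (Set.range fun li : Fin (k + 1) × Fin 6 =>
          coord (M (τ li.1)) (M (F li.1)) li.2) ⊔ Ideal.span (Set.range x) ⊔
        (maximalIdeal 𝒪).map (algebraMap 𝒪 R))
    {ω : 𝒪} {e m' : ℕ} (hω : IsPrimitiveRoot ω (p ^ e)) (hqm : v 0 - 1 = p ^ e * m')
    (hm' : ¬ p ∣ m')
    (δ : (Grp fun i => p ^ a i) →* R) (hδ : ∀ i, δ (gen _ i) - 1 ∈ maximalIdeal R)
    (hG1 : ∀ (g : Grp fun i => p ^ a i) (u : M1), MonoidAlgebra.of 𝒪 _ g • u = δ g • u)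
    (h𝒪1 : ∀ (c : 𝒪) (u : M1), algebraMap 𝒪 (Lam 𝒪 p a) c • u = algebraMap 𝒪 R c • u)
    (hGχ : ∀ (g : Grp fun i => p ^ a i) (u : Mχ), MonoidAlgebra.of 𝒪 _ g • u = δ g • u)
    (h𝒪χ : ∀ (c : 𝒪) (u : Mχ), algebraMap 𝒪 (Lam 𝒪 p a) c • u = algebraMap 𝒪 R c • u)
    (iso : QuotSMulTop (algebraMap 𝒪 R ϖ) M1 ≃ₗ[R] QuotSMulTop (algebraMap 𝒪 R ϖ) Mχ)
    (hrank : Module.finrank (Lam 𝒪 p a) M1 = d)
    (hχ : ∀ f : R, (∀ (K : Type) [Field K] [Algebra 𝒪 K] (y : R →ₐ[𝒪] K),
      Function.Injective (algebraMap 𝒪 K) →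
      (∃ σ ∈ (P 0).inertiaSubgroupIn ℚ, y (M σ).trace ≠ 2) →
      (∀ l : Fin k, ∀ σ ∈ (P l.succ).inertiaSubgroupIn ℚ, y (M σ).trace = 2) → y f = 0) →
      ∀ u : Mχ, f • u = 0)
    (h1 : ∀ f : R, (∀ (K : Type) [Field K] [Algebra 𝒪 K] (y : R →ₐ[𝒪] K),
      Function.Injective (algebraMap 𝒪 K) →
      (y (M (F 0)).trace = (v 0 : K) + 1 ∨ y (M (F 0)).trace = -((v 0 : K) + 1)) → y f = 0) →
      ∀ u : M1, f • u = 0) :
    MatData0 𝒪 p r k m d ϖ (discSet ω (p ^ e)) (((v 0 : 𝒪) - 1) ^ 2) n := by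
  have hpp' : p.Prime := Fact.out
  -- units
  have hϖm : maximalIdeal 𝒪 = Ideal.span {ϖ} :=
    (IsDiscreteValuationRing.irreducible_iff_uniformizer ϖ).mp hϖ.irreducible
  have hvϖ : ∀ l, ∃ c : 𝒪, (v l : 𝒪) - 1 = ϖ * c := by
    intro l
    obtain ⟨c, hc⟩ := hv1 l
    have h2 : (v l : 𝒪) - 1 = (p : 𝒪) * c := by
      have h3 : v l = p * c + 1 := by have := (hv l).one_lt; omega
      rw [h3]; push_cast; ring
    have h4 : (v l : 𝒪) - 1 ∈ Ideal.span {ϖ} := by
      rw [← hϖm, h2]; exact Ideal.mul_mem_right _ _ hp𝒪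
    obtain ⟨c', hc'⟩ := Ideal.mem_span_singleton'.mp h4
    exact ⟨c', by rw [← hc', mul_comm]⟩
  have hpR : (p : R) ∈ maximalIdeal R := by
    rw [← map_natCast (algebraMap 𝒪 R)]
    rw [mem_maximalIdeal, mem_nonunits_iff]
    intro hu
    exact ((mem_maximalIdeal _).mp hp𝒪) (isUnit_of_map_unit (algebraMap 𝒪 R) _ hu)
  have hnat : ∀ s : ℕ, ¬ p ∣ s → IsUnit (s : R) := by
    intro s hs
    have hcop : Nat.Coprime s p := ((Nat.Prime.coprime_iff_not_dvd hpp').mpr hs).symm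
    have hb : ((s : ℤ) * Nat.gcdA s p + (p : ℤ) * Nat.gcdB s p) = 1 := by
      rw [← Nat.gcd_eq_gcd_ab, hcop]; rfl
    have hb' : (s : R) * (Nat.gcdA s p : ℤ) + (p : R) * (Nat.gcdB s p : ℤ) = 1 := by
      exact_mod_cast congrArg (fun z : ℤ => (z : R)) hb
    by_contra hn
    have h3 : (s : R) ∈ maximalIdeal R := hn
    have h4 : (1 : R) ∈ maximalIdeal R := by
      rw [← hb']
      exact Ideal.add_mem _ (Ideal.mul_mem_right _ _ h3) (Ideal.mul_mem_right _ _ hpR)
    exact (Ideal.ne_top_iff_one _).mp (maximalIdeal.isMaximal R).ne_top h4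
  have h2R : IsUnit (2 : R) := by
    have := hnat 2 (fun h => hp2 ((Nat.prime_dvd_prime_iff_eq hpp' Nat.prime_two).mp h))
    exact_mod_cast this
  have hq1R : IsUnit ((v 0 : R) + 1) := by
    have h3 : ¬ p ∣ v 0 + 1 := by
      intro h
      have h4 : p ∣ (v 0 + 1) - (v 0 - 1) := Nat.dvd_sub h (hv1 0)
      have h5 : (v 0 + 1) - (v 0 - 1) = 2 := by have := (hv 0).one_lt; omega
      rw [h5] at h4
      exact hp2 ((Nat.prime_dvd_prime_iff_eq hpp' Nat.prime_two).mp h4)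
    have := hnat _ h3
    exact_mod_cast this
  have hunit : ∀ l, IsUnit (v l : R) := by
    intro l
    apply hnat
    intro h
    have h3 : p ∣ v l - (v l - 1) := Nat.dvd_sub h (hv1 l)
    have h4 : v l - (v l - 1) = 1 := by have := (hv l).one_lt; omega
    rw [h4] at h3
    exact hpp'.one_lt.ne' (Nat.dvd_one.mp h3)
  have hXm : ∀ i, xs (fun l => M (τ l)) (fun l => M (F l)) x i ∈ maximalIdeal R := by
    rintro (i | ⟨l, i⟩ | j)
    · exact hcoord 0 i
    · exact hcoord l.succ i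
    · exact hx j
  -- pointwise: the distinguished prime
  have hpt : ∀ (K : Type) [Field K] [Algebra 𝒪 K] (y : R →ₐ[𝒪] K),
      Function.Injective (algebraMap 𝒪 K) →
      (∃ σ ∈ (P 0).inertiaSubgroupIn ℚ, y (M σ).trace ≠ 2) →
      (M (F 0) * M (τ 0)).map y = (M (τ 0) * M (F 0)).map y ∧
      ∃ t ∈ discSet ω (p ^ e), y ((M (τ 0) 0 0 - M (τ 0) 1 1) ^ 2 +
        4 * M (τ 0) 0 1 * M (τ 0) 1 0) = algebraMap 𝒪 K t := by
    intro K _ _ y hinj hne
    let K' := AlgebraicClosure K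
    let ιK : K →ₐ[𝒪] K' := IsScalarTower.toAlgHom 𝒪 K K'
    have hι : Function.Injective ιK := (algebraMap K K').injective
    have htau : y (M (τ 0)).trace ≠ 2 := by
      intro h
      obtain ⟨σ, hσ, hσ2⟩ := hne
      exact hσ2 (trace_eq_two_of_gen (y : R →+* K) (M := M) (hdetτ 0) h
        (fun n => hgen 0 n σ hσ))
    have hinj' : Function.Injective (algebraMap 𝒪 K') := by
      rw [IsScalarTower.algebraMap_eq 𝒪 K K']
      exact (algebraMap K K').injective.comp hinj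
    obtain ⟨hc, j, hj, hdisc⟩ := Local.disc_mem hinj' (ιK.comp y) (S := M (τ 0)) (F := M (F 0))
      hpp' hqm (hnat m' hm') hω (hv 0).pos (hdetτ 0) (by
        rw [hdetF]
        exact ((hunit 0).map (ιK.comp y)).ne_zero) (hconj 0) (by
        intro h
        apply htau
        apply hι
        rw [AlgHom.comp_apply] at h
        rw [h, map_ofNat]) (htrτ 0) h2R hq1R
    refine ⟨?_, _, Finset.mem_image.mpr ⟨j, hj, rfl⟩, ?_⟩
    · ext i i'
      apply hι
      exact congrFun (congrFun hc i) i'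
    · apply hι
      rw [AlgHom.comp_apply] at hdisc
      rw [hdisc, ιK.commutes]
  -- pointwise: the other primes
  have hpt' : ∀ (K : Type) [Field K] [Algebra 𝒪 K] (y : R →ₐ[𝒪] K) (l : Fin k),
      (∀ l : Fin k, ∀ σ ∈ (P l.succ).inertiaSubgroupIn ℚ, y (M σ).trace = 2) →
      ((M (τ l.succ)).map y).trace = 2 ∧ ((M (τ l.succ)).map y).det = 1 ∧
      (M (F l.succ)).map y * (M (τ l.succ)).map y =
        ((M (τ l.succ)).map y) ^ v l.succ * (M (F l.succ)).map y := by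
    intro K _ _ y l hu
    refine ⟨?_, ?_, ?_⟩
    · have h3 := hu l (τ l.succ) (hτ l.succ)
      rw [Matrix.trace_fin_two, map_add] at h3
      rw [Matrix.trace_fin_two]
      exact h3
    · have h3 : (y : R →+* K) (M (τ l.succ)).det = 1 := by rw [hdetτ, map_one]
      rw [RingHom.map_det] at h3
      exact h3
    · have h3 := congrArg (y : R →+* K).mapMatrix (hconj l.succ)
      rw [map_mul, map_mul, map_pow] at h3
      exact h3
  have hminor : ∀ (K : Type) [Field K] [Algebra 𝒪 K] (y : R →ₐ[𝒪] K)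
      (_ : Function.Injective (algebraMap 𝒪 K))
      (_ : ∃ σ ∈ (P 0).inertiaSubgroupIn ℚ, y (M σ).trace ≠ 2),
      ((M (τ 0)).map y 0 1 * (M (F 0)).map y 1 0 - (M (τ 0)).map y 1 0 * (M (F 0)).map y 0 1 = 0) ∧
      ((M (τ 0)).map y 0 1 * ((M (F 0)).map y 0 0 - (M (F 0)).map y 1 1) -
        ((M (τ 0)).map y 0 0 - (M (τ 0)).map y 1 1) * (M (F 0)).map y 0 1 = 0) ∧
      ((M (τ 0)).map y 1 0 * ((M (F 0)).map y 0 0 - (M (F 0)).map y 1 1) -
        ((M (τ 0)).map y 0 0 - (M (τ 0)).map y 1 1) * (M (F 0)).map y 1 0 = 0) := by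
    intro K _ _ y hinj hne
    have h3 := (hpt K y hinj hne).1
    refine Local.minors_of_commute ?_
    have h4 : ∀ A B : Matrix (Fin 2) (Fin 2) R, (A * B).map y = A.map y * B.map y :=
      fun A B => map_mul (y : R →+* K).mapMatrix A B
    rwa [h4, h4] at h3
  have hentry : ∀ (K : Type) [Field K] [Algebra 𝒪 K] (y : R →ₐ[𝒪] K) (l : Fin k) (i i' : Fin 2),
      y (((M (τ l.succ) - 1) * M (F l.succ)) i i') =
        (((M (τ l.succ)).map y - 1) * (M (F l.succ)).map y) i i' := by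
    intro K _ _ y l i i'
    have h6 : ((M (τ l.succ) - 1) * M (F l.succ)).map y =
        ((M (τ l.succ)).map y - 1) * (M (F l.succ)).map y := by
      have h7 := map_mul (y : R →+* K).mapMatrix (M (τ l.succ) - 1) (M (F l.succ))
      rw [map_sub, map_one] at h7
      exact h7
    rw [← h6]; rfl
  have hvK : ∀ (K : Type) [Field K] [Algebra 𝒪 K] (l : Fin (k + 1)) (c : 𝒪)
      (_ : (v l : 𝒪) - 1 = ϖ * c), algebraMap 𝒪 K ϖ * algebraMap 𝒪 K c = ((v l : K) - 1) := by
    intro K _ _ l c hc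
    rw [← map_mul, ← hc, map_sub, map_natCast, map_one]
  have hsp : maximalIdeal R ≤ Ideal.span (Set.range (xs (fun l => M (τ l)) (fun l => M (F l)) x)) ⊔
      (maximalIdeal 𝒪).map (algebraMap 𝒪 R) :=
    hspan.trans (sup_le_sup_right (range_xs (fun l => M (τ l)) (fun l => M (F l)) x) _)
  refine matData0_of_level (d := d) a hp𝒪 hϖ ha hres (xs (fun l => M (τ l)) (fun l => M (F l)) x)
    hXm hsp δ hδ hG1 h𝒪1 hGχ h𝒪χ iso hrank (discSet ω (p ^ e)) (((v 0 : 𝒪) - 1) ^ 2)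
    ?_ ?_ ?_ ?_ ?_ ?_ ?_ ?_ ?_ <;>
    simp only [xs_inl, xs_inr, coord_zero, coord_one, coord_two, coord_three, coord_four,
      coord_five]
  · refine hχ _ fun K _ _ y hinj hne _ => ?_
    have h3 := (hminor K y hinj hne).1
    rw [map_sub, map_mul, map_mul]
    exact h3
  · refine hχ _ fun K _ _ y hinj hne _ => ?_
    have h3 := (hminor K y hinj hne).2.1
    rw [map_sub, map_mul, map_mul, map_sub, map_sub]
    exact h3
  · refine hχ _ fun K _ _ y hinj hne _ => ?_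
    have h3 := (hminor K y hinj hne).2.2
    rw [map_sub, map_mul, map_mul, map_sub, map_sub]
    exact h3
  · refine hχ _ fun K _ _ y hinj hne _ => ?_
    obtain ⟨t, ht, h3⟩ := (hpt K y hinj hne).2
    rw [map_prod]
    refine Finset.prod_eq_zero ht ?_
    rw [map_sub, AlgHom.commutes, ← h3, sub_eq_zero]
  · refine h1 _ fun K _ _ y hinj htr => ?_
    have hd : ((M (F 0)).map y).det = (v 0 : K) := by
      have h3 : (y : R →+* K) (M (F 0)).det = (v 0 : K) := by
        rw [hdetF, map_natCast]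
      rw [RingHom.map_det] at h3
      exact h3
    have htr' : ((M (F 0)).map y).trace = y (M (F 0)).trace := by
      rw [Matrix.trace_fin_two, Matrix.trace_fin_two, map_add]; rfl
    have h3 := Local.disc_special (F := (M (F 0)).map y) (q := v 0)
      (by rw [htr']; exact htr) hd
    rw [map_sub, AlgHom.commutes]
    simp only [map_add, map_sub, map_mul, map_pow, map_ofNat, map_natCast, map_one]
    exact h3
  · intro l
    obtain ⟨c, hc⟩ := hvϖ l.succ
    refine ⟨algebraMap 𝒪 R c * -((M (τ l.succ) - 1) * M (F l.succ)) 0 0,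
      hχ _ fun K _ _ y hinj _ hu => ?_⟩
    obtain ⟨g1, g2, g3⟩ := hpt' K y l hu
    have h3 := (Local.minors_of_unipotent g1 g2 g3).1
    rw [map_sub, map_mul, AlgHom.commutes, map_mul, AlgHom.commutes, map_neg,
      hentry K y l 0 0, ← mul_assoc, hvK K l.succ c hc, map_sub, map_mul, map_mul, sub_eq_zero]
    exact h3
  · intro l
    obtain ⟨c, hc⟩ := hvϖ l.succ
    refine ⟨algebraMap 𝒪 R c * ((M (τ l.succ) - 1) * M (F l.succ)) 0 1,
      hχ _ fun K _ _ y hinj _ hu => ?_⟩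
    obtain ⟨g1, g2, g3⟩ := hpt' K y l hu
    have h3 := (Local.minors_of_unipotent g1 g2 g3).2.1
    rw [map_sub, map_mul, AlgHom.commutes, map_mul, AlgHom.commutes,
      hentry K y l 0 1, ← mul_assoc, hvK K l.succ c hc, map_sub, map_mul, map_mul, map_sub,
      map_sub, sub_eq_zero]
    exact h3
  · intro l
    obtain ⟨c, hc⟩ := hvϖ l.succ
    refine ⟨algebraMap 𝒪 R c * -((M (τ l.succ) - 1) * M (F l.succ)) 1 0,
      hχ _ fun K _ _ y hinj _ hu => ?_⟩
    obtain ⟨g1, g2, g3⟩ := hpt' K y l hu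
    have h3 := (Local.minors_of_unipotent g1 g2 g3).2.2.1
    rw [map_sub, map_mul, AlgHom.commutes, map_mul, AlgHom.commutes, map_neg,
      hentry K y l 1 0, ← mul_assoc, hvK K l.succ c hc, map_sub, map_mul, map_mul, map_sub,
      map_sub, sub_eq_zero]
    exact h3
  · intro l
    refine ⟨0, hχ _ fun K _ _ y hinj _ hu => ?_⟩
    obtain ⟨g1, g2, g3⟩ := hpt' K y l hu
    have h3 := (Local.minors_of_unipotent g1 g2 g3).2.2.2
    rw [mul_zero, sub_zero]
    simp only [map_add, map_sub, map_mul, map_pow, map_ofNat]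
    exact h3

end level

end Fermat.Agent.IH
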