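import Mathlib
import Fermat.Agent.IH.LevelPoints
import Fermat.Agent.TWP.Wiring
import Fermat.Agent.RT.Wiring.BC

set_option autoImplicit false
set_option linter.style.haveILetI false
set_option linter.unusedSectionVars false

/-!
# The contradiction in the scalar case, from the modular side

`PairSide` collects what the modular side has to provide at one system of Taylor–Wiles primes:
two modules `M1`, `Mχ` over the deformation ring, free over the group ring, isomorphic modulo `ϖ`,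
such that `M1` is supported on points where the trace of Frobenius at the distinguished prime
`v 0` is `±(v 0 + 1)` and `Mχ` is supported on points which are not unipotent on inertia at `v 0`
and unipotent at the other `v l`.  The main theorem `false_of_pairSide` derives a contradiction.
-/

namespace Fermat.Agent.IH

open IsLocalRing Matrix Pointwise Polynomial
open Fermat.Agent.UDef (GalQ IsModel IsModelR MCont ofMatrix isModel_ofMatrix mapRep Dual dmk dfst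
  dsnd CoefAlg toK dual_ext Good)
open Fermat.Agent.TWP (adCocycle adCobound dualRep SelFlat SelOrd OrdLine AdjHyp selCond_of_good
  selOrd_of_good)
open Fermat.Agent.RT.Wiring (PType dCond dCond_det dCond_unr isDeformationCondition_dCond)
open Fermat.Agent.TWP.Wiring (GWInput TWBound MinBound selC_of_selCond)
open Fermat.Agent.TWP.GW (HasLocal Dq exists_TW_sigma primeLocalPlace_liesOverPrime)
open Fermat.Agent.IH.Local (coord discSet discSet_ne_zero)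
open Fermat.Agent.RT.GroupAlg ExtCitation

/-- Systems of Taylor–Wiles primes of level `n`. -/
structure IsTW {k : Type} [Field k] (p : ℕ) (S : Finset ℕ) (ρbar : ResidualGaloisRep k) {r : ℕ}
    (n : ℕ) (qv : Fin r → ℕ) : Prop where
  inj : Function.Injective qv
  prime : ∀ i, (qv i).Prime
  notMem : ∀ i, qv i ∉ S
  dvd : ∀ i, p ^ (n + 1) ∣ qv i - 1
  frob : ∀ i, ∀ P : ValuationSubring (AlgebraicClosure ℚ), P.LiesOverPrime (qv i) →
    ∀ φ : AlgebraicClosure ℚ ≃ₐ[ℚ] AlgebraicClosure ℚ, P.IsFrobeniusAt φ (qv i) →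
      ∃ α β : k, α ≠ β ∧ LinearMap.charpoly (ρbar.ρ φ) = (X - C α) * (X - C β)

section side

variable (t : PType) (𝒪 : Type) [CommRing 𝒪] [IsDomain 𝒪] [IsDiscreteValuationRing 𝒪]
    [IsAdicComplete (maximalIdeal 𝒪) 𝒪] (p : ℕ)
    (ρbar : ResidualGaloisRep (ResidueField 𝒪)) (Smin : Finset ℕ) {k : ℕ}
    (v : Fin (k + 1) → Nat.Primes) (ϖ : 𝒪) (d : ℕ) {r : ℕ} (n : ℕ) (qv : Fin r → ℕ)

/-- The modular side at one system of Taylor–Wiles primes. -/
structure PairSide : Type 1 where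
  DQ : GaloisRep.DeformationRingData 𝒪 ρbar
    (dCond t 𝒪 p (Smin ∪ (Finset.univ.image (fun l => (v l : ℕ)) ∪ Finset.univ.image qv)) Smin)
  a : Fin r → ℕ
  le_a : ∀ i, n ≤ a i
  δ : (Grp fun i => p ^ a i) →* DQ.R
  δ_mem : ∀ i, δ (gen _ i) - 1 ∈ maximalIdeal DQ.R
  M1 : Type
  [instM1 : AddCommGroup M1]
  [instRM1 : Module DQ.R M1]
  [instLM1 : Module (Lam 𝒪 p a) M1]
  [freeM1 : Module.Free (Lam 𝒪 p a) M1]
  [finM1 : Module.Finite (Lam 𝒪 p a) M1]
  of_smul1 : ∀ (g : Grp fun i => p ^ a i) (u : M1), MonoidAlgebra.of 𝒪 _ g • u = δ g • u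
  alg_smul1 : ∀ (c : 𝒪) (u : M1), algebraMap 𝒪 (Lam 𝒪 p a) c • u = algebraMap 𝒪 DQ.R c • u
  Mχ : Type
  [instMχ : AddCommGroup Mχ]
  [instRMχ : Module DQ.R Mχ]
  [instLMχ : Module (Lam 𝒪 p a) Mχ]
  [freeMχ : Module.Free (Lam 𝒪 p a) Mχ]
  [finMχ : Module.Finite (Lam 𝒪 p a) Mχ]
  of_smulχ : ∀ (g : Grp fun i => p ^ a i) (u : Mχ), MonoidAlgebra.of 𝒪 _ g • u = δ g • u
  alg_smulχ : ∀ (c : 𝒪) (u : Mχ), algebraMap 𝒪 (Lam 𝒪 p a) c • u = algebraMap 𝒪 DQ.R c • u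
  iso : QuotSMulTop (algebraMap 𝒪 DQ.R ϖ) M1 ≃ₗ[DQ.R] QuotSMulTop (algebraMap 𝒪 DQ.R ϖ) Mχ
  rank : Module.finrank (Lam 𝒪 p a) M1 = d
  /-- `M1` is supported on points which are special at `v 0` -/
  support1 : ∀ f : DQ.R, (∀ (K : Type) [Field K] [Algebra 𝒪 K] (y : DQ.R →ₐ[𝒪] K),
      Function.Injective (algebraMap 𝒪 K) →
      (∀ P : ValuationSubring (AlgebraicClosure ℚ), P.LiesOverPrime (v 0 : ℕ) →
        ∀ F : GalQ, P.IsFrobeniusAt F (v 0 : ℕ) →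
        (y (LinearMap.trace DQ.R DQ.ρ.V (DQ.ρ.ρ F)) = ((v 0 : ℕ) : K) + 1 ∨
          y (LinearMap.trace DQ.R DQ.ρ.V (DQ.ρ.ρ F)) = -(((v 0 : ℕ) : K) + 1))) → y f = 0) →
      ∀ u : M1, f • u = 0
  /-- `Mχ` is supported on points which are not unipotent on inertia at `v 0` and unipotent on
  inertia at the other `v l` -/
  supportχ : ∀ f : DQ.R, (∀ (K : Type) [Field K] [Algebra 𝒪 K] (y : DQ.R →ₐ[𝒪] K),
      Function.Injective (algebraMap 𝒪 K) →
      (∀ P : ValuationSubring (AlgebraicClosure ℚ), P.LiesOverPrime (v 0 : ℕ) →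
        ∃ σ ∈ P.inertiaSubgroupIn ℚ, y (LinearMap.trace DQ.R DQ.ρ.V (DQ.ρ.ρ σ)) ≠ 2) →
      (∀ l : Fin k, ∀ P : ValuationSubring (AlgebraicClosure ℚ),
        P.LiesOverPrime (v l.succ : ℕ) → ∀ σ ∈ P.inertiaSubgroupIn ℚ,
        y (LinearMap.trace DQ.R DQ.ρ.V (DQ.ρ.ρ σ)) = 2) → y f = 0) →
      ∀ u : Mχ, f • u = 0

attribute [instance] PairSide.instM1 PairSide.instRM1 PairSide.instLM1 PairSide.freeM1
  PairSide.finM1 PairSide.instMχ PairSide.instRMχ PairSide.instLMχ PairSide.freeMχ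
  PairSide.finMχ

end side

section main

variable {𝒪 : Type} [CommRing 𝒪] [IsDomain 𝒪] [IsDiscreteValuationRing 𝒪]
    [IsAdicComplete (maximalIdeal 𝒪) 𝒪] [Finite (ResidueField 𝒪)]
    {p : ℕ} [Fact p.Prime] {ρbar : ResidualGaloisRep (ResidueField 𝒪)}
    {Mbar : GalQ →* Matrix (Fin 2) (Fin 2) (ResidueField 𝒪)}

theorem IsModel.trace {A : Type} [CommRing A] [IsLocalRing A] {ρ : GaloisRepAdic A}
    {M : GalQ →* Matrix (Fin 2) (Fin 2) A} (h : IsModel ρ M) (σ : GalQ) :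
    (M σ).trace = LinearMap.trace A ρ.V (ρ.ρ σ) := by
  obtain ⟨b, hb⟩ := h
  rw [← hb, LinearMap.trace_eq_matrix_trace A b]

/-- Universality on tangent vectors, matrix form. -/
theorem hinj_of_universal {𝒟 : ∀ ⦃A : Type⦄ [CommRing A] [IsLocalRing A] [Algebra 𝒪 A],
      GaloisRepAdic A → Prop} (h𝒟 : GaloisRep.IsDeformationCondition 𝒪 𝒟)
    (hbar : IsModelR ρbar Mbar) (DQ : GaloisRep.DeformationRingData 𝒪 ρbar 𝒟)
    [CoefAlg 𝒪 DQ.R] {M : GalQ →* Matrix (Fin 2) (Fin 2) DQ.R} (hM : IsModel DQ.ρ M)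
    (hMl : mapRep (toK 𝒪 DQ.R : DQ.R →+* ResidueField 𝒪) M = Mbar)
    (φ ψ : DQ.R →ₐ[𝒪] Dual 𝒪) (h : ∃ P : Matrix (Fin 2) (Fin 2) (Dual 𝒪), IsUnit P ∧
      ∀ σ, P * mapRep (ψ : DQ.R →+* Dual 𝒪) M σ = mapRep (φ : DQ.R →+* Dual 𝒪) M σ * P) :
    φ = ψ := by
  obtain ⟨P, hu, hconj⟩ := h
  have hmod : ∀ φ : DQ.R →ₐ[𝒪] Dual 𝒪,
      IsModel (DQ.ρ.baseChangeAlong (φ : DQ.R →+* Dual 𝒪) (UDef.isLocalHom_algHom φ))
        (mapRep (φ : DQ.R →+* Dual 𝒪) M) := fun φ => hM.baseChangeAlong _ _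
  have he : (DQ.ρ.baseChangeAlong (ψ : DQ.R →+* Dual 𝒪) (UDef.isLocalHom_algHom ψ)).IsEquiv
      (DQ.ρ.baseChangeAlong (φ : DQ.R →+* Dual 𝒪) (UDef.isLocalHom_algHom φ)) :=
    (hmod ψ).isEquiv (hmod φ) _ hu hconj
  have hD' : 𝒟 (DQ.ρ.baseChangeAlong (φ : DQ.R →+* Dual 𝒪) (UDef.isLocalHom_algHom φ)) :=
    TWP.type_baseChange h𝒟 DQ.isOfType φ _
  have hl : mapRep (toK 𝒪 (Dual 𝒪) : Dual 𝒪 →+* ResidueField 𝒪)
      (mapRep (φ : DQ.R →+* Dual 𝒪) M) = Mbar := by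
    rw [UDef.mapRep_toK, hMl]
  have hres := UDef.residual_isEquiv_of_lift hbar (hmod φ) hl
  haveI : IsLocalHom (algebraMap 𝒪 (Dual 𝒪)) := CoefAlg.isLocalHom
  obtain ⟨χ, -, hχ⟩ := DQ.universal (Dual 𝒪) CoefAlg.residue_surjective _ hD' hres
  rw [hχ φ ⟨UDef.isLocalHom_algHom φ, ⟨GaloisRepAdic.Equiv.refl _⟩⟩,
    hχ ψ ⟨UDef.isLocalHom_algHom ψ, he⟩]

/-- Existence of the local condition at `p`. -/
theorem exists_condP [Algebra (ZMod p) (ResidueField 𝒪)] (hp2 : p ≠ 2)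
    (hp𝒪 : (p : 𝒪) ∈ maximalIdeal 𝒪) (hM : IsModelR ρbar Mbar)
    (hdet : (GaloisRepAdic.ofResidualGaloisRep ρbar).DetIsCyclotomic p)
    {t : PType} (ht : t ≠ .ord) {S₀ Smin : Finset ℕ}
    (DQ : GaloisRep.DeformationRingData 𝒪 ρbar (dCond t 𝒪 p S₀ Smin))
    (hOrd : ∀ u, OrdLine Mbar p (primeLocalPlace (pPrime p)) u →
      HasLocal Mbar (pPrime p) 4 (SelOrd Mbar p))
    (hFlat : (GaloisRepAdic.ofResidualGaloisRep ρbar).IsFlatAt p →
      HasLocal Mbar (pPrime p) 4 (SelFlat Mbar p)) :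
    ∃ CondP : (GalQ → Matrix (Fin 2) (Fin 2) (ResidueField 𝒪)) → Prop,
      HasLocal Mbar (pPrime p) 4 CondP ∧
      ∀ (S Sm : Finset ℕ) (a : GalQ → Matrix (Fin 2) (Fin 2) (ResidueField 𝒪))
        (ha : a ∈ adCocycle Mbar), Good (dCond t 𝒪 p S Sm) Mbar (dualRep Mbar ⟨a, ha⟩) →
        CondP a := by
  have hp : p.Prime := Fact.out
  have hres := TWP.type_residual
    (isDeformationCondition_dCond 𝒪 S₀ Smin t hp hp2) hM DQ
  cases t with
  | flat =>
    refine ⟨SelFlat Mbar p, hFlat hres.1.2.1, fun S Sm a ha hG => ?_⟩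
    obtain ⟨ρ', hM', hD'⟩ := hG.exists_type
    exact ⟨ha, ρ', hM', hD'.1.2.1⟩
  | strict =>
    have h0 := TWP.good_zero (isDeformationCondition_dCond 𝒪 S₀ Smin .strict hp hp2)
      (TWP.good_residual (isDeformationCondition_dCond 𝒪 S₀ Smin .strict hp hp2) hM DQ)
    obtain ⟨ρ, hMM, hD⟩ := h0.exists_type
    obtain ⟨u, hu, -⟩ := TWP.exists_ordLine hp hp2 (TWP.natCast_p hp𝒪) hMM hD.1.2.1
      (TWP.trace_eq_zero hp (TWP.natCast_p hp𝒪) hMM hD.1.1) (primeLocalPlace (pPrime p))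
      (primeLocalPlace_liesOverPrime (pPrime p))
    refine ⟨SelOrd Mbar p, hOrd u hu, fun S Sm a ha hG => ?_⟩
    obtain ⟨ρ', hM', hD'⟩ := hG.exists_type
    exact selOrd_of_good hp hp2 hp𝒪 hM hdet ha hM' hD'.1.1 hD'.1.2.1
  | ord => exact absurd rfl ht

/-- **The scalar case: contradiction out of the modular side.** -/
theorem false_of_pairSide [Algebra (ZMod p) (ResidueField 𝒪)] (hp2 : p ≠ 2)
    (hp𝒪 : (p : 𝒪) ∈ maximalIdeal 𝒪) (hM : IsModelR ρbar Mbar) (hadj : AdjHyp Mbar)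
    (hdet : (GaloisRepAdic.ofResidualGaloisRep ρbar).DetIsCyclotomic p)
    (hsplit : ∀ σ : GalQ, ∃ α β : ResidueField 𝒪,
      LinearMap.charpoly (ρbar.ρ σ) = (X - C α) * (X - C β))
    (S Smin : Finset ℕ) (hpSmin : p ∈ Smin) (hSmin : Smin ⊆ S)
    (hmin : ∀ q : ℕ, q.Prime → q ≠ p → (q ∈ Smin ↔ ¬ ρbar.IsUnramifiedAt q))
    {k : ℕ} (v : Fin (k + 1) → Nat.Primes) (hvinj : Function.Injective v)
    (hvS : ∀ l, (v l : ℕ) ∈ S) (hvmin : ∀ l, (v l : ℕ) ∉ Smin) (hv1 : ∀ l, p ∣ (v l : ℕ) - 1)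
    (hscal : ∀ l, ∀ σ ∈ Dq (v l), ∃ c : ResidueField 𝒪, Mbar σ = c • 1)
    (hGW : GWInput p Mbar) (hTWb : TWBound p Mbar) (hMin : MinBound p Mbar)
    (hOrd : ∀ u, OrdLine Mbar p (primeLocalPlace (pPrime p)) u →
      HasLocal Mbar (pPrime p) 4 (SelOrd Mbar p))
    (hFlat : (GaloisRepAdic.ofResidualGaloisRep ρbar).IsFlatAt p →
      HasLocal Mbar (pPrime p) 4 (SelFlat Mbar p))
    {t : PType} (ht : t ≠ .ord) {ϖ : 𝒪} (hϖ : Prime ϖ) {ω : 𝒪} {e m' : ℕ} (hω : IsPrimitiveRoot ω (p ^ e))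
    (hqm : (v 0 : ℕ) - 1 = p ^ e * m') (hm' : ¬ p ∣ m') {d : ℕ} (hd : 0 < d)
    (H : ∀ (r n : ℕ) (qv : Fin r → ℕ), IsTW p S ρbar n qv →
      Nonempty (PairSide t 𝒪 p ρbar Smin v ϖ d n qv)) : False := by
  classical
  have hp : p.Prime := Fact.out
  -- the local condition at `p`
  obtain ⟨D₀⟩ := H 0 0 Fin.elim0 ⟨fun i => i.elim0, fun i => i.elim0, fun i => i.elim0,
      fun i => i.elim0, fun i => i.elim0⟩
  obtain ⟨CondP, hCondP, hCondP'⟩ := exists_condP hp2 hp𝒪 hM hdet ht D₀.DQ hOrd hFlat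
  have : FiniteDimensional (ZMod p) (ResidueField 𝒪) := Module.Finite.of_finite
  have hpv : ∀ l, p ≠ (v l : ℕ) := fun l h => hvmin l (h ▸ hpSmin)
  set Sg : Finset ℕ := Finset.univ.image (fun l => (v l : ℕ)) with hSg
  have hvinj' : Function.Injective (fun l => (v l : ℕ)) := fun l l' h => hvinj (Subtype.ext h)
  have hSgcard : Sg.card = k + 1 := by
    rw [hSg, Finset.card_image_of_injective _ hvinj', Finset.card_univ, Fintype.card_fin]
  obtain ⟨r, hr3, hr⟩ := exists_TW_sigma hp2 hM hadj hdet hsplit S Smin Sg hpSmin hSmin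
    (by
      intro x hx
      obtain ⟨l, -, rfl⟩ := Finset.mem_image.mp hx
      exact hvS l)
    (by
      intro x hx
      obtain ⟨l, -, rfl⟩ := Finset.mem_image.mp hx
      exact (v l).2)
    (by
      rw [Finset.disjoint_left]
      intro x hx hx'
      obtain ⟨l, -, rfl⟩ := Finset.mem_image.mp hx'
      exact hvmin l hx)
    (by
      intro q hq
      obtain ⟨l, -, hl⟩ := Finset.mem_image.mp hq
      have : v l = q := Subtype.ext hl
      rw [← this]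
      exact hscal l)
    hmin (hGW inferInstance) hTWb hMin CondP hCondP
  rw [hSgcard] at hr3
  -- Frobenius elements
  choose F hF using fun l => FrobExists.exists_isFrobeniusAt (primeLocalPlace (v l)) (v l).2
    (primeLocalPlace_liesOverPrime (v l))
  have hI : ∀ l, ∀ σ ∈ (primeLocalPlace (v l)).inertiaSubgroupIn ℚ, Mbar σ = 1 := by
    intro l σ hσ
    have h1 : ρbar.IsUnramifiedAt (v l : ℕ) := by
      by_contra h
      exact hvmin l ((hmin _ (v l).2 (hpv l).symm).mpr h)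
    have h2 := h1 (primeLocalPlace (v l)) (primeLocalPlace_liesOverPrime (v l)) σ hσ
    obtain ⟨b, hb⟩ := hM
    rw [← hb, h2]
    exact LinearMap.toMatrix_one b
  have hT := discSet_ne_zero hp hp2 hω
  have h2 : IsUnit (2 : 𝒪) := by
    by_contra h
    have h3 : (2 : 𝒪) ∈ maximalIdeal 𝒪 := h
    apply residue_two_ne_zero hp hp2 hp𝒪
    rw [← map_ofNat (residue 𝒪), residue_eq_zero_iff]
    exact h3
  have hε : ϖ ∣ (((v 0 : ℕ) : 𝒪) - 1) ^ 2 := by
    have hϖm : maximalIdeal 𝒪 = Ideal.span {ϖ} :=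
      (IsDiscreteValuationRing.irreducible_iff_uniformizer ϖ).mp hϖ.irreducible
    obtain ⟨c, hc⟩ := hv1 0
    have h3 : (((v 0 : ℕ) : 𝒪) - 1) = (p : 𝒪) * c := by
      have h4 : (v 0 : ℕ) = p * c + 1 := by have := (v 0).2.one_lt; omega
      rw [h4]; push_cast; ring
    rw [← Ideal.mem_span_singleton, ← hϖm, pow_two]
    exact Ideal.mul_mem_left _ _ (h3 ▸ Ideal.mul_mem_right _ _ hp𝒪)
  refine false_of_matData0 hp𝒪 h2 (r := r) (k := k) (m := r - 3 * (k + 1)) hd (by omega) hϖ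
    (T := discSet ω (p ^ e)) hT hε fun n => ?_
  obtain ⟨qv, hq1, hq2, hq3, hq4⟩ := hr n
  obtain ⟨D⟩ := H r n qv ⟨hq1, fun i => (hq2 i).1, fun i => (hq2 i).2.1, fun i => (hq2 i).2.2, hq3⟩
  haveI : CoefAlg 𝒪 D.DQ.R := ⟨inferInstance, D.DQ.residue_surjective⟩
  obtain ⟨M, hMm, hMl⟩ := UDef.exists_lift_of_residual hM D.DQ.residual_isEquiv
  have h𝒟 := isDeformationCondition_dCond 𝒪
    (Smin ∪ (Sg ∪ Finset.univ.image qv)) Smin t hp hp2
  obtain ⟨τ, x, hτ, hgen, hconj, hdetτ, hdetF, hcoord, hx, hspan⟩ := exists_generators_sigma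
    (m := r - 3 * (k + 1)) h𝒟
    (UDef.span_of_absIrr hM D.DQ.absIrr) hp hp2 hp𝒪 D.DQ.isOfType (dCond_det D.DQ.isOfType) hMm hMl
    (hinj_of_universal h𝒟 hM D.DQ hMm hMl) (fun l => (v l : ℕ)) (fun l => (v l).2) hpv
    (fun l => primeLocalPlace (v l)) (fun l => primeLocalPlace_liesOverPrime (v l)) F hF hI
    (fun l => hscal l _ (hF l).mem_decompositionSubgroup) (by
      intro Z _ hZ
      obtain ⟨h5, h6⟩ := hq4 Z (fun a ha => by
        obtain ⟨hv0, hac, hG⟩ := hZ a ha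
        obtain ⟨ρ', hM', hD'⟩ := hG.exists_type
        refine ⟨selC_of_selCond (selCond_of_good hp hp2 hp𝒪 hM hmin hac hM' (dCond_det hD')
          (fun q hq hq' => dCond_unr hD' hq hq') hD'.2), hCondP' _ _ a hac hG, ?_⟩
        intro q hq dd hdd
        obtain ⟨l, -, hl⟩ := Finset.mem_image.mp hq
        have hvl : v l = q := Subtype.ext hl
        subst hvl
        exact hv0 l dd hdd)
      rw [hSgcard] at h6
      refine ⟨h5, ?_⟩
      have h7 : Module.finrank (ResidueField 𝒪) Z + 3 * (k + 1) ≤ r + 3 := h6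
      omega)
  have htrace : ∀ σ, (M σ).trace = LinearMap.trace D.DQ.R D.DQ.ρ.V (D.DQ.ρ.ρ σ) :=
    IsModel.trace hMm
  have htrτ : ∀ l, (M (τ l)).trace - 2 ∈ maximalIdeal D.DQ.R := by
    intro l
    have h3 := entries_of_map_toK hMl (hI l _ (hτ l))
    have h4 : (M (τ l)).trace - 2 = (M (τ l) - 1) 0 0 + (M (τ l) - 1) 1 1 := by
      rw [← Matrix.trace_fin_two, Matrix.trace_sub, Matrix.trace_one, Fintype.card_fin]
      norm_num
    rw [h4]
    exact Ideal.add_mem _ (h3 0 0) (h3 1 1)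
  exact matData0_of_points D.a hp2 hp𝒪 hϖ D.le_a D.DQ.residue_surjective (fun l => (v l : ℕ))
    (fun l => (v l).2) hv1 (fun l => primeLocalPlace (v l)) F τ x hτ hgen hconj hdetτ hdetF hcoord
    htrτ hx hspan hω hqm hm' D.δ D.δ_mem D.of_smul1 D.alg_smul1 D.of_smulχ D.alg_smulχ D.iso
    D.rank
    (by
      intro f hf
      refine D.supportχ f fun K _ _ y hinj hne hu => hf K y hinj ?_ ?_
      · obtain ⟨σ, hσ, h3⟩ := hne (primeLocalPlace (v 0)) (primeLocalPlace_liesOverPrime (v 0))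
        exact ⟨σ, hσ, by rw [htrace]; exact h3⟩
      · intro l σ hσ
        rw [htrace]
        exact hu l (primeLocalPlace (v l.succ)) (primeLocalPlace_liesOverPrime (v l.succ)) σ hσ)
    (by
      intro f hf
      refine D.support1 f fun K _ _ y hinj htr => hf K y hinj ?_
      rw [htrace]
      exact htr (primeLocalPlace (v 0)) (primeLocalPlace_liesOverPrime (v 0)) (F 0) (hF 0))

end main

end Fermat.Agent.IH
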