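import Fermat.Agent.IH.PairPoint
import Fermat.Agent.RT.TWLevel

/-!
# Patching a pair of modules and Ihara avoidance: the concrete power series ring

The power series ring has six variables `b, c, a, y, z, β` at the distinguished prime, six
variables at each of the `k` other primes, and `m` further variables.
-/

set_option autoImplicit false

open Filter IsLocalRing Fermat.Agent.RT.ULim MvPowerSeries
open Fermat.Agent.RT.GroupAlg Fermat.Agent.RT.TWLevel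

namespace Fermat.Agent.IH

/-- index set of the variables -/
abbrev Idx (k m : ℕ) : Type := Fin 6 ⊕ (Fin k × Fin 6) ⊕ Fin m

/-- number of the variables -/
abbrev numVar (k m : ℕ) : ℕ := Fintype.card (Idx k m)

/-- numbering of the variables -/
noncomputable def idxEquiv (k m : ℕ) : Idx k m ≃ Fin (numVar k m) := Fintype.equivFin _

/-- the power series ring acting on the patched modules -/
abbrev PPr (𝒪 : Type) [CommRing 𝒪] (k m : ℕ) : Type := MvPowerSeries (Fin (numVar k m)) 𝒪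

section

variable (𝒪 : Type) [CommRing 𝒪] {k m : ℕ}

/-- the variables -/
noncomputable def var (i : Idx k m) : PPr 𝒪 k m := X (idxEquiv k m i)

/-- Matrix data at one level. -/
def MatData (p r k m d : ℕ) (ϖ : 𝒪) (T : Finset 𝒪) (ε : 𝒪) {R0 : Type} [CommRing R0]
    [Algebra 𝒪 R0] (A0 : R0 →+* Matrix (Fin d) (Fin d) 𝒪) (I0 : Ideal R0) (n : ℕ) : Prop :=
  ∃ a : Fin r → ℕ, (∀ i, n ≤ a i) ∧
  ∃ (φ : MvPowerSeries (Fin r) 𝒪 →ₐ[𝒪] PPr 𝒪 k m)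
    (c1 cχ : PPr 𝒪 k m →+* Matrix (Fin d) (Fin d) (MvPowerSeries (Fin r) 𝒪 ⧸ idealJ 𝒪 p a))
    (ρ : PPr 𝒪 k m →ₐ[𝒪] R0),
    ((∀ s, c1 (φ s) = Matrix.scalar (Fin d) (Ideal.Quotient.mk _ s)) ∧
    (∀ s, cχ (φ s) = Matrix.scalar (Fin d) (Ideal.Quotient.mk _ s)) ∧
    (∀ f i j, c1 f i j - cχ f i j ∈
      (Ideal.span {(C ϖ : MvPowerSeries (Fin r) 𝒪)}).map (Ideal.Quotient.mk (idealJ 𝒪 p a))) ∧
    (∀ f i j s, Ideal.Quotient.mk (idealJ 𝒪 p a) s = c1 f i j →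
      constantCoeff s = A0 (ρ f) i j)) ∧
    -- relations at the distinguished prime
    ((cχ (var 𝒪 (.inl 0) * var 𝒪 (.inl 4) - var 𝒪 (.inl 1) * var 𝒪 (.inl 3)) = 0 ∧
    cχ (var 𝒪 (.inl 0) * var 𝒪 (.inl 5) - var 𝒪 (.inl 2) * var 𝒪 (.inl 3)) = 0 ∧
    cχ (var 𝒪 (.inl 1) * var 𝒪 (.inl 5) - var 𝒪 (.inl 2) * var 𝒪 (.inl 4)) = 0 ∧
    cχ (∏ δ ∈ T, (var 𝒪 (.inl 2) ^ 2 + 4 * var 𝒪 (.inl 0) * var 𝒪 (.inl 1) -
      algebraMap 𝒪 (PPr 𝒪 k m) δ)) = 0) ∧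
    (∀ j : Fin 6, (j = 0 ∨ j = 1 ∨ j = 2) →
      c1 ((var 𝒪 (.inl 5) ^ 2 + 4 * var 𝒪 (.inl 3) * var 𝒪 (.inl 4) -
      algebraMap 𝒪 (PPr 𝒪 k m) ε) * var 𝒪 (.inl j)) = 0)) ∧
    -- relations at the other primes
    (∀ l : Fin k,
      (∃ t, cχ (var 𝒪 (.inr (.inl (l, 0))) * var 𝒪 (.inr (.inl (l, 4))) -
        var 𝒪 (.inr (.inl (l, 1))) * var 𝒪 (.inr (.inl (l, 3))) -
          algebraMap 𝒪 (PPr 𝒪 k m) ϖ * t) = 0) ∧
      (∃ t, cχ (var 𝒪 (.inr (.inl (l, 0))) * var 𝒪 (.inr (.inl (l, 5))) -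
        var 𝒪 (.inr (.inl (l, 2))) * var 𝒪 (.inr (.inl (l, 3))) -
          algebraMap 𝒪 (PPr 𝒪 k m) ϖ * t) = 0) ∧
      (∃ t, cχ (var 𝒪 (.inr (.inl (l, 1))) * var 𝒪 (.inr (.inl (l, 5))) -
        var 𝒪 (.inr (.inl (l, 2))) * var 𝒪 (.inr (.inl (l, 4))) -
          algebraMap 𝒪 (PPr 𝒪 k m) ϖ * t) = 0) ∧
      (∃ t, cχ (var 𝒪 (.inr (.inl (l, 2))) ^ 2 + 4 * var 𝒪 (.inr (.inl (l, 0))) *
        var 𝒪 (.inr (.inl (l, 1))) - algebraMap 𝒪 (PPr 𝒪 k m) ϖ * t) = 0)) ∧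
    I0 ≤ Ideal.span {ρ (var 𝒪 (.inl 0)), ρ (var 𝒪 (.inl 1)), ρ (var 𝒪 (.inl 2))}

end

section

variable {𝒪 : Type} [CommRing 𝒪] {k m : ℕ}

theorem maximalIdeal_le_of_var [IsLocalRing 𝒪] {ϖ : 𝒪} (hϖ : maximalIdeal 𝒪 = Ideal.span {ϖ})
    (𝔓 : Ideal (PPr 𝒪 k m)) (h1 : algebraMap 𝒪 (PPr 𝒪 k m) ϖ ∈ 𝔓) (h2 : ∀ i, var 𝒪 i ∈ 𝔓) :
    maximalIdeal (PPr 𝒪 k m) ≤ 𝔓 := by
  intro f hf
  rw [eq_C_add_sum f]
  refine 𝔓.add_mem ?_ (Ideal.sum_mem _ fun i _ => 𝔓.mul_mem_right _ ?_)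
  · have h3 := constantCoeff_mem_of_mem hf
    rw [hϖ, Ideal.mem_span_singleton'] at h3
    obtain ⟨t, ht⟩ := h3
    rw [← ht, map_mul]
    exact 𝔓.mul_mem_left _ h1
  · have := h2 ((idxEquiv k m).symm i)
    rwa [var, Equiv.apply_symm_apply] at this

theorem var_mem_maximalIdeal [IsLocalRing 𝒪] (i : Idx k m) :
    var 𝒪 i ∈ maximalIdeal (PPr 𝒪 k m) := X_mem_maximalIdeal _

/-- The finite set of parameters. -/
noncomputable def EE (𝒪 : Type) [CommRing 𝒪] (k m : ℕ) : Finset (PPr 𝒪 k m) := by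
  classical
  exact Finset.univ.image (fun j : Fin m => var 𝒪 (k := k) (.inr (.inr j))) ∪
    Finset.univ.image (fun lj : Fin k × Fin 3 =>
      if lj.2 = 0 then var 𝒪 (m := m) (.inr (.inl (lj.1, 5)))
      else if lj.2 = 1 then var 𝒪 (.inr (.inl (lj.1, 3))) - var 𝒪 (.inr (.inl (lj.1, 1)))
      else var 𝒪 (.inr (.inl (lj.1, 4))) - var 𝒪 (.inr (.inl (lj.1, 0))))

theorem card_EE : (EE 𝒪 k m).card ≤ m + 3 * k := by
  classical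
  unfold EE
  refine (Finset.card_union_le _ _).trans ?_
  have h1 : (Finset.univ.image (fun j : Fin m => var 𝒪 (k := k) (.inr (.inr j)))).card ≤ m :=
    Finset.card_image_le.trans (by simp)
  have h2 : (Finset.univ.image (fun lj : Fin k × Fin 3 =>
      if lj.2 = 0 then var 𝒪 (m := m) (.inr (.inl (lj.1, 5)))
      else if lj.2 = 1 then var 𝒪 (.inr (.inl (lj.1, 3))) - var 𝒪 (.inr (.inl (lj.1, 1)))
      else var 𝒪 (.inr (.inl (lj.1, 4))) - var 𝒪 (.inr (.inl (lj.1, 0))))).card ≤ 3 * k := by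
    refine Finset.card_image_le.trans ?_
    simp [mul_comm]
  exact Nat.add_le_add h1 h2

theorem mem_EE_ext (j : Fin m) : var 𝒪 (k := k) (.inr (.inr j)) ∈ EE 𝒪 k m := by
  classical
  unfold EE
  exact Finset.mem_union_left _ (Finset.mem_image_of_mem _ (Finset.mem_univ j))

theorem mem_EE_0 (l : Fin k) : var 𝒪 (m := m) (.inr (.inl (l, 5))) ∈ EE 𝒪 k m := by
  classical
  unfold EE
  refine Finset.mem_union_right _ (Finset.mem_image.mpr ⟨(l, 0), Finset.mem_univ _, ?_⟩)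
  simp

theorem mem_EE_1 (l : Fin k) : var 𝒪 (m := m) (.inr (.inl (l, 3))) -
    var 𝒪 (.inr (.inl (l, 1))) ∈ EE 𝒪 k m := by
  classical
  unfold EE
  refine Finset.mem_union_right _ (Finset.mem_image.mpr ⟨(l, 1), Finset.mem_univ _, ?_⟩)
  simp

theorem mem_EE_2 (l : Fin k) : var 𝒪 (m := m) (.inr (.inl (l, 4))) -
    var 𝒪 (.inr (.inl (l, 0))) ∈ EE 𝒪 k m := by
  classical
  unfold EE
  refine Finset.mem_union_right _ (Finset.mem_image.mpr ⟨(l, 2), Finset.mem_univ _, ?_⟩)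
  simp

theorem EE_le_maximalIdeal [IsLocalRing 𝒪] : ∀ x ∈ EE 𝒪 k m, x ∈ maximalIdeal (PPr 𝒪 k m) := by
  classical
  intro x hx
  unfold EE at hx
  rw [Finset.mem_union, Finset.mem_image, Finset.mem_image] at hx
  rcases hx with ⟨j, -, rfl⟩ | ⟨lj, -, rfl⟩
  · exact var_mem_maximalIdeal _
  · split_ifs
    · exact var_mem_maximalIdeal _
    · exact sub_mem (var_mem_maximalIdeal _) (var_mem_maximalIdeal _)
    · exact sub_mem (var_mem_maximalIdeal _) (var_mem_maximalIdeal _)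

/-- the algebraic fact behind the choice of the parameters at the other primes -/
theorem mem_of_relations {A : Type*} [CommRing A] (𝔓 : Ideal A) [h𝔓 : 𝔓.IsPrime]
    (h2 : IsUnit (2 : A)) {b c a y z β : A} (e1 : b * z - c * y ∈ 𝔓) (e2 : b * β - a * y ∈ 𝔓)
    (e3 : c * β - a * z ∈ 𝔓) (e4 : a ^ 2 + 4 * b * c ∈ 𝔓) (f0 : β ∈ 𝔓) (f1 : y - c ∈ 𝔓)
    (f2 : z - b ∈ 𝔓) : b ∈ 𝔓 ∧ c ∈ 𝔓 ∧ a ∈ 𝔓 ∧ y ∈ 𝔓 ∧ z ∈ 𝔓 := by
  have g1 : b ^ 2 - c ^ 2 ∈ 𝔓 := by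
    have h := 𝔓.add_mem (𝔓.sub_mem e1 (𝔓.mul_mem_left b f2)) (𝔓.mul_mem_left c f1)
    have h' : b * z - c * y - b * (z - b) + c * (y - c) = b ^ 2 - c ^ 2 := by ring
    rwa [h'] at h
  have g2 : a * c ∈ 𝔓 := by
    have h := 𝔓.sub_mem (𝔓.sub_mem (𝔓.mul_mem_left b f0) e2) (𝔓.mul_mem_left a f1)
    have h' : b * β - (b * β - a * y) - a * (y - c) = a * c := by ring
    rwa [h'] at h
  have g3 : a * b ∈ 𝔓 := by
    have h := 𝔓.sub_mem (𝔓.sub_mem (𝔓.mul_mem_left c f0) e3) (𝔓.mul_mem_left a f2)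
    have h' : c * β - (c * β - a * z) - a * (z - b) = a * b := by ring
    rwa [h'] at h
  have ha : a ∈ 𝔓 := by
    by_contra ha
    have hb : b ∈ 𝔓 := (h𝔓.mem_or_mem g3).resolve_left ha
    have h := 𝔓.sub_mem e4 (𝔓.mul_mem_left (4 * c) hb)
    have h' : a ^ 2 + 4 * b * c - 4 * c * b = a ^ 2 := by ring
    rw [h'] at h
    exact ha (h𝔓.mem_of_pow_mem 2 h)
  have g4 : b * c ∈ 𝔓 := by
    have h := 𝔓.sub_mem e4 (𝔓.mul_mem_left a ha)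
    have h' : a ^ 2 + 4 * b * c - a * a = 2 * (2 * (b * c)) := by ring
    rw [h'] at h
    have h2' : (2 : A) ∉ 𝔓 := fun h => h𝔓.ne_top (𝔓.eq_top_of_isUnit_mem h h2)
    exact (h𝔓.mem_or_mem ((h𝔓.mem_or_mem h).resolve_left h2')).resolve_left h2'
  have hbc : b ∈ 𝔓 ∧ c ∈ 𝔓 := by
    rcases h𝔓.mem_or_mem g4 with hb | hc
    · refine ⟨hb, h𝔓.mem_of_pow_mem 2 ?_⟩
      have h := 𝔓.sub_mem (𝔓.mul_mem_left b hb) g1
      have h' : b * b - (b ^ 2 - c ^ 2) = c ^ 2 := by ring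
      rwa [h'] at h
    · refine ⟨h𝔓.mem_of_pow_mem 2 ?_, hc⟩
      have h := 𝔓.add_mem g1 (𝔓.mul_mem_left c hc)
      have h' : b ^ 2 - c ^ 2 + c * c = b ^ 2 := by ring
      rwa [h'] at h
  refine ⟨hbc.1, hbc.2, ha, ?_, ?_⟩
  · have := 𝔓.add_mem f1 hbc.2
    rwa [sub_add_cancel] at this
  · have := 𝔓.add_mem f2 hbc.1
    rwa [sub_add_cancel] at this

end

/-- Existence of an unramified point out of matrix data at all levels. -/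
theorem exists_point_of_matData {𝒪 : Type} [CommRing 𝒪] [IsDomain 𝒪] [IsDiscreteValuationRing 𝒪]
    [IsAdicComplete (maximalIdeal 𝒪) 𝒪] [Finite (ResidueField 𝒪)] {p : ℕ}
    (hp𝒪 : (p : 𝒪) ∈ maximalIdeal 𝒪) (h2 : IsUnit (2 : 𝒪)) {r k m d : ℕ} (hd : 0 < d)
    (hr : m + 3 * k + 3 ≤ r) {ϖ : 𝒪} (hϖ : Prime ϖ) {T : Finset 𝒪} (hT : ∀ δ ∈ T, δ ≠ 0)
    {ε : 𝒪} (hε : ϖ ∣ ε) {R0 : Type} [CommRing R0] [Algebra 𝒪 R0] [Module.Finite 𝒪 R0]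
    (A0 : R0 →+* Matrix (Fin d) (Fin d) 𝒪)
    (hA0𝒪 : ∀ a, A0 (algebraMap 𝒪 R0 a) = Matrix.scalar (Fin d) a) (I0 : Ideal R0)
    (h : ∀ n, MatData 𝒪 p r k m d ϖ T ε A0 I0 n) :
    ∃ Q : Ideal R0, Q.IsPrime ∧ Q.comap (algebraMap 𝒪 R0) = ⊥ ∧ I0 ≤ Q := by
  classical
  choose a ha φ c1 cχ ρ h using h
  let 𝓤 : Ultrafilter ℕ := Filter.hyperfilter ℕ
  have hmax𝒪 : maximalIdeal 𝒪 = Ideal.span {ϖ} :=
    (IsDiscreteValuationRing.irreducible_iff_uniformizer ϖ).mp hϖ.irreducible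
  refine exists_point (r := r) (PP := PPr 𝒪 k m) 𝓤 (hasULim_mvPowerSeries hasULim_maximalIdeal)
    (fun n => idealJ 𝒪 p (a n)) ?_ φ hd c1 cχ (fun n => (h n).1.1) (fun n => (h n).1.2.1) ϖ hϖ
    (fun n => (h n).1.2.2.1) (var 𝒪 (.inl 0)) (var 𝒪 (.inl 1)) (var 𝒪 (.inl 2))
    (var 𝒪 (.inl 3)) (var 𝒪 (.inl 4)) (var 𝒪 (.inl 5)) T hT ε hε
    (fun n => (h n).2.1.1.1) (fun n => (h n).2.1.1.2.1) (fun n => (h n).2.1.1.2.2.1)
    (fun n => (h n).2.1.1.2.2.2) (fun n => (h n).2.1.2 0 (by simp))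
    (fun n => (h n).2.1.2 1 (by simp)) (fun n => (h n).2.1.2 2 (by simp))
    (var_mem_maximalIdeal _) (var_mem_maximalIdeal _) (var_mem_maximalIdeal _)
    (var_mem_maximalIdeal _) (var_mem_maximalIdeal _) (EE 𝒪 k m) EE_le_maximalIdeal
    ((Nat.add_le_add_right card_EE 3).trans hr)
    {f | ∃ l : Fin k, f = var 𝒪 (.inr (.inl (l, 0))) * var 𝒪 (.inr (.inl (l, 4))) -
        var 𝒪 (.inr (.inl (l, 1))) * var 𝒪 (.inr (.inl (l, 3))) ∨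
      f = var 𝒪 (.inr (.inl (l, 0))) * var 𝒪 (.inr (.inl (l, 5))) -
        var 𝒪 (.inr (.inl (l, 2))) * var 𝒪 (.inr (.inl (l, 3))) ∨
      f = var 𝒪 (.inr (.inl (l, 1))) * var 𝒪 (.inr (.inl (l, 5))) -
        var 𝒪 (.inr (.inl (l, 2))) * var 𝒪 (.inr (.inl (l, 4))) ∨
      f = var 𝒪 (.inr (.inl (l, 2))) ^ 2 + 4 * var 𝒪 (.inr (.inl (l, 0))) *
        var 𝒪 (.inr (.inl (l, 1)))} ?_ ?_ A0 hA0𝒪 ρ (fun n => (h n).1.2.2.2) I0
    (fun n => (h n).2.2.2)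
  · intro j
    have h1 : ∀ᶠ n in (𝓤 : Filter ℕ), j ≤ n := by
      have : (𝓤 : Filter ℕ) ≤ Filter.atTop := by
        rw [← Nat.cofinite_eq_atTop]
        exact Filter.hyperfilter_le_cofinite
      exact this (Filter.eventually_ge_atTop j)
    filter_upwards [h1] with n hn
    exact idealJ_le_pow hp𝒪 (fun i => hn.trans (ha n i))
  · rintro f ⟨l, rfl | rfl | rfl | rfl⟩ n
    · exact ((h n).2.2.1 l).1
    · exact ((h n).2.2.1 l).2.1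
    · exact ((h n).2.2.1 l).2.2.1
    · exact ((h n).2.2.1 l).2.2.2
  · intro 𝔓 h𝔓 hϖ𝔓 hrel hb hc ha' hy hz hβ hE
    have h2' : IsUnit (2 : PPr 𝒪 k m) := by
      have := h2.map (algebraMap 𝒪 (PPr 𝒪 k m))
      rwa [map_ofNat] at this
    refine maximalIdeal_le_of_var hmax𝒪 𝔓 hϖ𝔓 ?_
    rintro (j | ⟨l, j⟩ | j)
    · fin_cases j
      · exact hb
      · exact hc
      · exact ha'
      · exact hy
      · exact hz
      · exact hβ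
    · obtain ⟨g0, g1, g2, g3, g4⟩ := mem_of_relations 𝔓 h2'
        (hrel ⟨l, Or.inl rfl⟩) (hrel ⟨l, Or.inr (Or.inl rfl)⟩)
        (hrel ⟨l, Or.inr (Or.inr (Or.inl rfl))⟩) (hrel ⟨l, Or.inr (Or.inr (Or.inr rfl))⟩)
        (hE _ (mem_EE_0 l)) (hE _ (mem_EE_1 l)) (hE _ (mem_EE_2 l))
      fin_cases j
      · exact g0
      · exact g1
      · exact g2
      · exact g3
      · exact g4
      · exact hE _ (mem_EE_0 l)
    · exact hE _ (mem_EE_ext j)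

end Fermat.Agent.IH
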