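import Mathlib
import Fermat.Agent.IH.Final
import Fermat.Agent.RT.TW.Pair
import Fermat.Agent.RT.TW.Defs

set_option autoImplicit false
set_option linter.style.haveILetI false
set_option linter.unusedSectionVars false

/-!
# The scalar case from the Hecke side with diamond operators

* `LevelMod` : a module over the deformation ring with diamond operators, free over the group ring
  of the diamonds, with the two local conditions `E1`, `E2` at the Taylor–Wiles primes;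
* `PairHecke` : what the modular side has to provide at one system of Taylor–Wiles primes;
* `false_of_pairHecke` : the contradiction.
-/

namespace Fermat.Agent.IH

open IsLocalRing Matrix Pointwise Polynomial
open Fermat.Agent.UDef (GalQ IsModel IsModelR MCont mapRep CoefAlg toK)
open Fermat.Agent.TWP (SelFlat SelOrd OrdLine AdjHyp)
open Fermat.Agent.RT.Wiring (PType dCond dCond_det dCond_unr isDeformationCondition_dCond
  nonempty_ringData_dCond)
open Fermat.Agent.RT.TW (TWSet grpHom)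
open Fermat.Agent.RT.TWInertia (Data)
open Fermat.Agent.TWP.Wiring (GWInput TWBound MinBound)
open Fermat.Agent.TWP.GW (HasLocal Dq primeLocalPlace_liesOverPrime)
open Fermat.Agent.RT.GroupAlg ExtCitation

/-- A module with diamond operators at one Taylor–Wiles level: the fields of `RT.TW.TWHecke`
without the map to the base level. -/
structure LevelMod (𝒪 : Type) [CommRing 𝒪] (p : ℕ) {r : ℕ} (a : Fin r → ℕ)
    {R' : Type} [CommRing R'] [Algebra 𝒪 R'] (g : Fin r → R') (d : ℕ) : Type 1 where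
  /-- the module -/
  X : Type
  [instAddCommGroup : AddCommGroup X]
  [instModule : Module 𝒪 X]
  [instModuleR : Module R' X]
  [instIsScalarTower : IsScalarTower 𝒪 R' X]
  /-- the group of diamonds -/
  Δ : Type
  [instCommGroup : CommGroup Δ]
  [instFinite : Finite Δ]
  /-- the generators -/
  δ : Fin r → Δ
  orderOf_δ : ∀ i, orderOf (δ i) = p ^ a i
  closure_δ : Subgroup.closure (Set.range δ) = ⊤
  card_Δ : Nat.card Δ = ∏ i, p ^ a i
  /-- the diamond operators -/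
  D : Δ →* Module.End 𝒪 X
  D_smul : ∀ (x : Δ) (f : R') (z : X), D x (f • z) = f • D x z
  /-- index type of the basis over the group ring -/
  ι : Type
  [instFiniteι : Finite ι]
  card_ι : Nat.card ι = d
  /-- an `𝒪`-basis permuted by `Δ` -/
  b : Module.Basis (Δ × ι) 𝒪 X
  D_b : ∀ x k, D x (b (1, k)) = b (x, k)
  E1 : ∀ i z, D (δ i) z = z → g i • z = z
  E2 : ∀ i z, ∑ j ∈ Finset.range p, D (δ i ^ j) z = 0 → g i • z = z → z = 0

attribute [instance] LevelMod.instAddCommGroup LevelMod.instModule LevelMod.instModuleR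
  LevelMod.instIsScalarTower LevelMod.instCommGroup LevelMod.instFinite LevelMod.instFiniteι

/-- **The modular side at one system of Taylor–Wiles primes** (with diamond operators). -/
structure PairHecke (t : PType) (𝒪 : Type) [CommRing 𝒪] [IsDomain 𝒪] [IsDiscreteValuationRing 𝒪]
    [IsAdicComplete (maximalIdeal 𝒪) 𝒪] (p : ℕ)
    (ρbar : ResidualGaloisRep (ResidueField 𝒪)) (Smin : Finset ℕ) {k : ℕ}
    (v : Fin (k + 1) → Nat.Primes) (ϖ : 𝒪) (d : ℕ) {S : Finset ℕ} {n r : ℕ}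
    (Q : TWSet ρbar p S n r)
    (DQ : GaloisRep.DeformationRingData 𝒪 ρbar
      (dCond t 𝒪 p (Smin ∪ (Finset.univ.image (fun l => (v l : ℕ)) ∪ Finset.univ.image Q.q)) Smin))
    (T : ∀ i, Data DQ.ρ (Q.P i) (Q.φ i) (p ^ Q.a i)) : Type 1 where
  M1 : LevelMod 𝒪 p Q.a (fun i => ((T i).g : DQ.R)) d
  Mχ : LevelMod 𝒪 p Q.a (fun i => ((T i).g : DQ.R)) d
  iso : QuotSMulTop (algebraMap 𝒪 DQ.R ϖ) M1.X ≃ₗ[DQ.R] QuotSMulTop (algebraMap 𝒪 DQ.R ϖ) Mχ.X
  /-- `M1` is supported on points which are special at `v 0` -/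
  support1 : ∀ f : DQ.R, (∀ (K : Type) [Field K] [Algebra 𝒪 K] (y : DQ.R →ₐ[𝒪] K),
      Function.Injective (algebraMap 𝒪 K) →
      (∀ P : ValuationSubring (AlgebraicClosure ℚ), P.LiesOverPrime (v 0 : ℕ) →
        ∀ F : GalQ, P.IsFrobeniusAt F (v 0 : ℕ) →
        (y (LinearMap.trace DQ.R DQ.ρ.V (DQ.ρ.ρ F)) = ((v 0 : ℕ) : K) + 1 ∨
          y (LinearMap.trace DQ.R DQ.ρ.V (DQ.ρ.ρ F)) = -(((v 0 : ℕ) : K) + 1))) → y f = 0) →
      ∀ u : M1.X, f • u = 0
  /-- `Mχ` is supported on points which are not unipotent on inertia at `v 0` and unipotent on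
  inertia at the other `v l` -/
  supportχ : ∀ f : DQ.R, (∀ (K : Type) [Field K] [Algebra 𝒪 K] (y : DQ.R →ₐ[𝒪] K),
      Function.Injective (algebraMap 𝒪 K) →
      (∀ P : ValuationSubring (AlgebraicClosure ℚ), P.LiesOverPrime (v 0 : ℕ) →
        ∃ σ ∈ P.inertiaSubgroupIn ℚ, y (LinearMap.trace DQ.R DQ.ρ.V (DQ.ρ.ρ σ)) ≠ 2) →
      (∀ l : Fin k, ∀ P : ValuationSubring (AlgebraicClosure ℚ),
        P.LiesOverPrime (v l.succ : ℕ) → ∀ σ ∈ P.inertiaSubgroupIn ℚ,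
        y (LinearMap.trace DQ.R DQ.ρ.V (DQ.ρ.ρ σ)) = 2) → y f = 0) →
      ∀ u : Mχ.X, f • u = 0

section main

variable {𝒪 : Type} [CommRing 𝒪] [IsDomain 𝒪] [IsDiscreteValuationRing 𝒪]
    [IsAdicComplete (maximalIdeal 𝒪) 𝒪] [Finite (ResidueField 𝒪)]
    {p : ℕ} [Fact p.Prime] {ρbar : ResidualGaloisRep (ResidueField 𝒪)}
    {Mbar : GalQ →* Matrix (Fin 2) (Fin 2) (ResidueField 𝒪)}

/-- Taylor–Wiles primes in the form of `RT.TW.TWSet`. -/
theorem exists_twSet {S : Finset ℕ} {r n : ℕ} {qv : Fin r → ℕ} (h : IsTW p S ρbar n qv) :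
    ∃ Q : TWSet ρbar p S n r, Q.q = qv := by
  have hp : p.Prime := Fact.out
  have hP : ∀ i, ∃ P : ValuationSubring (AlgebraicClosure ℚ), P.LiesOverPrime (qv i) := fun i =>
    FrobExists.exists_liesOverPrime (AlgebraicClosure ℚ) (h.prime i)
  choose P hP using hP
  choose φ hφ using fun i => FrobExists.exists_isFrobeniusAt (P i) (h.prime i) (hP i)
  choose α β hαβ hchar using fun i => h.frob i (P i) (hP i) (φ i) (hφ i)
  have hne : ∀ i, qv i - 1 ≠ 0 := fun i => by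
    have := (h.prime i).two_le
    omega
  have ha : ∀ i, ∃ a : ℕ, n < a ∧ p ^ a ∣ qv i - 1 ∧ ¬ p ^ (a + 1) ∣ qv i - 1 := by
    intro i
    obtain ⟨a, m, hm, he⟩ := Nat.exists_eq_pow_mul_and_not_dvd (hne i) p hp.ne_one
    refine ⟨a, ?_, ?_, ?_⟩
    · by_contra hlt
      push Not at hlt
      have h1 : p ^ (a + 1) ∣ qv i - 1 := (pow_dvd_pow p (by omega)).trans (h.dvd i)
      rw [he, pow_succ] at h1
      exact hm (Nat.dvd_of_mul_dvd_mul_left (pow_pos hp.pos a) h1)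
    · rw [he]; exact dvd_mul_right _ _
    · intro h1
      rw [he, pow_succ] at h1
      exact hm (Nat.dvd_of_mul_dvd_mul_left (pow_pos hp.pos a) h1)
  choose a ha1 ha2 ha3 using ha
  exact ⟨{
    q := qv
    q_injective := h.inj
    prime := h.prime
    not_mem := h.notMem
    a := a
    lt_a := ha1
    dvd := ha2
    not_dvd := ha3
    P := P
    liesOver := hP
    φ := φ
    isFrobenius := hφ
    α := α
    β := β
    α_ne_β := hαβ
    charpoly := hchar }, rfl⟩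

/-- The group ring structure of a `LevelMod` through the `g i`. -/
theorem LevelMod.exists_free [CharZero 𝒪] (hp𝒪 : (p : 𝒪) ∈ maximalIdeal 𝒪) {r : ℕ}
    {a : Fin r → ℕ} (ha : ∀ i, 0 < a i) {R' : Type} [CommRing R'] [IsLocalRing R'] [Algebra 𝒪 R']
    [IsLocalHom (algebraMap 𝒪 R')] {g : Fin r → R'} (hgp : ∀ i, g i ^ p ^ a i = 1) {d : ℕ}
    (L : LevelMod 𝒪 p a g d) :
    letI : Module (Lam 𝒪 p a) L.X := Module.compHom L.X (grpHom (𝒪 := 𝒪) a g hgp : _ →+* R')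
    Module.Free (Lam 𝒪 p a) L.X ∧ Module.Finite (Lam 𝒪 p a) L.X ∧
      Module.finrank (Lam 𝒪 p a) L.X = d := by
  letI : Module (Lam 𝒪 p a) L.X := Module.compHom L.X (grpHom (𝒪 := 𝒪) a g hgp : _ →+* R')
  have hp : p.Prime := Fact.out
  have hp0 : (p : 𝒪) ≠ 0 := by exact_mod_cast hp.ne_zero
  obtain ⟨B⟩ := RT.TW.exists_basis_of_diamonds hp𝒪 hp0 a ha g hgp L.δ L.orderOf_δ L.closure_δ
    L.card_Δ L.D L.D_smul L.b L.D_b L.E1 L.E2
  have : IsLocalRing (Lam 𝒪 p a) := isLocalRing_Lam a hp𝒪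
  refine ⟨Module.Free.of_basis B, Module.Finite.of_basis B, ?_⟩
  rw [Module.finrank_eq_card_basis B, Fintype.card_fin, L.card_ι]

/-- **The scalar case from the Hecke side.** -/
theorem false_of_pairHecke [CharZero 𝒪] [Algebra (ZMod p) (ResidueField 𝒪)] (hp2 : p ≠ 2)
    (hp𝒪 : (p : 𝒪) ∈ maximalIdeal 𝒪) (hM : IsModelR ρbar Mbar) (hadj : AdjHyp Mbar)
    (habs : ρbar.IsAbsolutelyIrreducible)
    (hdet : (GaloisRepAdic.ofResidualGaloisRep ρbar).DetIsCyclotomic p)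
    (hsplit : ∀ σ : GalQ, ∃ α β : ResidueField 𝒪,
      LinearMap.charpoly (ρbar.ρ σ) = (X - C α) * (X - C β))
    (S Smin : Finset ℕ) (hpSmin : p ∈ Smin) (hSmin : Smin ⊆ S)
    (hmin : ∀ q : ℕ, q.Prime → q ≠ p → (q ∈ Smin ↔ ¬ ρbar.IsUnramifiedAt q))
    {k : ℕ} (v : Fin (k + 1) → Nat.Primes) (hvinj : Function.Injective v)
    (hvS : ∀ l, (v l : ℕ) ∈ S) (hvmin : ∀ l, (v l : ℕ) ∉ Smin) (hv1 : ∀ l, p ∣ (v l : ℕ) - 1)
    (hscal : ∀ l, ∀ σ ∈ Dq (v l), ∃ c : ResidueField 𝒪, Mbar σ = c • 1)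
    (hGW : GWInput p Mbar) (hTWb : TWBound p Mbar) (hMin : MinBound p Mbar)
    (hOrd : ∀ u, OrdLine Mbar p (primeLocalPlace (pPrime p)) u →
      HasLocal Mbar (pPrime p) 4 (SelOrd Mbar p))
    (hFlat : (GaloisRepAdic.ofResidualGaloisRep ρbar).IsFlatAt p →
      HasLocal Mbar (pPrime p) 4 (SelFlat Mbar p))
    {t : PType} (ht : t ≠ .ord)
    (hbar : dCond t 𝒪 p Smin Smin (GaloisRepAdic.ofResidualGaloisRep ρbar))
    {ϖ : 𝒪} (hϖ : Prime ϖ) {ω : 𝒪} {e m' : ℕ} (hω : IsPrimitiveRoot ω (p ^ e))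
    (hqm : (v 0 : ℕ) - 1 = p ^ e * m') (hm' : ¬ p ∣ m') {d : ℕ} (hd : 0 < d)
    (H : ∀ (r n : ℕ) (Q : TWSet ρbar p S n r)
      (DQ : GaloisRep.DeformationRingData 𝒪 ρbar
        (dCond t 𝒪 p (Smin ∪ (Finset.univ.image (fun l => (v l : ℕ)) ∪
          Finset.univ.image Q.q)) Smin))
      (T : ∀ i, Data DQ.ρ (Q.P i) (Q.φ i) (p ^ Q.a i)),
      (∀ i, residue DQ.R (T i).A = ResidueField.map (algebraMap 𝒪 DQ.R) (Q.α i) ∧
        residue DQ.R (T i).D = ResidueField.map (algebraMap 𝒪 DQ.R) (Q.β i)) →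
      Nonempty (PairHecke t 𝒪 p ρbar Smin v ϖ d Q DQ T)) : False := by
  classical
  have hp : p.Prime := Fact.out
  refine false_of_pairSide (d := d) (t := t) hp2 hp𝒪 hM hadj hdet hsplit S Smin hpSmin hSmin hmin
    v hvinj hvS hvmin hv1 hscal hGW hTWb hMin hOrd hFlat ht hϖ hω hqm hm' hd
    fun r n qv hqv => ?_
  obtain ⟨Q, rfl⟩ := exists_twSet hqv
  obtain ⟨DQ⟩ := nonempty_ringData_dCond 𝒪 ρbar habs hp hp2 t
    (Smin ∪ (Finset.univ.image (fun l => (v l : ℕ)) ∪ Finset.univ.image Q.q)) Smin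
    (RT.Wiring.dCond_mono Finset.subset_union_left (Finset.Subset.refl _) hbar)
  have hQmin : ∀ i, Q.q i ∉ Smin := fun i h => Q.not_mem i (hSmin h)
  have hQp : ∀ i, p ≠ Q.q i := fun i h => hQmin i (h ▸ hpSmin)
  have hT : ∀ i, ∃ T : Data DQ.ρ (Q.P i) (Q.φ i) (p ^ Q.a i),
      residue DQ.R T.A = ResidueField.map (algebraMap 𝒪 DQ.R) (Q.α i) ∧
        residue DQ.R T.D = ResidueField.map (algebraMap 𝒪 DQ.R) (Q.β i) := by
    intro i
    refine RT.TWInertia.exists_data DQ hp (Q.prime i) (hQp i) (dCond_det DQ.isOfType) (Q.dvd i)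
      (by have := Q.lt_a i; omega) (Q.not_dvd i) (Q.liesOver i) (Q.isFrobenius i) ?_
      (Q.α_ne_β i) (Q.charpoly i)
    by_contra h
    exact hQmin i ((hmin _ (Q.prime i) (hQp i).symm).mpr h)
  choose T hT using hT
  obtain ⟨H⟩ := H r n Q DQ T hT
  have hgp : ∀ i, ((T i).g : DQ.R) ^ p ^ Q.a i = 1 := fun i => by
    rw [← Units.val_pow_eq_pow_val, (T i).g_pow, Units.val_one]
  have ha : ∀ i, 0 < Q.a i := fun i => lt_of_le_of_lt (Nat.zero_le _) (Q.lt_a i)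
  letI iL1 : Module (Lam 𝒪 p Q.a) H.M1.X :=
    Module.compHom H.M1.X (grpHom (𝒪 := 𝒪) Q.a (fun i => ((T i).g : DQ.R)) hgp : _ →+* DQ.R)
  letI iLχ : Module (Lam 𝒪 p Q.a) H.Mχ.X :=
    Module.compHom H.Mχ.X (grpHom (𝒪 := 𝒪) Q.a (fun i => ((T i).g : DQ.R)) hgp : _ →+* DQ.R)
  obtain ⟨f1, g1, h1⟩ := H.M1.exists_free hp𝒪 ha hgp
  obtain ⟨fχ, gχ, hχ⟩ := H.Mχ.exists_free hp𝒪 ha hgp
  have hof : ∀ (X : Type) [AddCommGroup X] [Module DQ.R X] (x : Grp fun i => p ^ Q.a i) (u : X),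
      grpHom (𝒪 := 𝒪) Q.a (fun i => ((T i).g : DQ.R)) hgp (MonoidAlgebra.of 𝒪 _ x) • u =
        powHom (q := fun i => p ^ Q.a i) (fun i => ((T i).g : DQ.R)) hgp x • u := by
    intro X _ _ x u
    rw [RT.TW.grpHom_of]
  have halg : ∀ (X : Type) [AddCommGroup X] [Module DQ.R X] (c : 𝒪) (u : X),
      grpHom (𝒪 := 𝒪) Q.a (fun i => ((T i).g : DQ.R)) hgp (algebraMap 𝒪 (Lam 𝒪 p Q.a) c) • u =
        algebraMap 𝒪 DQ.R c • u := by
    intro X _ _ c u
    rw [AlgHom.commutes]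
  exact ⟨{
    DQ := DQ
    a := Q.a
    le_a := fun i => (Q.lt_a i).le
    δ := powHom (q := fun i => p ^ Q.a i) (fun i => ((T i).g : DQ.R)) hgp
    δ_mem := fun i => by
      rw [RT.TW.powHom_gen (q := fun i => p ^ Q.a i)]
      exact (T i).g_sub_one_mem
    M1 := H.M1.X
    freeM1 := f1
    finM1 := g1
    of_smul1 := fun x u => hof _ x u
    alg_smul1 := fun c u => halg _ c u
    Mχ := H.Mχ.X
    freeMχ := fχ
    finMχ := gχ
    of_smulχ := fun x u => hof _ x u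
    alg_smulχ := fun c u => halg _ c u
    iso := H.iso
    rank := h1
    support1 := H.support1
    supportχ := H.supportχ }⟩

end main

end Fermat.Agent.IH
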