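import Mathlib
import Fermat.Agent.IH.PairHecke
import Fermat.Agent.DR.SC.PairAlg
import Fermat.Agent.RT.TWInst

set_option autoImplicit false
set_option linter.style.haveILetI false
set_option linter.unusedSectionVars false

/-!
# The pair `(M1, Mχ)` from one module

`X` is an `R'`-module with diamond operators by `Δ₁ × Δ₂`, free over the group ring. The
`χ`-isotypic parts (`χ` a character of `Δ₁`) are `LevelMod`s for `Δ₂`, and they are isomorphic
modulo `ϖ` for congruent characters.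
-/

namespace Fermat.Agent.IH

open IsLocalRing Pointwise
open Fermat.Agent.DR.SC (isoSub mem_isoSub exists_basis_isoSub exists_compare avg)

section abs

variable {𝒪 : Type} [CommRing 𝒪] {R' : Type} [CommRing R'] [Algebra 𝒪 R']
  {X : Type} [AddCommGroup X] [Module 𝒪 X] [Module R' X] [IsScalarTower 𝒪 R' X]
  {Δ₁ Δ₂ : Type} [CommGroup Δ₁] [CommGroup Δ₂]

/-- The `χ`-isotypic part as an `R'`-module. -/
def isoR (D : Δ₁ × Δ₂ →* Module.End 𝒪 X) (hD : ∀ x (f : R') z, D x (f • z) = f • D x z)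
    (χ : Δ₁ →* 𝒪ˣ) : Submodule R' X where
  carrier := {x | ∀ δ : Δ₁, D (δ, 1) x = (χ δ : 𝒪) • x}
  zero_mem' := fun δ => by rw [map_zero, smul_zero]
  add_mem' := fun {x y} hx hy δ => by rw [map_add, hx, hy, smul_add]
  smul_mem' := fun f x hx δ => by rw [hD, hx, smul_algebra_smul_comm]

variable {D : Δ₁ × Δ₂ →* Module.End 𝒪 X} {hD : ∀ x (f : R') z, D x (f • z) = f • D x z}

theorem mem_isoR {χ : Δ₁ →* 𝒪ˣ} {x : X} :
    x ∈ isoR D hD χ ↔ ∀ δ : Δ₁, D (δ, 1) x = (χ δ : 𝒪) • x := Iff.rfl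

theorem D_mem_isoR {χ : Δ₁ →* 𝒪ˣ} {x : X} (hx : x ∈ isoR D hD χ) (y : Δ₁ × Δ₂) :
    D y x ∈ isoR D hD χ := by
  intro δ
  rw [← Module.End.mul_apply, ← map_mul, mul_comm, map_mul, Module.End.mul_apply, hx δ, map_smul]

/-- the two submodules have the same elements -/
def isoEquiv (D : Δ₁ × Δ₂ →* Module.End 𝒪 X) (hD : ∀ x (f : R') z, D x (f • z) = f • D x z)
    (χ : Δ₁ →* 𝒪ˣ) : isoSub D χ ≃ₗ[𝒪] isoR D hD χ where
  toFun x := ⟨x.1, x.2⟩
  invFun x := ⟨x.1, x.2⟩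
  map_add' _ _ := rfl
  map_smul' _ _ := rfl
  left_inv _ := rfl
  right_inv _ := rfl

/-- The operators of `Δ₂` on the isotypic part. -/
def isoD (D : Δ₁ × Δ₂ →* Module.End 𝒪 X) (hD : ∀ x (f : R') z, D x (f • z) = f • D x z)
    (χ : Δ₁ →* 𝒪ˣ) : Δ₂ →* Module.End 𝒪 (isoR D hD χ) where
  toFun := fun x =>
    { toFun := fun z => ⟨D (1, x) z, D_mem_isoR z.2 _⟩
      map_add' := fun y z => Subtype.ext (map_add _ _ _)
      map_smul' := fun c z => Subtype.ext (map_smul _ _ _) }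
  map_one' := by
    refine LinearMap.ext fun z => Subtype.ext ?_
    change D (1, 1) (z : X) = z
    have h1 : D (1, 1) = 1 := map_one D
    rw [h1]; rfl
  map_mul' := fun x y => by
    refine LinearMap.ext fun z => Subtype.ext ?_
    change D (1, x * y) (z : X) = D (1, x) (D (1, y) z)
    rw [← Module.End.mul_apply, ← map_mul, Prod.mk_mul_mk, one_mul]

theorem isoD_coe (χ : Δ₁ →* 𝒪ˣ) (x : Δ₂) (z : isoR D hD χ) :
    ((isoD D hD χ x z : isoR D hD χ) : X) = D (1, x) z := rfl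

theorem exists_basis_isoR [Fintype Δ₁] [Fintype Δ₂] (D : Δ₁ × Δ₂ →* Module.End 𝒪 X)
    (hD : ∀ x (f : R') z, D x (f • z) = f • D x z) {ι : Type} [Fintype ι] {b : ι → X}
    (B : Module.Basis (ι × (Δ₁ × Δ₂)) 𝒪 X) (hB : ∀ i δ, B (i, δ) = D δ (b i))
    (χ : Δ₁ →* 𝒪ˣ) : ∃ C : Module.Basis (Δ₂ × ι) 𝒪 (isoR D hD χ),
      ∀ x k, isoD D hD χ x (C (1, k)) = C (x, k) := by
  classical
  obtain ⟨C, hC, -, -⟩ := exists_basis_isoSub B hB χ
  refine ⟨(C.map (isoEquiv D hD χ)).reindex (Equiv.prodComm ι Δ₂), fun x k => Subtype.ext ?_⟩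
  have h1 : ∀ y, ((((C.map (isoEquiv D hD χ)).reindex (Equiv.prodComm ι Δ₂)) (y, k) :
      isoR D hD χ) : X) = D (1, y) (avg D χ (b k)) := by
    intro y
    rw [← hC]
    simp [isoEquiv]
  rw [isoD_coe, h1, h1, ← Module.End.mul_apply, ← map_mul, Prod.mk_mul_mk, one_mul, mul_one]

/-- The isotypic part as a `LevelMod`. -/
noncomputable def levelMod [Fintype Δ₁] [Fintype Δ₂] (D : Δ₁ × Δ₂ →* Module.End 𝒪 X)
    (hD : ∀ x (f : R') z, D x (f • z) = f • D x z) {ι : Type} [Fintype ι] {b : ι → X}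
    (B : Module.Basis (ι × (Δ₁ × Δ₂)) 𝒪 X) (hB : ∀ i δ, B (i, δ) = D δ (b i))
    (p : ℕ) {r : ℕ} (a : Fin r → ℕ) (g : Fin r → R') (δ : Fin r → Δ₂)
    (ho : ∀ i, orderOf (δ i) = p ^ a i) (hc : Subgroup.closure (Set.range δ) = ⊤)
    (hcard : Nat.card Δ₂ = ∏ i, p ^ a i)
    (E1 : ∀ i z, D (1, δ i) z = z → g i • z = z)
    (E2 : ∀ i z, ∑ j ∈ Finset.range p, D (1, δ i ^ j) z = 0 → g i • z = z → z = 0)
    {d : ℕ} (hd : Nat.card ι = d) (χ : Δ₁ →* 𝒪ˣ) : LevelMod 𝒪 p a g d where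
  X := isoR D hD χ
  Δ := Δ₂
  δ := δ
  orderOf_δ := ho
  closure_δ := hc
  card_Δ := hcard
  D := isoD D hD χ
  D_smul := fun x f z => Subtype.ext (hD (1, x) f z)
  ι := ι
  card_ι := hd
  b := (exists_basis_isoR D hD B hB χ).choose
  D_b := (exists_basis_isoR D hD B hB χ).choose_spec
  E1 := fun i z h => Subtype.ext (E1 i z (congrArg Subtype.val h))
  E2 := fun i z h1 h2 => by
    refine Subtype.ext (E2 i z ?_ (congrArg Subtype.val h2))
    have h3 := congrArg (Submodule.subtype _) h1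
    rw [map_sum] at h3
    exact h3

/-- **The comparison modulo `ϖ`** over `R'`. -/
theorem exists_iso [Fintype Δ₁] [Fintype Δ₂] (D : Δ₁ × Δ₂ →* Module.End 𝒪 X)
    (hD : ∀ x (f : R') z, D x (f • z) = f • D x z) {ι : Type} [Fintype ι] {b : ι → X}
    (B : Module.Basis (ι × (Δ₁ × Δ₂)) 𝒪 X) (hB : ∀ i δ, B (i, δ) = D δ (b i))
    (χ χ' : Δ₁ →* 𝒪ˣ) (ϖ : 𝒪) (hχ : ∀ δ, ϖ ∣ ((χ δ : 𝒪) - (χ' δ : 𝒪))) :
    Nonempty (QuotSMulTop (algebraMap 𝒪 R' ϖ) (isoR D hD χ) ≃ₗ[R']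
      QuotSMulTop (algebraMap 𝒪 R' ϖ) (isoR D hD χ')) := by
  classical
  obtain ⟨θ, hθ⟩ := exists_compare B hB χ χ' ϖ hχ
  set c : R' := algebraMap 𝒪 R' ϖ with hc
  have hcs : ∀ (S : Submodule R' X) (z : S), c • z = ϖ • z := fun S z => by
    rw [hc, algebraMap_smul]
  let θ' : isoR D hD χ ≃ₗ[𝒪] isoR D hD χ' :=
    ((isoEquiv D hD χ).symm.trans θ).trans (isoEquiv D hD χ')
  have hθ' : ∀ (f : R') (x : isoR D hD χ), ∃ z : isoR D hD χ',
      f • θ' x = θ' (f • x) + c • z := by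
    intro f x
    let F : Module.End 𝒪 X :=
      { toFun := fun x => f • x
        map_add' := fun x y => smul_add _ _ _
        map_smul' := fun k x => (smul_algebra_smul_comm k f x).trans rfl }
    obtain ⟨z, hz, h⟩ := hθ F (fun δ x => (hD (δ, 1) f x).symm) ((isoEquiv D hD χ).symm x)
      ((isoEquiv D hD χ).symm (f • x)) rfl
    refine ⟨⟨z, hz⟩, Subtype.ext ?_⟩
    rw [hcs]
    exact h
  let φ : isoR D hD χ →ₗ[R'] QuotSMulTop c (isoR D hD χ') :=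
    { toFun := fun x => Submodule.Quotient.mk (θ' x)
      map_add' := fun x y => by rw [map_add]; rfl
      map_smul' := fun f x => by
        obtain ⟨z, hz⟩ := hθ' f x
        rw [RingHom.id_apply, ← Submodule.Quotient.mk_smul, hz, Submodule.Quotient.mk_add,
          (Submodule.Quotient.mk_eq_zero _).mpr (Submodule.smul_mem_pointwise_smul z c ⊤ trivial),
          add_zero] }
  have hφ : ∀ x, φ x = Submodule.Quotient.mk (θ' x) := fun _ => rfl
  have hsurj : Function.Surjective φ := by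
    intro y
    obtain ⟨y, rfl⟩ := Submodule.Quotient.mk_surjective _ y
    exact ⟨θ'.symm y, by rw [hφ, LinearEquiv.apply_symm_apply]⟩
  have hker : LinearMap.ker φ = c • (⊤ : Submodule R' (isoR D hD χ)) := by
    ext x
    rw [LinearMap.mem_ker, hφ, Submodule.Quotient.mk_eq_zero,
      Submodule.mem_smul_pointwise_iff_exists, Submodule.mem_smul_pointwise_iff_exists]
    constructor
    · rintro ⟨z, -, hz⟩
      refine ⟨θ'.symm z, trivial, ?_⟩
      apply θ'.injective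
      rw [← hz, hcs, hcs, map_smul, LinearEquiv.apply_symm_apply]
    · rintro ⟨z, -, rfl⟩
      exact ⟨θ' z, trivial, by rw [hcs, hcs, map_smul]⟩
  exact ⟨(Submodule.quotEquivOfEq _ _ hker.symm).trans (φ.quotKerEquivOfSurjective hsurj)⟩

end abs

/-! ### The concrete case -/

section cons

open Fermat.Agent.RT.GroupAlg

/-- the character of `ℤ/m` with value `u` at `1` -/
def chiOf {𝒪 : Type} [CommRing 𝒪] {m : ℕ} [NeZero m] (u : 𝒪ˣ) (hu : u ^ m = 1) :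
    Multiplicative (ZMod m) →* 𝒪ˣ where
  toFun x := u ^ (Multiplicative.toAdd x).val
  map_one' := by simp
  map_mul' x y := by
    rw [toAdd_mul, ZMod.val_add, ← pow_add]
    exact pow_eq_pow_of_modEq (Nat.mod_modEq _ _) hu

theorem chiOf_ofAdd_one {𝒪 : Type} [CommRing 𝒪] {m : ℕ} [NeZero m] (u : 𝒪ˣ) (hu : u ^ m = 1) :
    chiOf u hu (Multiplicative.ofAdd 1) = u := by
  change u ^ (1 : ZMod m).val = u
  rw [ZMod.val_one_eq_one_mod]
  conv_rhs => rw [← pow_one u]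
  exact pow_eq_pow_of_modEq (Nat.mod_modEq _ _) hu

theorem dvd_chiOf_sub_one {𝒪 : Type} [CommRing 𝒪] {m : ℕ} [NeZero m] (u : 𝒪ˣ) (hu : u ^ m = 1)
    {ϖ : 𝒪} (hϖ : ϖ ∣ (u : 𝒪) - 1) (x : Multiplicative (ZMod m)) :
    ϖ ∣ (((1 : Multiplicative (ZMod m) →* 𝒪ˣ) x : 𝒪ˣ) : 𝒪) - (chiOf u hu x : 𝒪) := by
  have h1 : (((1 : Multiplicative (ZMod m) →* 𝒪ˣ) x : 𝒪ˣ) : 𝒪) = 1 := rfl
  have h2 : (chiOf u hu x : 𝒪) = (u : 𝒪) ^ (Multiplicative.toAdd x).val := Units.val_pow_eq_pow_val _ _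
  rw [h1, h2, ← neg_sub, dvd_neg]
  exact hϖ.trans (sub_one_dvd_pow_sub_one _ _)

variable {r : ℕ} (m : Fin (r + 1) → ℕ)

/-- `∏_{i ≤ r} = (first factor) × (rest)` -/
def consEquiv : Multiplicative (ZMod (m 0)) × Grp (fun i : Fin r => m i.succ) ≃* Grp m where
  toFun x := Fin.cons (α := fun i => Multiplicative (ZMod (m i))) x.1 x.2
  invFun y := (y 0, fun i => y i.succ)
  left_inv x := by simp
  right_inv y := Fin.cons_self_tail y
  map_mul' x y := funext (Fin.cases rfl (fun i => rfl))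

theorem consEquiv_gen_zero [∀ i, NeZero (m i)] :
    consEquiv m (Multiplicative.ofAdd 1, 1) = gen m 0 := by
  refine funext (Fin.cases ?_ fun i => ?_)
  · have h : gen m 0 0 = Multiplicative.ofAdd 1 := by rw [gen, Pi.mulSingle_eq_same]
    rw [h]
    rfl
  · change (1 : Multiplicative (ZMod (m i.succ))) = _
    rw [gen, Pi.mulSingle_eq_of_ne (Fin.succ_ne_zero i)]

theorem consEquiv_gen_succ [∀ i, NeZero (m i)] (i : Fin r) :
    consEquiv m (1, gen (fun i : Fin r => m i.succ) i) = gen m i.succ := by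
  refine funext (Fin.cases ?_ fun j => ?_)
  · change (1 : Multiplicative (ZMod (m 0))) = _
    rw [gen, Pi.mulSingle_eq_of_ne (Fin.succ_ne_zero i).symm]
  · change gen (fun i : Fin r => m i.succ) i j = _
    rw [gen, gen]
    by_cases h : j = i
    · subst h
      rw [Pi.mulSingle_eq_same, Pi.mulSingle_eq_same]
    · rw [Pi.mulSingle_eq_of_ne h, Pi.mulSingle_eq_of_ne fun h' => h (Fin.succ_injective _ h')]

theorem closure_gen {q : Fin r → ℕ} [∀ i, NeZero (q i)] :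
    Subgroup.closure (Set.range (gen q)) = ⊤ := by
  refine top_le_iff.mp fun g _ => ?_
  rw [eq_prod_gen g]
  exact Subgroup.prod_mem _ fun i _ =>
    Subgroup.pow_mem _ (Subgroup.subset_closure (Set.mem_range_self i)) _

end cons

section inst

open Fermat.Agent.RT Fermat.Agent.RT.TWS Fermat.Agent.RT.TWS.TWP Fermat.Agent.RT.GroupAlg
open Fermat.Agent.UDef (GalQ)
open Fermat.Agent.RT.Wiring (PType dCond)
open Fermat.Agent.RT.TW (TWSet)
open Fermat.Agent.RT.TWInertia (Data)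

variable {𝒪 : Type} [CommRing 𝒪] [IsDomain 𝒪] [IsDiscreteValuationRing 𝒪]
    [IsAdicComplete (maximalIdeal 𝒪) 𝒪] [Finite (ResidueField 𝒪)]
    {p : ℕ} [Fact p.Prime] {ρbar : ResidualGaloisRep (ResidueField 𝒪)}

/-- **Abstract construction of `PairHecke`** from a level with one more prime `V.q 0`. -/
theorem exists_pairHecke {ty : PType} {Smin S : Finset ℕ} {k : ℕ} {v : Fin (k + 1) → Nat.Primes}
    {ϖ ω : 𝒪} {d n r : ℕ} {Q : TWSet ρbar p S n r}
    {DQ : GaloisRep.DeformationRingData 𝒪 ρbar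
      (dCond ty 𝒪 p (Smin ∪ (Finset.univ.image (fun l => (v l : ℕ)) ∪
        Finset.univ.image Q.q)) Smin)}
    {T : ∀ i, Data DQ.ρ (Q.P i) (Q.φ i) (p ^ Q.a i)}
    {N : ℕ} (V : TWP p N (r + 1)) {S' I : Set ℕ} {τ α : ℕ → 𝒪} (hG : V.Good S' I)
    (h2 : IsUnit (2 : 𝒪)) (hp𝒪 : (p : 𝒪) ∈ maximalIdeal 𝒪)
    (h3 : IsUnit (3 : 𝒪) ∨ ∃ s : ℕ, s.Prime ∧ s % 3 = 2 ∧ s ∣ N)
    (ha : ∀ i : Fin r, V.a i.succ = Q.a i)
    (Ψ : DQ.R →ₐ[𝒪] Module.End 𝒪 (V.M' 1 S' τ I α))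
    (hΨD : ∀ f δ, Commute (Ψ f) (dia' hG 1 τ α δ))
    (E1 : ∀ (i : Fin r) z, dia' hG 1 τ α (GroupAlg.gen _ i.succ) z = z →
      Ψ ((T i).g : DQ.R) z = z)
    (E2 : ∀ (i : Fin r) z,
      ∑ j ∈ Finset.range p, dia' hG 1 τ α (GroupAlg.gen _ i.succ ^ j) z = 0 →
      Ψ ((T i).g : DQ.R) z = z → z = 0)
    (hω : ω ^ p ^ V.a 0 = 1) (hϖω : ϖ ∣ ω - 1)
    (hd : ∀ (ι : Type) [Finite ι] (b : Module.Basis (V.Δ × ι) 𝒪 (V.M' 1 S' τ I α)),
      (∀ x k, dia' hG 1 τ α x (b (1, k)) = b (x, k)) → Nat.card ι = d)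
    (support1 : ∀ f : DQ.R, (∀ (K : Type) [Field K] [Algebra 𝒪 K] (y : DQ.R →ₐ[𝒪] K),
      Function.Injective (algebraMap 𝒪 K) →
      (∀ P : ValuationSubring (AlgebraicClosure ℚ), P.LiesOverPrime (v 0 : ℕ) →
        ∀ F : GalQ, P.IsFrobeniusAt F (v 0 : ℕ) →
        (y (LinearMap.trace DQ.R DQ.ρ.V (DQ.ρ.ρ F)) = ((v 0 : ℕ) : K) + 1 ∨
          y (LinearMap.trace DQ.R DQ.ρ.V (DQ.ρ.ρ F)) = -(((v 0 : ℕ) : K) + 1))) → y f = 0) →
      ∀ z : V.M' 1 S' τ I α, dia' hG 1 τ α (GroupAlg.gen _ 0) z = z → Ψ f z = 0)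
    (supportχ : ∀ f : DQ.R, (∀ (K : Type) [Field K] [Algebra 𝒪 K] (y : DQ.R →ₐ[𝒪] K),
      Function.Injective (algebraMap 𝒪 K) →
      (∀ P : ValuationSubring (AlgebraicClosure ℚ), P.LiesOverPrime (v 0 : ℕ) →
        ∃ σ ∈ P.inertiaSubgroupIn ℚ, y (LinearMap.trace DQ.R DQ.ρ.V (DQ.ρ.ρ σ)) ≠ 2) →
      (∀ l : Fin k, ∀ P : ValuationSubring (AlgebraicClosure ℚ),
        P.LiesOverPrime (v l.succ : ℕ) → ∀ σ ∈ P.inertiaSubgroupIn ℚ,
        y (LinearMap.trace DQ.R DQ.ρ.V (DQ.ρ.ρ σ)) = 2) → y f = 0) →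
      ∀ z : V.M' 1 S' τ I α, dia' hG 1 τ α (GroupAlg.gen _ 0) z = ω • z → Ψ f z = 0) :
    Nonempty (PairHecke ty 𝒪 p ρbar Smin v ϖ d Q DQ T) := by
  classical
  have hp : p.Prime := Fact.out
  have hne : ∀ i, NeZero (p ^ V.a i) := fun i => ⟨pow_ne_zero _ hp.ne_zero⟩
  have hne' : ∀ i : Fin r, NeZero (p ^ V.a i.succ) := fun i => ⟨pow_ne_zero _ hp.ne_zero⟩
  -- the group
  let Δ₁ : Type := Multiplicative (ZMod (p ^ V.a 0))
  let Δ₂ : Type := Grp (fun i : Fin r => p ^ V.a i.succ)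
  let e : Δ₁ × Δ₂ ≃* V.Δ := consEquiv fun i => p ^ V.a i
  have : Finite Δ₁ := inferInstanceAs (Finite (ZMod (p ^ V.a 0)))
  have : Finite Δ₂ := by
    have : ∀ i : Fin r, Finite (Multiplicative (ZMod (p ^ V.a i.succ))) := fun i =>
      inferInstanceAs (Finite (ZMod (p ^ V.a i.succ)))
    exact Pi.finite
  letI : Fintype Δ₁ := Fintype.ofFinite _
  letI : Fintype Δ₂ := Fintype.ofFinite _
  -- the module
  letI : Module DQ.R (V.M' 1 S' τ I α) := Module.compHom _ Ψ.toRingHom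
  have hsm : ∀ (f : DQ.R) (z : V.M' 1 S' τ I α), f • z = Ψ f z := fun _ _ => rfl
  have htower : IsScalarTower 𝒪 DQ.R (V.M' 1 S' τ I α) := ⟨fun c f z => by
    rw [hsm, hsm, map_smul, LinearMap.smul_apply]⟩
  let D : Δ₁ × Δ₂ →* Module.End 𝒪 (V.M' 1 S' τ I α) := (dia' hG 1 τ α).comp e.toMonoidHom
  have hDe : ∀ x, D x = dia' hG 1 τ α (e x) := fun _ => rfl
  have hD : ∀ x (f : DQ.R) z, D x (f • z) = f • D x z := by
    intro x f z
    rw [hsm, hsm, hDe]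
    have h := LinearMap.congr_fun (hΨD f (e x)).eq z
    rw [Module.End.mul_apply, Module.End.mul_apply] at h
    exact h.symm
  -- the basis
  obtain ⟨ι, hι, b, hb⟩ := (repFree (t := τ) (α := α) hG h2 hp𝒪 h3).exists_basis
  letI : Fintype ι := Fintype.ofFinite _
  let B : Module.Basis (ι × (Δ₁ × Δ₂)) 𝒪 (V.M' 1 S' τ I α) :=
    b.reindex ((Equiv.prodComm V.Δ ι).trans (Equiv.prodCongr (Equiv.refl ι) e.symm.toEquiv))
  have hB : ∀ i δ, B (i, δ) = D δ (b (1, i)) := by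
    intro i δ
    rw [hDe, hb]
    simp [B]
  let ωu : 𝒪ˣ := Units.ofPowEqOne ω (p ^ V.a 0) hω (hne 0).out
  have hωu : (ωu : 𝒪) = ω := rfl
  have hωu1 : ωu ^ p ^ V.a 0 = 1 := Units.ext (by rw [Units.val_pow_eq_pow_val, hωu, hω]; rfl)
  let χ : Δ₁ →* 𝒪ˣ := chiOf ωu hωu1
  have hgen0 : e (Multiplicative.ofAdd 1, 1) = GroupAlg.gen (fun i => p ^ V.a i) 0 :=
    consEquiv_gen_zero _
  have hgenS : ∀ i : Fin r, e (1, GroupAlg.gen (fun i : Fin r => p ^ V.a i.succ) i) =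
      GroupAlg.gen (fun i => p ^ V.a i) i.succ := fun i => consEquiv_gen_succ _ i
  have ho : ∀ i, orderOf (GroupAlg.gen (fun i : Fin r => p ^ V.a i.succ) i) = p ^ Q.a i := by
    intro i
    rw [← ha]
    exact orderOf_gen _ i
  have hcard : Nat.card Δ₂ = ∏ i, p ^ Q.a i := by
    rw [Nat.card_pi]
    refine Finset.prod_congr rfl fun i _ => ?_
    rw [← ha]
    exact Nat.card_zmod _
  have E1' : ∀ (i : Fin r) z, D (1, GroupAlg.gen (fun i : Fin r => p ^ V.a i.succ) i) z = z →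
      ((T i).g : DQ.R) • z = z := by
    intro i z h
    rw [hDe, hgenS] at h
    exact E1 i z h
  have E2' : ∀ (i : Fin r) z, ∑ j ∈ Finset.range p,
      D (1, GroupAlg.gen (fun i : Fin r => p ^ V.a i.succ) i ^ j) z = 0 →
      ((T i).g : DQ.R) • z = z → z = 0 := by
    intro i z h
    refine E2 i z ?_
    rw [← h]
    refine Finset.sum_congr rfl fun j _ => ?_
    rw [hDe, ← hgenS, ← map_pow, Prod.pow_mk, one_pow]
  obtain ⟨iso⟩ := exists_iso D hD B hB 1 χ ϖ (dvd_chiOf_sub_one ωu hωu1 (by rw [hωu]; exact hϖω))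
  exact ⟨{
    M1 := levelMod D hD B hB p Q.a _ _ ho closure_gen hcard E1' E2' (hd ι b hb) 1
    Mχ := levelMod D hD B hB p Q.a _ _ ho closure_gen hcard E1' E2' (hd ι b hb) χ
    iso := iso
    support1 := fun f hf u => by
      refine Subtype.ext (support1 f hf u.1 ?_)
      have h := u.2 (Multiplicative.ofAdd 1)
      rw [hDe, hgen0] at h
      rw [h]
      exact one_smul _ _
    supportχ := fun f hf u => by
      refine Subtype.ext (supportχ f hf u.1 ?_)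
      have h := u.2 (Multiplicative.ofAdd 1)
      rw [hDe, hgen0] at h
      rw [h, chiOf_ofAdd_one, hωu] }⟩

/-- the rank hypothesis of `exists_pairHecke` from the rank over `𝒪` -/
theorem card_eq_of_finrank {N r : ℕ} {V : TWP p N r} {S' I : Set ℕ} {τ α : ℕ → 𝒪} {d : ℕ}
    (h : Module.finrank 𝒪 (V.M' 1 S' τ I α) = d * ∏ i, p ^ V.a i)
    (ι : Type) [Finite ι] (b : Module.Basis (V.Δ × ι) 𝒪 (V.M' 1 S' τ I α)) : Nat.card ι = d := by
  classical
  have hp : p.Prime := Fact.out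
  letI : Fintype ι := Fintype.ofFinite _
  letI : Fintype V.Δ := Fintype.ofFinite _
  rw [Module.finrank_eq_card_basis b, Fintype.card_prod, ← Nat.card_eq_fintype_card,
    V.card_Δ, ← Nat.card_eq_fintype_card, mul_comm] at h
  exact Nat.eq_of_mul_eq_mul_right (Finset.prod_pos fun i _ => pow_pos hp.pos _) h

end inst

end Fermat.Agent.IH
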