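import Fermat.Agent.IH.PairData
import Fermat.Agent.RT.GroupRing

/-!
# Matrix data out of module-theoretic data at a Taylor–Wiles level
-/

set_option autoImplicit false
set_option linter.unusedSectionVars false

open IsLocalRing Fermat.Agent.RT.ULim MvPowerSeries Fermat.Agent.RT.MvEval
open Fermat.Agent.RT.GroupAlg Fermat.Agent.RT.TWLevel
open scoped Pointwise

namespace Fermat.Agent.IH

section basis

theorem exists_basis_of_span {Λ : Type*} [CommRing Λ] [Nontrivial Λ] {M : Type*} [AddCommGroup M]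
    [Module Λ M] [Module.Free Λ M] [Module.Finite Λ M] {d : ℕ} (v : Fin d → M)
    (hv : Submodule.span Λ (Set.range v) = ⊤) (hd : d = Module.finrank Λ M) :
    ∃ b : Module.Basis (Fin d) Λ M, ∀ i, b i = v i := by
  subst hd
  let b0 : Module.Basis (Fin (Module.finrank Λ M)) Λ M := Module.finBasis Λ M
  let t : M →ₗ[Λ] M := b0.constr Λ v
  have ht : Function.Surjective t := by
    rw [← LinearMap.range_eq_top, Module.Basis.constr_range, hv]
  have ht' : Function.Bijective t :=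
    OrzechProperty.bijective_of_surjective_endomorphism t ht
  refine ⟨b0.map (LinearEquiv.ofBijective t ht'), fun i => ?_⟩
  rw [Module.Basis.map_apply, LinearEquiv.ofBijective_apply, Module.Basis.constr_basis]

theorem span_eq_top_of_le {Λ : Type*} [CommRing Λ] [IsLocalRing Λ] {M : Type*} [AddCommGroup M]
    [Module Λ M] [Module.Finite Λ M] {d : ℕ} (v : Fin d → M)
    (h : ∀ x : M, ∃ y ∈ Submodule.span Λ (Set.range v),
      x - y ∈ maximalIdeal Λ • (⊤ : Submodule Λ M)) :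
    Submodule.span Λ (Set.range v) = ⊤ := by
  rw [eq_top_iff]
  refine Submodule.le_of_le_smul_of_le_jacobson_bot (I := maximalIdeal Λ)
    (Module.Finite.fg_top) (IsLocalRing.maximalIdeal_le_jacobson _) ?_
  intro x _
  obtain ⟨y, hy, hxy⟩ := h x
  have := Submodule.add_mem_sup hy hxy
  rwa [add_sub_cancel] at this

theorem finrank_le_of_span {Λ : Type*} [CommRing Λ] [Nontrivial Λ] {M : Type*} [AddCommGroup M]
    [Module Λ M] [Module.Free Λ M] {d : ℕ} (v : Fin d → M)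
    (hv : Submodule.span Λ (Set.range v) = ⊤) : Module.finrank Λ M ≤ d := by
  have h := finrank_range_le_card (R := Λ) v
  rw [Set.finrank, hv, finrank_top, Fintype.card_fin] at h
  exact h

end basis

section level

variable {𝒪 : Type} [CommRing 𝒪] [IsDomain 𝒪] [IsDiscreteValuationRing 𝒪]
    [IsAdicComplete (maximalIdeal 𝒪) 𝒪] [Finite (ResidueField 𝒪)] {p : ℕ} [hpp : Fact p.Prime]
    {r : ℕ} (a : Fin r → ℕ)

/-- the group algebra -/
abbrev Lam (𝒪 : Type) [CommRing 𝒪] (p : ℕ) {r : ℕ} (a : Fin r → ℕ) : Type :=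
  MonoidAlgebra 𝒪 (Grp fun i => p ^ a i)

/-- augmentation -/
noncomputable def augL : Lam 𝒪 p a →ₐ[𝒪] 𝒪 := MonoidAlgebra.lift 𝒪 𝒪 _ 1

theorem augL_of (g : Grp fun i => p ^ a i) : augL (𝒪 := 𝒪) a (MonoidAlgebra.of 𝒪 _ g) = 1 := by
  simp [augL]

/-- compatibility of the augmentations -/
theorem constantCoeff_eq_augL (l : Lam 𝒪 p a) (s : MvPowerSeries (Fin r) 𝒪)
    (h : F (𝒪 := 𝒪) (p := p) a l = Ideal.Quotient.mk (idealJ 𝒪 p a) s) :
    constantCoeff s = augL a l := by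
  let κ : (MvPowerSeries (Fin r) 𝒪 ⧸ idealJ 𝒪 p a) →ₐ[𝒪] 𝒪 :=
    Ideal.Quotient.liftₐ (idealJ 𝒪 p a)
      ({ (constantCoeff : MvPowerSeries (Fin r) 𝒪 →+* 𝒪) with
        commutes' := fun c => by
          change constantCoeff (C c) = c
          simp } : MvPowerSeries (Fin r) 𝒪 →ₐ[𝒪] 𝒪)
      (fun f hf => constantCoeff_eq_zero_of_mem_idealJ hf)
  have hκ : ∀ s, κ (Ideal.Quotient.mk (idealJ 𝒪 p a) s) = constantCoeff s := fun s => rfl
  have h1 : κ.comp (F (𝒪 := 𝒪) (p := p) a) = augL a := by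
    refine MonoidAlgebra.algHom_ext ?_ (Subsingleton.elim _ _)
    intro g
    have h2 : augL (𝒪 := 𝒪) (p := p) a (MonoidAlgebra.single g 1) = 1 := augL_of a g
    rw [h2, AlgHom.comp_apply]
    have h3 : F (𝒪 := 𝒪) (p := p) a (MonoidAlgebra.single g 1) =
        Ideal.Quotient.mk (idealJ 𝒪 p a) (∏ i, (1 + X i) ^ expo _ g i) := by
      rw [F, MonoidAlgebra.lift_single, one_smul, powHom_apply, map_prod]
      simp only [map_pow]
    rw [h3, hκ, map_prod]
    refine Finset.prod_eq_one fun i _ => ?_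
    rw [map_pow, map_add, map_one, constantCoeff_X, add_zero, one_pow]
  rw [← hκ, ← h, ← h1]
  rfl

variable {R' : Type} [CommRing R'] [Algebra 𝒪 R'] (δ : (Grp fun i => p ^ a i) →* R')

/-- the map from the group algebra -/
noncomputable def Fd : Lam 𝒪 p a →ₐ[𝒪] R' := MonoidAlgebra.lift 𝒪 _ _ δ

theorem Fd_of (g : Grp fun i => p ^ a i) :
    Fd (𝒪 := 𝒪) a δ (MonoidAlgebra.of 𝒪 _ g) = δ g := by
  simp [Fd]

variable {M : Type} [AddCommGroup M] [Module R' M] [Module (Lam 𝒪 p a) M]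

theorem Fd_smul (hG : ∀ (g : Grp fun i => p ^ a i) (x : M), MonoidAlgebra.of 𝒪 _ g • x = δ g • x)
    (h𝒪 : ∀ (c : 𝒪) (x : M), algebraMap 𝒪 (Lam 𝒪 p a) c • x = algebraMap 𝒪 R' c • x)
    (l : Lam 𝒪 p a) (x : M) : l • x = Fd a δ l • x := by
  induction l using MonoidAlgebra.induction_on with
  | of g => rw [hG, Fd_of]
  | add f g hf hg => rw [add_smul, hf, hg, map_add, add_smul]
  | smul c f hf =>
    rw [Algebra.smul_def, mul_smul, h𝒪, hf, map_mul, AlgHom.commutes, mul_smul]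

/-- the action of `R'` as a ring hom to matrices over the group algebra -/
theorem exists_matHom (hl : ∀ (l : Lam 𝒪 p a) (x : M), l • x = Fd a δ l • x) {d : ℕ}
    (b : Module.Basis (Fin d) (Lam 𝒪 p a) M) :
    ∃ c : R' →+* Matrix (Fin d) (Fin d) (Lam 𝒪 p a),
      (∀ f j, f • b j = ∑ i, c f i j • b i) ∧
      (∀ f, (∀ x : M, f • x = 0) → c f = 0) ∧
      (∀ l, c (Fd a δ l) = Matrix.scalar (Fin d) l) := by
  classical
  let end' : R' →+* Module.End (Lam 𝒪 p a) M :=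
    { toFun := fun f =>
        { toFun := fun x => f • x
          map_add' := fun x y => smul_add _ _ _
          map_smul' := fun l x => by
            rw [RingHom.id_apply, hl, hl, smul_smul, smul_smul, mul_comm] }
      map_one' := by ext x; exact one_smul _ _
      map_mul' := fun f g => by ext x; exact mul_smul _ _ _
      map_zero' := by ext x; exact zero_smul _ _
      map_add' := fun f g => by ext x; exact add_smul _ _ _ }
  have hend : ∀ f x, end' f x = f • x := fun _ _ => rfl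
  refine ⟨((LinearMap.toMatrixAlgEquiv b : Module.End (Lam 𝒪 p a) M ≃ₐ[Lam 𝒪 p a] _) :
    Module.End (Lam 𝒪 p a) M →+* Matrix (Fin d) (Fin d) (Lam 𝒪 p a)).comp end', ?_, ?_, ?_⟩
  · intro f j
    rw [← hend]
    conv_lhs => rw [← b.sum_repr (end' f (b j))]
    refine Finset.sum_congr rfl fun i _ => ?_
    congr 1
    change _ = LinearMap.toMatrixAlgEquiv b (end' f) i j
    rw [LinearMap.toMatrixAlgEquiv_apply]
  · intro f hf
    have h1 : end' f = 0 := by
      ext x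
      exact hf x
    change LinearMap.toMatrixAlgEquiv b (end' f) = 0
    rw [h1, map_zero]
  · intro l
    have h1 : end' (Fd a δ l) = algebraMap (Lam 𝒪 p a) (Module.End (Lam 𝒪 p a) M) l := by
      ext x
      rw [hend, ← hl, Module.algebraMap_end_apply]
    change LinearMap.toMatrixAlgEquiv b (end' (Fd a δ l)) = _
    rw [h1, AlgEquiv.commutes]
    rfl

/-- quotient by `ϖ` : membership -/
theorem mem_smul_top_iff (h𝒪 : ∀ (c : 𝒪) (x : M),
    algebraMap 𝒪 (Lam 𝒪 p a) c • x = algebraMap 𝒪 R' c • x) (ϖ : 𝒪) (x : M) :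
    x ∈ (algebraMap 𝒪 R' ϖ) • (⊤ : Submodule R' M) ↔
      ∃ w : M, x = algebraMap 𝒪 (Lam 𝒪 p a) ϖ • w := by
  rw [Submodule.mem_smul_pointwise_iff_exists]
  constructor
  · rintro ⟨w, -, rfl⟩
    exact ⟨w, (h𝒪 ϖ w).symm⟩
  · rintro ⟨w, rfl⟩
    exact ⟨w, trivial, (h𝒪 ϖ w).symm⟩

theorem isLocalRing_Lam (hp𝒪 : (p : 𝒪) ∈ maximalIdeal 𝒪) : IsLocalRing (Lam 𝒪 p a) := by
  refine Fermat.Agent.RT.GR.isLocalRing_monoidAlgebra (p := p) ?_ hp𝒪
  intro g
  refine ⟨∑ i, a i, ?_⟩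
  funext i
  rw [Pi.pow_apply, Pi.one_apply]
  have h1 : (g i) ^ (p ^ a i) = 1 := by
    have := pow_card_eq_one' (x := g i)
    rwa [Nat.card_eq_fintype_card, Fintype.card_multiplicative, ZMod.card] at this
  obtain ⟨t, ht⟩ := pow_dvd_pow p (Finset.single_le_sum (f := a) (fun _ _ => Nat.zero_le _)
    (Finset.mem_univ i))
  rw [ht, pow_mul, h1, one_pow]

theorem algebraMap_mem_maximalIdeal_Lam [IsLocalRing (Lam 𝒪 p a)] {c : 𝒪}
    (hc : c ∈ maximalIdeal 𝒪) : algebraMap 𝒪 (Lam 𝒪 p a) c ∈ maximalIdeal (Lam 𝒪 p a) := by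
  rw [mem_maximalIdeal, mem_nonunits_iff]
  intro hu
  have := hu.map (augL (𝒪 := 𝒪) (p := p) a)
  rw [AlgHom.commutes] at this
  exact (mem_maximalIdeal c).mp hc this

theorem of_sub_one_mem_maximalIdeal_Lam [IsLocalRing (Lam 𝒪 p a)] (g : Grp fun i => p ^ a i) :
    MonoidAlgebra.of 𝒪 _ g - 1 ∈ maximalIdeal (Lam 𝒪 p a) := by
  rw [mem_maximalIdeal, mem_nonunits_iff]
  intro hu
  have := hu.map (augL (𝒪 := 𝒪) (p := p) a)
  rw [map_sub, augL_of, map_one, sub_self] at this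
  exact not_isUnit_zero this

variable {Mχ : Type} [AddCommGroup Mχ] [Module R' Mχ] [Module (Lam 𝒪 p a) Mχ]

/-- transfer of a spanning family through an isomorphism modulo `ϖ` -/
theorem exists_transfer [IsLocalRing (Lam 𝒪 p a)]
    [Module.Finite (Lam 𝒪 p a) Mχ]
    (hl1 : ∀ (l : Lam 𝒪 p a) (x : M), l • x = Fd a δ l • x)
    (h𝒪χ : ∀ (c : 𝒪) (x : Mχ), algebraMap 𝒪 (Lam 𝒪 p a) c • x = algebraMap 𝒪 R' c • x)
    (hlχ : ∀ (l : Lam 𝒪 p a) (x : Mχ), l • x = Fd a δ l • x)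
    {ϖ : 𝒪} (hϖ : ϖ ∈ maximalIdeal 𝒪)
    (iso : QuotSMulTop (algebraMap 𝒪 R' ϖ) M ≃ₗ[R'] QuotSMulTop (algebraMap 𝒪 R' ϖ) Mχ)
    {d : ℕ} (v : Fin d → M) (hv : Submodule.span (Lam 𝒪 p a) (Set.range v) = ⊤) :
    ∃ w : Fin d → Mχ, Submodule.span (Lam 𝒪 p a) (Set.range w) = ⊤ ∧
      ∀ j, iso (Submodule.Quotient.mk (v j)) = Submodule.Quotient.mk (w j) := by
  choose w hw using fun j => Submodule.Quotient.mk_surjective _ (iso (Submodule.Quotient.mk (v j)))
  refine ⟨w, ?_, fun j => (hw j).symm⟩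
  refine span_eq_top_of_le w fun x => ?_
  obtain ⟨y, hy⟩ := Submodule.Quotient.mk_surjective _ (iso.symm (Submodule.Quotient.mk x))
  have hy' : y ∈ Submodule.span (Lam 𝒪 p a) (Set.range v) := by rw [hv]; trivial
  obtain ⟨c, hc⟩ := (Submodule.mem_span_range_iff_exists_fun _).mp hy'
  refine ⟨∑ j, c j • w j, ?_, ?_⟩
  · exact Submodule.sum_mem _ fun j _ => Submodule.smul_mem _ _ (Submodule.subset_span ⟨j, rfl⟩)
  · have h1 : (Submodule.Quotient.mk x : QuotSMulTop (algebraMap 𝒪 R' ϖ) Mχ) =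
        Submodule.Quotient.mk (∑ j, c j • w j) := by
      have h2 : iso (Submodule.Quotient.mk y) = Submodule.Quotient.mk x := by
        rw [hy, LinearEquiv.apply_symm_apply]
      rw [← h2, ← hc]
      have h3 : (∑ j, c j • v j) = ∑ j, Fd a δ (c j) • v j :=
        Finset.sum_congr rfl fun j _ => hl1 _ _
      have h4 : (∑ j, c j • w j) = ∑ j, Fd a δ (c j) • w j :=
        Finset.sum_congr rfl fun j _ => hlχ _ _
      rw [h3, h4, ← Submodule.mkQ_apply, ← Submodule.mkQ_apply, map_sum, map_sum, map_sum]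
      refine Finset.sum_congr rfl fun j _ => ?_
      rw [map_smul, map_smul, map_smul, Submodule.mkQ_apply, Submodule.mkQ_apply, hw]
    rw [Submodule.Quotient.eq, mem_smul_top_iff a h𝒪χ] at h1
    obtain ⟨u, hu⟩ := h1
    rw [hu]
    exact Submodule.smul_mem_smul (algebraMap_mem_maximalIdeal_Lam a hϖ) trivial

end level

end Fermat.Agent.IH
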