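import Mathlib
import Fermat.Agent.RT.PatchingLimit

/-!
# Ultrafilter limits of sequences in quotients `S ⧸ J n` with `J n → 0`, and limits of
ring homs `PP → Mat_d (S ⧸ J n)`.
-/

set_option autoImplicit false

open Filter IsLocalRing Fermat.Agent.RT.ULim

namespace Fermat.Agent.IH

section closed

theorem mem_of_forall_mem_sup {S : Type*} [CommRing S] [IsLocalRing S] [IsNoetherianRing S]
    (I : Ideal S) (x : S) (h : ∀ k : ℕ, x ∈ I ⊔ maximalIdeal S ^ k) : x ∈ I := by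
  by_cases hI : I = ⊤
  · rw [hI]; trivial
  have hnt : Nontrivial (S ⧸ I) := Ideal.Quotient.nontrivial_iff.mpr hI
  have hloc : IsLocalRing (S ⧸ I) :=
    IsLocalRing.of_surjective' (Ideal.Quotient.mk I) Ideal.Quotient.mk_surjective
  have hu : UHaus (maximalIdeal (S ⧸ I)) := uHaus_maximalIdeal
  rw [← Ideal.Quotient.eq_zero_iff_mem]
  apply hu
  intro k
  have h1 : (maximalIdeal S ^ k).map (Ideal.Quotient.mk I) ≤ maximalIdeal (S ⧸ I) ^ k := by
    rw [Ideal.map_pow]
    exact Ideal.pow_right_mono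
      (IsLocalRing.map_maximalIdeal_of_surjective _ Ideal.Quotient.mk_surjective).le k
  obtain ⟨a, ha, b, hb, hab⟩ := Submodule.mem_sup.mp (h k)
  rw [← hab, map_add, Ideal.Quotient.eq_zero_iff_mem.mpr ha, zero_add]
  exact h1 (Ideal.mem_map_of_mem _ hb)

end closed

section TQ

variable {S : Type*} [CommRing S] [IsLocalRing S]

/-- `x n ∈ S ⧸ J n` tends to `L ∈ S` along `𝓤`. -/
def TQ (𝓤 : Ultrafilter ℕ) (J : ℕ → Ideal S) (x : ∀ n, S ⧸ J n) (L : S) : Prop :=
  ∀ k : ℕ, ∀ᶠ n in (𝓤 : Filter ℕ), ∃ s : S, Ideal.Quotient.mk (J n) s = x n ∧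
    s - L ∈ maximalIdeal S ^ k

variable {𝓤 : Ultrafilter ℕ} {J : ℕ → Ideal S}

theorem TQ.exists (hS : HasULim 𝓤 (maximalIdeal S)) (x : ∀ n, S ⧸ J n) : ∃ L, TQ 𝓤 J x L := by
  choose s hs using fun n => Ideal.Quotient.mk_surjective (x n)
  obtain ⟨L, hL⟩ := hS s
  exact ⟨L, fun k => (hL k).mono fun n hn => ⟨s n, hs n, hn⟩⟩

theorem TQ.const (a : S) : TQ 𝓤 J (fun n => Ideal.Quotient.mk (J n) a) a := fun k =>
  Eventually.of_forall fun n => ⟨a, rfl, by simp⟩

theorem TQ.add {x y : ∀ n, S ⧸ J n} {L L' : S} (h : TQ 𝓤 J x L) (h' : TQ 𝓤 J y L') :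
    TQ 𝓤 J (fun n => x n + y n) (L + L') := fun k => by
  filter_upwards [h k, h' k] with n h1 h2
  obtain ⟨s, hs, hs'⟩ := h1
  obtain ⟨t, ht, ht'⟩ := h2
  refine ⟨s + t, by rw [map_add, hs, ht], ?_⟩
  have := (maximalIdeal S ^ k).add_mem hs' ht'
  have h3 : s - L + (t - L') = s + t - (L + L') := by ring
  rwa [h3] at this

theorem TQ.neg {x : ∀ n, S ⧸ J n} {L : S} (h : TQ 𝓤 J x L) :
    TQ 𝓤 J (fun n => - x n) (- L) := fun k => by
  filter_upwards [h k] with n h1
  obtain ⟨s, hs, hs'⟩ := h1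
  refine ⟨- s, by rw [map_neg, hs], ?_⟩
  have := (maximalIdeal S ^ k).neg_mem hs'
  have h3 : -(s - L) = - s - (- L) := by ring
  rwa [h3] at this

theorem TQ.sub {x y : ∀ n, S ⧸ J n} {L L' : S} (h : TQ 𝓤 J x L) (h' : TQ 𝓤 J y L') :
    TQ 𝓤 J (fun n => x n - y n) (L - L') := by
  simpa only [sub_eq_add_neg] using h.add h'.neg

theorem TQ.mul {x y : ∀ n, S ⧸ J n} {L L' : S} (h : TQ 𝓤 J x L) (h' : TQ 𝓤 J y L') :
    TQ 𝓤 J (fun n => x n * y n) (L * L') := fun k => by
  filter_upwards [h k, h' k] with n h1 h2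
  obtain ⟨s, hs, hs'⟩ := h1
  obtain ⟨t, ht, ht'⟩ := h2
  refine ⟨s * t, by rw [map_mul, hs, ht], ?_⟩
  have := (maximalIdeal S ^ k).add_mem ((maximalIdeal S ^ k).mul_mem_right t hs')
    ((maximalIdeal S ^ k).mul_mem_left L ht')
  have h3 : (s - L) * t + L * (t - L') = s * t - L * L' := by ring
  rwa [h3] at this

theorem TQ.sum {ι : Type*} (s : Finset ι) {x : ι → ∀ n, S ⧸ J n} {L : ι → S}
    (h : ∀ i ∈ s, TQ 𝓤 J (x i) (L i)) :
    TQ 𝓤 J (fun n => ∑ i ∈ s, x i n) (∑ i ∈ s, L i) := by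
  classical
  induction s using Finset.induction_on with
  | empty =>
    simp only [Finset.sum_empty]
    have := TQ.const (𝓤 := 𝓤) (J := J) (0 : S)
    simpa only [map_zero] using this
  | insert i s hi ih =>
    simp only [Finset.sum_insert hi]
    exact (h i (Finset.mem_insert_self _ _)).add
      (ih fun j hj => h j (Finset.mem_insert_of_mem hj))

/-- membership in a closed ideal passes to the limit -/
theorem TQ.mem_of_forall [IsNoetherianRing S] (I : Ideal S)
    (hJ : ∀ k, ∀ᶠ n in (𝓤 : Filter ℕ), J n ≤ maximalIdeal S ^ k)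
    {x : ∀ n, S ⧸ J n} {L : S} (h : TQ 𝓤 J x L)
    (hx : ∀ n, x n ∈ I.map (Ideal.Quotient.mk (J n))) : L ∈ I := by
  apply mem_of_forall_mem_sup
  intro k
  obtain ⟨n, ⟨s, hs, hs'⟩, h2⟩ := ((h k).and (hJ k)).exists
  have h3 : s ∈ I ⊔ J n := by
    have h4 := hx n
    rw [← hs] at h4
    have h5 : s ∈ (I.map (Ideal.Quotient.mk (J n))).comap (Ideal.Quotient.mk (J n)) := h4
    rwa [Ideal.comap_map_of_surjective _ Ideal.Quotient.mk_surjective, ← RingHom.ker_eq_comap_bot,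
      Ideal.mk_ker] at h5
  have h6 : s ∈ I ⊔ maximalIdeal S ^ k := (sup_le_sup_left h2 I) h3
  have h7 : s - L ∈ I ⊔ maximalIdeal S ^ k := (le_sup_right (a := I)) hs'
  have := sub_mem h6 h7
  rwa [sub_sub_cancel] at this

theorem TQ.unique [IsNoetherianRing S]
    (hJ : ∀ k, ∀ᶠ n in (𝓤 : Filter ℕ), J n ≤ maximalIdeal S ^ k)
    {x : ∀ n, S ⧸ J n} {L L' : S} (h : TQ 𝓤 J x L) (h' : TQ 𝓤 J x L') : L = L' := by
  have h1 := (h.sub h').mem_of_forall ⊥ hJ (fun n => by rw [sub_self]; exact zero_mem _)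
  rwa [Ideal.mem_bot, sub_eq_zero] at h1

theorem TQ.congr {x y : ∀ n, S ⧸ J n} {L : S} (h : TQ 𝓤 J x L) (hxy : ∀ n, x n = y n) :
    TQ 𝓤 J y L := by
  have : x = y := funext hxy
  rwa [← this]

/-- image of a limit under a ring hom to a local ring -/
theorem TQ.map {B : Type*} [CommRing B] [IsLocalRing B] (κ : S →+* B) [IsLocalHom κ]
    {x : ∀ n, S ⧸ J n} {L : S} (h : TQ 𝓤 J x L) (y : ℕ → B)
    (hy : ∀ n s, Ideal.Quotient.mk (J n) s = x n → κ s = y n) :
    TendsU 𝓤 (maximalIdeal B) y (κ L) := fun k => by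
  filter_upwards [h k] with n hn
  obtain ⟨s, hs, hs'⟩ := hn
  rw [← hy n s hs, ← map_sub]
  have h1 : (maximalIdeal S ^ k).map κ ≤ maximalIdeal B ^ k := by
    rw [Ideal.map_pow]
    have h0 : (maximalIdeal S).map κ ≤ maximalIdeal B := by
      rw [Ideal.map_le_iff_le_comap]
      intro x hx
      rw [Ideal.mem_comap, mem_maximalIdeal, mem_nonunits_iff]
      intro hu
      exact (mem_maximalIdeal x).mp hx (isUnit_of_map_unit κ x hu)
    exact Ideal.pow_right_mono h0 k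
  exact h1 (Ideal.mem_map_of_mem _ hs')

end TQ

section cont

set_option linter.unusedSectionVars false

variable {S PP : Type} [CommRing S] [IsLocalRing S] [IsNoetherianRing S]
  [Finite (ResidueField S)] [CommRing PP] [IsLocalRing PP] {d : ℕ}

/-- the module over `PP` defined by a ring hom to a matrix ring -/
@[nolint unusedArguments]
def MV {B PP : Type} [CommRing B] [CommRing PP] {d : ℕ}
    (_c : PP →+* Matrix (Fin d) (Fin d) B) : Type := Fin d → B

namespace MV

variable {B PP : Type} [CommRing B] [CommRing PP] {d : ℕ} (c : PP →+* Matrix (Fin d) (Fin d) B)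

noncomputable instance : AddCommGroup (MV c) := inferInstanceAs (AddCommGroup (Fin d → B))

noncomputable instance : Module B (MV c) := inferInstanceAs (Module B (Fin d → B))

/-- the underlying ring hom -/
noncomputable def toEnd : PP →+* Module.End B (Fin d → B) :=
  ((Matrix.toLinAlgEquiv' : Matrix (Fin d) (Fin d) B ≃ₐ[B] _) :
    Matrix (Fin d) (Fin d) B →+* Module.End B (Fin d → B)).comp c

theorem toEnd_apply (f : PP) (v : Fin d → B) : toEnd c f v = (c f).mulVec v := rfl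

noncomputable instance : Module PP (MV c) :=
  Module.compHom (Fin d → B) (toEnd c)

theorem smul_def (f : PP) (v : MV c) : f • v = ((c f).mulVec (show Fin d → B from v) :) := rfl

end MV

/-- uniform continuity -/
theorem map_mem_of_mem_pow {J : Ideal S} (c : PP →+* Matrix (Fin d) (Fin d) (S ⧸ J)) (k : ℕ)
    (hJ : J ≤ maximalIdeal S ^ k) (f : PP)
    (hf : f ∈ maximalIdeal PP ^ (Nat.card (S ⧸ maximalIdeal S ^ k) ^ d)) (i j : Fin d) :
    c f i j ∈ (maximalIdeal S ^ k).map (Ideal.Quotient.mk J) := by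
  classical
  have hfin : Finite (S ⧸ maximalIdeal S ^ k) := finite_quotient_pow k
  let q : (S ⧸ J) →+* (S ⧸ maximalIdeal S ^ k) := Ideal.Quotient.factor hJ
  let c' : PP →+* Matrix (Fin d) (Fin d) (S ⧸ maximalIdeal S ^ k) := (q.mapMatrix).comp c
  have hfin' : Finite (MV c') := inferInstanceAs (Finite (Fin d → (S ⧸ maximalIdeal S ^ k)))
  have hcard : Nat.card (MV c') = Nat.card (S ⧸ maximalIdeal S ^ k) ^ d := by
    change Nat.card (Fin d → (S ⧸ maximalIdeal S ^ k)) = _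
    rw [Nat.card_fun, Nat.card_fin]
  have h1 := Fermat.Agent.RT.Patch.pow_smul_top_eq_bot (S := PP)
    (Nat.card (S ⧸ maximalIdeal S ^ k) ^ d) (MV c') (by rw [hcard]; exact Nat.lt_two_pow_self)
  have h2 : f • (show MV c' from (Pi.single j 1 : Fin d → (S ⧸ maximalIdeal S ^ k))) = 0 := by
    have h3 : f • (show MV c' from (Pi.single j 1 : Fin d → (S ⧸ maximalIdeal S ^ k))) ∈
        maximalIdeal PP ^ (Nat.card (S ⧸ maximalIdeal S ^ k) ^ d) •
          (⊤ : Submodule PP (MV c')) := Submodule.smul_mem_smul hf trivial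
    rwa [h1, Submodule.mem_bot] at h3
  have h4 : q (c f i j) = 0 := by
    have h5 := congrFun h2 i
    rw [MV.smul_def] at h5
    change ((c' f).mulVec (Pi.single j 1)) i = 0 at h5
    rw [Matrix.mulVec_single_one] at h5
    exact h5
  obtain ⟨s, hs⟩ := Ideal.Quotient.mk_surjective (c f i j)
  rw [← hs] at h4 ⊢
  apply Ideal.mem_map_of_mem
  rwa [Ideal.Quotient.factor_mk, Ideal.Quotient.eq_zero_iff_mem] at h4

variable {𝓤 : Ultrafilter ℕ} {J : ℕ → Ideal S}

theorem TQ.cont (hJ : ∀ k, ∀ᶠ n in (𝓤 : Filter ℕ), J n ≤ maximalIdeal S ^ k)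
    (c : ∀ n, PP →+* Matrix (Fin d) (Fin d) (S ⧸ J n)) {g : ℕ → PP}
    (hg : TendsU 𝓤 (maximalIdeal PP) g 0) (i j : Fin d) :
    TQ 𝓤 J (fun n => c n (g n) i j) 0 := fun k => by
  filter_upwards [hJ k, hg (Nat.card (S ⧸ maximalIdeal S ^ k) ^ d)] with n h1 h2
  rw [sub_zero] at h2
  have h3 := map_mem_of_mem_pow (c n) k h1 (g n) h2 i j
  rw [Ideal.mem_map_iff_of_surjective _ Ideal.Quotient.mk_surjective] at h3
  obtain ⟨s, hs, hs'⟩ := h3
  exact ⟨s, hs', by rwa [sub_zero]⟩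

/-- the limit of ring homs to matrix rings -/
theorem exists_clim (hS : HasULim 𝓤 (maximalIdeal S))
    (hJ : ∀ k, ∀ᶠ n in (𝓤 : Filter ℕ), J n ≤ maximalIdeal S ^ k)
    (c : ∀ n, PP →+* Matrix (Fin d) (Fin d) (S ⧸ J n)) :
    ∃ c' : PP →+* Matrix (Fin d) (Fin d) S,
      ∀ f i j, TQ 𝓤 J (fun n => c n f i j) (c' f i j) := by
  classical
  choose L hL using fun (f : PP) (i j : Fin d) => TQ.exists (J := J) hS (fun n => c n f i j)
  have h1 : ∀ i j : Fin d, TQ 𝓤 J (fun n => (1 : Matrix (Fin d) (Fin d) (S ⧸ J n)) i j)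
      ((1 : Matrix (Fin d) (Fin d) S) i j) := by
    intro i j
    refine (TQ.const ((1 : Matrix (Fin d) (Fin d) S) i j)).congr fun n => ?_
    rw [Matrix.one_apply, Matrix.one_apply]
    split_ifs <;> simp
  refine ⟨{ toFun := fun f => Matrix.of fun i j => L f i j
            map_one' := ?_
            map_zero' := ?_
            map_mul' := ?_
            map_add' := ?_ }, fun f i j => hL f i j⟩
  · ext1 i j
    refine TQ.unique hJ (hL 1 i j) ((h1 i j).congr fun n => ?_)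
    rw [map_one]
  · intro f g
    ext1 i j
    refine TQ.unique hJ (hL (f * g) i j) ?_
    have h2 : TQ 𝓤 J (fun n => ∑ l, c n f i l * c n g l j) (∑ l, L f i l * L g l j) :=
      TQ.sum _ fun l _ => (hL f i l).mul (hL g l j)
    refine h2.congr fun n => ?_
    rw [map_mul, Matrix.mul_apply]
  · ext1 i j
    refine TQ.unique hJ (hL 0 i j) ?_
    rw [Matrix.zero_apply]
    refine (TQ.const (0 : S)).congr fun n => ?_
    rw [map_zero, map_zero, Matrix.zero_apply]
  · intro f g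
    ext1 i j
    refine TQ.unique hJ (hL (f + g) i j) ?_
    refine ((hL f i j).add (hL g i j)).congr fun n => ?_
    rw [map_add, Matrix.add_apply]

end cont

end Fermat.Agent.IH
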