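import Fermat.Agent.RT.FiniteComplete
import Fermat.Agent.IH.TQ
import Fermat.Agent.IH.Avoid
import Fermat.Agent.IH.Dims

/-!
# Patching a pair of modules and Ihara avoidance: matrix form
-/

set_option autoImplicit false

open Filter IsLocalRing Fermat.Agent.RT.ULim
open scoped Pointwise

namespace Fermat.Agent.IH

namespace MV

variable {S PP : Type} [CommRing S] [CommRing PP] {d : ℕ} (c : PP →+* Matrix (Fin d) (Fin d) S)

theorem isScalarTower [Algebra S PP]
    (h : ∀ s, c (algebraMap S PP s) = Matrix.scalar (Fin d) s) : IsScalarTower S PP (MV c) := by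
  refine ⟨fun s f v => ?_⟩
  rw [Algebra.smul_def, mul_smul]
  have h1 : ∀ w : Fin d → S, (c (algebraMap S PP s)).mulVec w = s • w := by
    intro w
    rw [h, Matrix.scalar_apply]
    ext i
    rw [Matrix.mulVec_diagonal]
    rfl
  exact h1 _

instance : Module.Finite S (MV c) := inferInstanceAs (Module.Finite S (Fin d → S))

instance : Module.Free S (MV c) := inferInstanceAs (Module.Free S (Fin d → S))

theorem mem_annihilator_iff (f : PP) : f ∈ Module.annihilator PP (MV c) ↔ c f = 0 := by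
  classical
  rw [Module.mem_annihilator]
  constructor
  · intro h
    ext i j
    have h1 := congrFun (h (show MV c from (Pi.single j 1 : Fin d → S))) i
    rw [smul_def] at h1
    change ((c f).mulVec (Pi.single j 1)) i = 0 at h1
    rw [Matrix.mulVec_single_one] at h1
    exact h1
  · intro h v
    rw [smul_def, h]
    exact Matrix.zero_mulVec _

theorem mem_pointwise_smul_iff [Algebra S PP]
    (h : ∀ s, c (algebraMap S PP s) = Matrix.scalar (Fin d) s) (ϖ : S) (v : MV c) :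
    v ∈ (algebraMap S PP ϖ) • (⊤ : Submodule PP (MV c)) ↔ ∃ w : Fin d → S, v = ϖ • w := by
  have := isScalarTower c h
  rw [Submodule.mem_smul_pointwise_iff_exists]
  constructor
  · rintro ⟨w, -, hw⟩
    refine ⟨w, ?_⟩
    rw [← hw, algebraMap_smul]
    rfl
  · rintro ⟨w, hw⟩
    let w' : MV c := w
    refine ⟨w', trivial, ?_⟩
    rw [hw, algebraMap_smul]
    rfl

/-- two congruent actions give isomorphic reductions -/
theorem exists_iso [Algebra S PP] (c1 cχ : PP →+* Matrix (Fin d) (Fin d) S)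
    (h1 : ∀ s, c1 (algebraMap S PP s) = Matrix.scalar (Fin d) s)
    (hχ : ∀ s, cχ (algebraMap S PP s) = Matrix.scalar (Fin d) s) (ϖ : S)
    (hcong : ∀ f i j, c1 f i j - cχ f i j ∈ Ideal.span {ϖ}) :
    Nonempty (QuotSMulTop (algebraMap S PP ϖ) (MV cχ) ≃ₗ[PP]
      QuotSMulTop (algebraMap S PP ϖ) (MV c1)) := by
  let id' : MV cχ → MV c1 := fun v => (show Fin d → S from v)
  let u : MV cχ →ₗ[PP] QuotSMulTop (algebraMap S PP ϖ) (MV c1) :=
    { toFun := fun v => Submodule.Quotient.mk (id' v)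
      map_add' := fun v w => rfl
      map_smul' := by
        intro f v
        rw [RingHom.id_apply, ← Submodule.Quotient.mk_smul]
        refine (Submodule.Quotient.eq _).mpr ?_
        rw [mem_pointwise_smul_iff c1 h1]
        choose t ht using fun i j => Ideal.mem_span_singleton'.mp (hcong f i j)
        refine ⟨fun i => - ∑ j, t i j * (show Fin d → S from v) j, ?_⟩
        funext i
        change (∑ j, cχ f i j * (show Fin d → S from v) j) -
          (∑ j, c1 f i j * (show Fin d → S from v) j) =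
          ϖ * (- ∑ j, t i j * (show Fin d → S from v) j)
        rw [mul_neg, Finset.mul_sum, ← Finset.sum_sub_distrib, ← Finset.sum_neg_distrib]
        refine Finset.sum_congr rfl fun j _ => ?_
        rw [← sub_mul, ← mul_assoc, mul_comm ϖ, ht i j]
        ring }
  have hu : Function.Surjective u := by
    intro q
    obtain ⟨v, rfl⟩ := Submodule.Quotient.mk_surjective _ q
    exact ⟨(show Fin d → S from v), rfl⟩
  have hker : LinearMap.ker u = (algebraMap S PP ϖ) • (⊤ : Submodule PP (MV cχ)) := by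
    ext v
    rw [LinearMap.mem_ker, mem_pointwise_smul_iff cχ hχ]
    change (Submodule.Quotient.mk (id' v) : QuotSMulTop (algebraMap S PP ϖ) (MV c1)) = 0 ↔ _
    rw [Submodule.Quotient.mk_eq_zero, mem_pointwise_smul_iff c1 h1]
    rfl
  exact ⟨(Submodule.quotEquivOfEq _ _ hker.symm).trans (u.quotKerEquivOfSurjective hu)⟩

end MV

section aux

variable {𝒪 : Type} [CommRing 𝒪] [IsLocalRing 𝒪] [IsNoetherianRing 𝒪] {R0 : Type} [CommRing R0]
  [Algebra 𝒪 R0] [Module.Finite 𝒪 R0]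

omit [IsNoetherianRing 𝒪] [Module.Finite 𝒪 R0] in
theorem mem_map_pow_iff (k : ℕ) (x : R0) :
    x ∈ ((maximalIdeal 𝒪).map (algebraMap 𝒪 R0)) ^ k ↔
      x ∈ (maximalIdeal 𝒪 ^ k) • (⊤ : Submodule 𝒪 R0) := by
  rw [← Ideal.map_pow, Ideal.smul_top_eq_map]
  rfl

omit [IsNoetherianRing 𝒪] in
theorem hasULim_of_finite {𝓤 : Ultrafilter ℕ} (h : HasULim 𝓤 (maximalIdeal 𝒪)) :
    HasULim 𝓤 ((maximalIdeal 𝒪).map (algebraMap 𝒪 R0)) := by
  obtain ⟨N, g, hg⟩ := Module.Finite.exists_fin' 𝒪 R0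
  intro x
  choose y hy using fun n => hg (x n)
  choose L hL using fun i : Fin N => h (fun n => y n i)
  refine ⟨g L, fun k => ?_⟩
  have h1 : ∀ᶠ n in (𝓤 : Filter ℕ), ∀ i, y n i - L i ∈ maximalIdeal 𝒪 ^ k :=
    eventually_all.mpr fun i => hL i k
  filter_upwards [h1] with n hn
  rw [← hy n, ← map_sub, ← Ideal.map_pow]
  have h2 : y n - L ∈ (maximalIdeal 𝒪 ^ k) • (⊤ : Submodule 𝒪 (Fin N → 𝒪)) :=
    (Fermat.Agent.RT.FiniteComplete.mem_smul_top_pi _ _).mpr hn
  have h3 : g (y n - L) ∈ ((maximalIdeal 𝒪 ^ k) • (⊤ : Submodule 𝒪 (Fin N → 𝒪))).map g :=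
    ⟨_, h2, rfl⟩
  rw [Submodule.map_smul''] at h3
  have h4 : maximalIdeal 𝒪 ^ k • Submodule.map g ⊤ ≤ (maximalIdeal 𝒪 ^ k) • (⊤ : Submodule 𝒪 R0) :=
    smul_mono_right _ le_top
  have h5 := h4 h3
  rw [Ideal.smul_top_eq_map] at h5
  exact h5

theorem mem_ideal_of_forall (I : Ideal R0) (x : R0)
    (h : ∀ k : ℕ, x ∈ I ⊔ ((maximalIdeal 𝒪).map (algebraMap 𝒪 R0)) ^ k) : x ∈ I := by
  have h1 := Ideal.iInf_pow_smul_eq_bot_of_isLocalRing (M := R0 ⧸ I) (maximalIdeal 𝒪)
    (maximalIdeal.isMaximal 𝒪).ne_top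
  rw [← Ideal.Quotient.eq_zero_iff_mem]
  have h2 : Ideal.Quotient.mk I x ∈ (⨅ i : ℕ, maximalIdeal 𝒪 ^ i • (⊤ : Submodule 𝒪 (R0 ⧸ I))) := by
    rw [Submodule.mem_iInf]
    intro k
    obtain ⟨a, ha, b, hb, hab⟩ := Submodule.mem_sup.mp (h k)
    rw [← hab, map_add, Ideal.Quotient.eq_zero_iff_mem.mpr ha, zero_add]
    rw [mem_map_pow_iff] at hb
    have h3 : (Ideal.Quotient.mkₐ 𝒪 I).toLinearMap b ∈
        ((maximalIdeal 𝒪 ^ k) • (⊤ : Submodule 𝒪 R0)).map (Ideal.Quotient.mkₐ 𝒪 I).toLinearMap :=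
      ⟨b, hb, rfl⟩
    rw [Submodule.map_smul''] at h3
    have h4 : maximalIdeal 𝒪 ^ k • Submodule.map (Ideal.Quotient.mkₐ 𝒪 I).toLinearMap ⊤ ≤
        (maximalIdeal 𝒪 ^ k) • (⊤ : Submodule 𝒪 (R0 ⧸ I)) :=
      smul_mono_right _ le_top
    exact h4 h3
  rw [h1] at h2
  exact h2

end aux

end Fermat.Agent.IH
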