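import Fermat.Agent.IH.PairLevel

/-!
# Ihara avoidance: from module-theoretic Taylor–Wiles levels to an unramified point
-/

set_option autoImplicit false
set_option linter.unusedSectionVars false
set_option linter.unusedSimpArgs false

open IsLocalRing Fermat.Agent.RT.ULim MvPowerSeries Fermat.Agent.RT.MvEval
open Fermat.Agent.RT.GroupAlg Fermat.Agent.RT.TWLevel
open scoped Pointwise

namespace Fermat.Agent.IH

theorem maximalIdeal_le_of_sq {R : Type*} [CommRing R] [IsLocalRing R] [IsNoetherianRing R]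
    (I : Ideal R) (h : maximalIdeal R ≤ I ⊔ maximalIdeal R ^ 2) : maximalIdeal R ≤ I := by
  refine Submodule.le_of_le_smul_of_le_jacobson_bot (I := maximalIdeal R)
    (IsNoetherian.noetherian _) (IsLocalRing.maximalIdeal_le_jacobson _) ?_
  rwa [smul_eq_mul, ← pow_two]

section level

variable {𝒪 : Type} [CommRing 𝒪] [IsDomain 𝒪] [IsDiscreteValuationRing 𝒪]
    [IsAdicComplete (maximalIdeal 𝒪) 𝒪] [Finite (ResidueField 𝒪)] {p : ℕ} [hpp : Fact p.Prime]
    {r : ℕ} (a : Fin r → ℕ)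
    {R' : Type} [CommRing R'] [IsLocalRing R'] [IsNoetherianRing R'] [Algebra 𝒪 R']
    [IsLocalHom (algebraMap 𝒪 R')] [IsAdicComplete (maximalIdeal R') R']
    {M1 : Type} [AddCommGroup M1] [Module R' M1] [Module (Lam 𝒪 p a) M1]
    [Module.Free (Lam 𝒪 p a) M1] [Module.Finite (Lam 𝒪 p a) M1]
    {Mχ : Type} [AddCommGroup Mχ] [Module R' Mχ] [Module (Lam 𝒪 p a) Mχ]
    [Module.Free (Lam 𝒪 p a) Mχ] [Module.Finite (Lam 𝒪 p a) Mχ]
    {R0 : Type} [CommRing R0] [Algebra 𝒪 R0]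
    {M0 : Type} [AddCommGroup M0] [Module R0 M0] [Module 𝒪 M0] [IsScalarTower 𝒪 R0 M0]

theorem matData_of_level (hp𝒪 : (p : 𝒪) ∈ maximalIdeal 𝒪) {ϖ : 𝒪} (hϖ : Prime ϖ)
    {k m d n : ℕ} (ha : ∀ i, n ≤ a i)
    (hres : Function.Surjective (residue R' ∘ algebraMap 𝒪 R'))
    (x : Idx k m → R') (hx : ∀ i, x i ∈ maximalIdeal R')
    (hspan : maximalIdeal R' ≤ Ideal.span (Set.range x) ⊔
      (maximalIdeal 𝒪).map (algebraMap 𝒪 R'))
    (δ : (Grp fun i => p ^ a i) →* R') (hδ : ∀ i, δ (gen _ i) - 1 ∈ maximalIdeal R')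
    (hG1 : ∀ (g : Grp fun i => p ^ a i) (u : M1), MonoidAlgebra.of 𝒪 _ g • u = δ g • u)
    (h𝒪1 : ∀ (c : 𝒪) (u : M1), algebraMap 𝒪 (Lam 𝒪 p a) c • u = algebraMap 𝒪 R' c • u)
    (hGχ : ∀ (g : Grp fun i => p ^ a i) (u : Mχ), MonoidAlgebra.of 𝒪 _ g • u = δ g • u)
    (h𝒪χ : ∀ (c : 𝒪) (u : Mχ), algebraMap 𝒪 (Lam 𝒪 p a) c • u = algebraMap 𝒪 R' c • u)
    (iso : QuotSMulTop (algebraMap 𝒪 R' ϖ) M1 ≃ₗ[R'] QuotSMulTop (algebraMap 𝒪 R' ϖ) Mχ)
    (e : Module.Basis (Fin d) 𝒪 M0) (A0 : R0 →+* Matrix (Fin d) (Fin d) 𝒪)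
    (hA0 : ∀ f j, f • e j = ∑ i, A0 f i j • e i)
    (ρ : R' →ₐ[𝒪] R0) (hρδ : ∀ g, ρ (δ g) = 1)
    (π : M1 →+ M0) (hπ : ∀ (f : R') (u : M1), π (f • u) = ρ f • π u)
    (hπs : Function.Surjective π)
    (hker : ∀ u, π u = 0 → u ∈ (Ideal.span (Set.range fun g : Grp fun i => p ^ a i => δ g - 1)) •
      (⊤ : Submodule R' M1))
    (T : Finset 𝒪) (ε : 𝒪)
    (r1 : ∀ u : Mχ, (x (.inl 0) * x (.inl 4) - x (.inl 1) * x (.inl 3)) • u = 0)
    (r2 : ∀ u : Mχ, (x (.inl 0) * x (.inl 5) - x (.inl 2) * x (.inl 3)) • u = 0)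
    (r3 : ∀ u : Mχ, (x (.inl 1) * x (.inl 5) - x (.inl 2) * x (.inl 4)) • u = 0)
    (r4 : ∀ u : Mχ, (∏ t ∈ T, (x (.inl 2) ^ 2 + 4 * x (.inl 0) * x (.inl 1) -
      algebraMap 𝒪 R' t)) • u = 0)
    (s1 : ∀ j : Fin 6, (j = 0 ∨ j = 1 ∨ j = 2) → ∀ u : M1,
      ((x (.inl 5) ^ 2 + 4 * x (.inl 3) * x (.inl 4) - algebraMap 𝒪 R' ε) * x (.inl j)) • u = 0)
    (o1 : ∀ l : Fin k, ∃ t, ∀ u : Mχ, (x (.inr (.inl (l, 0))) * x (.inr (.inl (l, 4))) -
        x (.inr (.inl (l, 1))) * x (.inr (.inl (l, 3))) - algebraMap 𝒪 R' ϖ * t) • u = 0)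
    (o2 : ∀ l : Fin k, ∃ t, ∀ u : Mχ, (x (.inr (.inl (l, 0))) * x (.inr (.inl (l, 5))) -
        x (.inr (.inl (l, 2))) * x (.inr (.inl (l, 3))) - algebraMap 𝒪 R' ϖ * t) • u = 0)
    (o3 : ∀ l : Fin k, ∃ t, ∀ u : Mχ, (x (.inr (.inl (l, 1))) * x (.inr (.inl (l, 5))) -
        x (.inr (.inl (l, 2))) * x (.inr (.inl (l, 4))) - algebraMap 𝒪 R' ϖ * t) • u = 0)
    (o4 : ∀ l : Fin k, ∃ t, ∀ u : Mχ, (x (.inr (.inl (l, 2))) ^ 2 + 4 * x (.inr (.inl (l, 0))) *
        x (.inr (.inl (l, 1))) - algebraMap 𝒪 R' ϖ * t) • u = 0)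
    (I0 : Ideal R0)
    (hI0 : I0 ≤ Ideal.span {ρ (x (.inl 0)), ρ (x (.inl 1)), ρ (x (.inl 2))}) :
    MatData 𝒪 p r k m d ϖ T ε A0 I0 n := by
  classical
  have hloc : IsLocalRing (Lam 𝒪 p a) := isLocalRing_Lam a hp𝒪
  have hϖm : ϖ ∈ maximalIdeal 𝒪 := by
    rw [mem_maximalIdeal, mem_nonunits_iff]; exact hϖ.not_isUnit
  have hl1 := Fd_smul a δ hG1 h𝒪1
  have hlχ := Fd_smul a δ hGχ h𝒪χ
  -- the ring homs
  obtain ⟨γ, hγ⟩ := exists_eval (𝒪 := 𝒪) (fun i => x ((idxEquiv k m).symm i)) (fun i => hx _)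
  have hγvar : ∀ i, γ (var 𝒪 i) = x i := by
    intro i
    rw [var, hγ, Equiv.symm_apply_apply]
  have hγs : Function.Surjective γ := by
    refine eval_surjective hres γ (fun i => by rw [hγ]; exact hx _) ?_
    have h1 : Set.range (fun i => γ (X i)) = Set.range x := by
      ext y
      constructor
      · rintro ⟨i, rfl⟩
        exact ⟨(idxEquiv k m).symm i, (hγ i).symm⟩
      · rintro ⟨i, rfl⟩
        exact ⟨idxEquiv k m i, hγvar i⟩
    rw [h1]
    exact hspan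
  obtain ⟨β, hβ⟩ := exists_eval (𝒪 := 𝒪) (fun i => δ (gen _ i) - 1) hδ
  have hmapγ : (maximalIdeal (PPr 𝒪 k m)).map (γ : PPr 𝒪 k m →+* R') = maximalIdeal R' :=
    IsLocalRing.map_maximalIdeal_of_surjective _ hγs
  have hlocγ : IsLocalHom (γ : PPr 𝒪 k m →+* R') := Function.Surjective.isLocalHom _ hγs
  have hcomp : IsAdicComplete (maximalIdeal (PPr 𝒪 k m)) (PPr 𝒪 k m) :=
    isAdicComplete_mvPowerSeries
  have hlocC : IsLocalHom (algebraMap 𝒪 (PPr 𝒪 k m)) := by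
    refine ⟨fun a ha => ?_⟩
    change IsUnit (C a) at ha
    rw [isUnit_iff_constantCoeff] at ha
    simpa using ha
  have hlift : ∀ i, ∃ s ∈ maximalIdeal (PPr 𝒪 k m), γ s = β (X i) := by
    intro i
    obtain ⟨s, hs⟩ := hγs (β (X i))
    refine ⟨s, ?_, hs⟩
    have h1 : β (X i) ∈ maximalIdeal R' := by rw [hβ]; exact hδ i
    rw [← hs] at h1
    have h2 : s ∈ (maximalIdeal R').comap (γ : PPr 𝒪 k m →+* R') := h1
    rwa [IsLocalRing.maximalIdeal_comap] at h2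
  choose s hs hsβ using hlift
  obtain ⟨φ, hφ⟩ := exists_eval (𝒪 := 𝒪) s hs
  have hγφ : ∀ f, γ (φ f) = β f := by
    have : γ.comp φ = β := by
      refine hom_ext (J := maximalIdeal R') uHaus_maximalIdeal ?_ ?_
      · intro i
        rw [AlgHom.comp_apply, hφ, hsβ, hβ]
        exact hδ i
      · intro i
        rw [AlgHom.comp_apply, hφ, hsβ]
    intro f
    rw [← this]; rfl
  -- `β` and the group algebra
  have hβJ : ∀ c ∈ idealJ 𝒪 p a, β c = 0 := by
    have h1 : idealJ 𝒪 p a ≤ RingHom.ker (β : MvPowerSeries (Fin r) 𝒪 →+* R') := by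
      rw [idealJ, Ideal.span_le]
      rintro _ ⟨i, rfl⟩
      rw [SetLike.mem_coe, RingHom.mem_ker]
      change β ((1 + X i) ^ (p ^ a i) - 1) = 0
      rw [map_sub, map_pow, map_add, map_one, hβ, add_sub_cancel, ← map_pow,
        gen_pow (q := fun i => p ^ a i), map_one, sub_self]
    exact fun c hc => h1 hc
  have hkey : ∀ (c : MvPowerSeries (Fin r) 𝒪) (l : Lam 𝒪 p a),
      F a l = Ideal.Quotient.mk (idealJ 𝒪 p a) c → β c = Fd a δ l := by
    let βbar : (MvPowerSeries (Fin r) 𝒪 ⧸ idealJ 𝒪 p a) →ₐ[𝒪] R' :=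
      Ideal.Quotient.liftₐ (idealJ 𝒪 p a) β hβJ
    have h1 : βbar.comp (F a) = Fd a δ := by
      refine MonoidAlgebra.algHom_ext ?_ (Subsingleton.elim _ _)
      intro g
      have h2 : Fd (𝒪 := 𝒪) a δ (MonoidAlgebra.single g 1) = δ g := Fd_of a δ g
      rw [h2, AlgHom.comp_apply]
      have h3 : F (𝒪 := 𝒪) (p := p) a (MonoidAlgebra.single g 1) =
          Ideal.Quotient.mk (idealJ 𝒪 p a) (∏ i, (1 + X i) ^ expo _ g i) := by
        rw [F, MonoidAlgebra.lift_single, one_smul, powHom_apply, map_prod]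
        simp only [map_pow]
      rw [h3]
      change β (∏ i, (1 + X i) ^ expo _ g i) = δ g
      rw [map_prod]
      conv_rhs => rw [eq_prod_gen g, map_prod]
      refine Finset.prod_congr rfl fun i _ => ?_
      rw [map_pow, map_pow, map_add, map_one, hβ, add_sub_cancel]
    intro c l hl
    rw [← h1, AlgHom.comp_apply, hl]
    rfl
  -- `ρ ∘ Fd` is the augmentation
  have hρF : ∀ l : Lam 𝒪 p a, ρ (Fd a δ l) = algebraMap 𝒪 R0 (augL a l) := by
    have h1 : ρ.comp (Fd a δ) = (Algebra.ofId 𝒪 R0).comp (augL a) := by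
      refine MonoidAlgebra.algHom_ext ?_ (Subsingleton.elim _ _)
      intro g
      change ρ (Fd a δ (MonoidAlgebra.of 𝒪 _ g)) = algebraMap 𝒪 R0 (augL a (MonoidAlgebra.of 𝒪 _ g))
      rw [Fd_of, hρδ, augL_of, map_one]
    intro l
    exact DFunLike.congr_fun h1 l
  have hπl : ∀ (l : Lam 𝒪 p a) (u : M1), π (l • u) = augL a l • π u := by
    intro l u
    rw [hl1, hπ, hρF, algebraMap_smul]
  -- the basis of `M1` adapted to `e`
  choose v hv using fun j => hπs (e j)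
  have hspanv : Submodule.span (Lam 𝒪 p a) (Set.range v) = ⊤ := by
    refine span_eq_top_of_le v fun u => ?_
    refine ⟨∑ j, algebraMap 𝒪 (Lam 𝒪 p a) (e.repr (π u) j) • v j, Submodule.sum_mem _ fun j _ =>
      Submodule.smul_mem _ _ (Submodule.subset_span ⟨j, rfl⟩), ?_⟩
    have h1 : π (u - ∑ j, algebraMap 𝒪 (Lam 𝒪 p a) (e.repr (π u) j) • v j) = 0 := by
      rw [map_sub, map_sum]
      simp only [hπl, AlgHom.commutes, hv]
      rw [sub_eq_zero]
      exact (e.sum_repr (π u)).symm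
    have h2 := hker _ h1
    generalize u - ∑ j, algebraMap 𝒪 (Lam 𝒪 p a) (e.repr (π u) j) • v j = w at h2
    induction h2 using Submodule.smul_induction_on' with
    | smul t ht w _ =>
      induction ht using Submodule.span_induction generalizing w with
      | mem t ht =>
        obtain ⟨g, rfl⟩ := ht
        have h3 : (δ g - 1) • w = (MonoidAlgebra.of 𝒪 _ g - 1 : Lam 𝒪 p a) • w := by
          rw [sub_smul, sub_smul, hG1, one_smul, one_smul]
        dsimp only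
        rw [h3]
        exact Submodule.smul_mem_smul (of_sub_one_mem_maximalIdeal_Lam a g) trivial
      | zero => rw [zero_smul]; exact zero_mem _
      | add t t' _ _ ih ih' => rw [add_smul]; exact add_mem (ih w trivial) (ih' w trivial)
      | smul f t _ ih =>
        rw [smul_eq_mul, mul_comm, mul_smul]
        exact ih (f • w) trivial
    | add w _ w' _ hw hw' => exact add_mem hw hw'
  have hdle : Module.finrank (Lam 𝒪 p a) M1 ≤ d := finrank_le_of_span v hspanv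
  have hdge : d ≤ Module.finrank (Lam 𝒪 p a) M1 := by
    let b' := Module.finBasis (Lam 𝒪 p a) M1
    have h1 : Submodule.span 𝒪 (Set.range fun j => π (b' j)) = ⊤ := by
      rw [eq_top_iff]
      intro y _
      obtain ⟨u, rfl⟩ := hπs y
      rw [← b'.sum_repr u, map_sum]
      refine Submodule.sum_mem _ fun j _ => ?_
      rw [hπl]
      exact Submodule.smul_mem _ _ (Submodule.subset_span ⟨j, rfl⟩)
    have h2 : Module.Free 𝒪 M0 := Module.Free.of_basis e
    have h3 := finrank_le_of_span _ h1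
    rwa [Module.finrank_eq_card_basis e, Fintype.card_fin] at h3
  obtain ⟨b1, hb1⟩ := exists_basis_of_span v hspanv (le_antisymm hdge hdle)
  -- the basis of `Mχ`
  obtain ⟨w, hw, hwiso⟩ := exists_transfer a δ hl1 h𝒪χ hlχ hϖm iso v hspanv
  have hdχ : d = Module.finrank (Lam 𝒪 p a) Mχ := by
    refine le_antisymm ?_ (finrank_le_of_span w hw)
    let b' := Module.finBasis (Lam 𝒪 p a) Mχ
    obtain ⟨w', hw', -⟩ := exists_transfer a δ hlχ h𝒪1 hl1 hϖm iso.symm b' b'.span_eq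
    exact hdge.trans (finrank_le_of_span w' hw')
  obtain ⟨bχ, hbχ⟩ := exists_basis_of_span w hw hdχ
  -- the matrices
  obtain ⟨k1, hk1, hk1z, hk1l⟩ := exists_matHom a δ hl1 b1
  obtain ⟨kχ, hkχ, hkχz, hkχl⟩ := exists_matHom a δ hlχ bχ
  let Fm : Matrix (Fin d) (Fin d) (Lam 𝒪 p a) →+*
      Matrix (Fin d) (Fin d) (MvPowerSeries (Fin r) 𝒪 ⧸ idealJ 𝒪 p a) :=
    (F (𝒪 := 𝒪) (p := p) a : Lam 𝒪 p a →+* _).mapMatrix
  have hFm : ∀ N i j, Fm N i j = F a (N i j) := fun N i j => rfl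
  have hscal : ∀ (κ : R' →+* Matrix (Fin d) (Fin d) (Lam 𝒪 p a))
      (_ : ∀ l, κ (Fd a δ l) = Matrix.scalar (Fin d) l) (s : MvPowerSeries (Fin r) 𝒪),
      Fm (κ (γ (φ s))) = Matrix.scalar (Fin d) (Ideal.Quotient.mk _ s) := by
    intro κ hκ s
    obtain ⟨l, hl⟩ := F_surjective (𝒪 := 𝒪) (p := p) a hp𝒪 (Ideal.Quotient.mk _ s)
    rw [hγφ, hkey s l hl, hκ]
    ext i j
    rw [hFm, Matrix.scalar_apply, Matrix.scalar_apply, Matrix.diagonal_apply,
      Matrix.diagonal_apply]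
    split_ifs
    · exact hl
    · exact map_zero _
  have hzero : ∀ f, (∀ u : Mχ, γ f • u = 0) → Fm (kχ (γ f)) = 0 := by
    intro f hf
    rw [hkχz _ hf, map_zero]
  have hzero1 : ∀ f, (∀ u : M1, γ f • u = 0) → Fm (k1 (γ f)) = 0 := by
    intro f hf
    rw [hk1z _ hf, map_zero]
  have hγalg : ∀ c : 𝒪, γ (algebraMap 𝒪 (PPr 𝒪 k m) c) = algebraMap 𝒪 R' c := fun c =>
    γ.commutes c
  have hother : ∀ (f : PPr 𝒪 k m), (∃ t, ∀ u : Mχ, (γ f - algebraMap 𝒪 R' ϖ * t) • u = 0) →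
      ∃ t, Fm (kχ (γ (f - algebraMap 𝒪 (PPr 𝒪 k m) ϖ * t))) = 0 := by
    rintro f ⟨t, ht⟩
    obtain ⟨t', rfl⟩ := hγs t
    refine ⟨t', hzero _ fun u => ?_⟩
    rw [map_sub, map_mul, hγalg]
    exact ht u
  refine ⟨a, ha, φ, (Fm.comp k1).comp (γ : PPr 𝒪 k m →+* R'),
    (Fm.comp kχ).comp (γ : PPr 𝒪 k m →+* R'), ρ.comp γ,
    ⟨fun s => hscal k1 hk1l s, fun s => hscal kχ hkχl s, ?_, ?_⟩,
    ⟨⟨?_, ?_, ?_, ?_⟩, ?_⟩, ?_, ?_⟩
  · -- congruence
    intro f i j
    change Fm (k1 (γ f)) i j - Fm (kχ (γ f)) i j ∈ _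
    rw [hFm, hFm, ← map_sub]
    have h1 : (∑ i, (k1 (γ f) i j - kχ (γ f) i j) • bχ i) ∈
        (algebraMap 𝒪 R' ϖ) • (⊤ : Submodule R' Mχ) := by
      rw [← Submodule.Quotient.mk_eq_zero]
      have h2 : iso (Submodule.Quotient.mk (γ f • b1 j)) = Submodule.Quotient.mk (γ f • bχ j) := by
        rw [Submodule.Quotient.mk_smul, map_smul, hb1, hwiso, hbχ]
        rfl
      rw [hk1, hkχ] at h2
      have h3 : iso (Submodule.Quotient.mk (∑ i, k1 (γ f) i j • b1 i)) =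
          Submodule.Quotient.mk (∑ i, k1 (γ f) i j • bχ i) := by
        have h4 : (∑ i, k1 (γ f) i j • b1 i) = ∑ i, Fd a δ (k1 (γ f) i j) • b1 i :=
          Finset.sum_congr rfl fun j _ => hl1 _ _
        have h5 : (∑ i, k1 (γ f) i j • bχ i) = ∑ i, Fd a δ (k1 (γ f) i j) • bχ i :=
          Finset.sum_congr rfl fun j _ => hlχ _ _
        rw [h4, h5, ← Submodule.mkQ_apply, ← Submodule.mkQ_apply, map_sum, map_sum, map_sum]
        refine Finset.sum_congr rfl fun i _ => ?_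
        rw [map_smul, map_smul, map_smul, Submodule.mkQ_apply, Submodule.mkQ_apply, hb1, hbχ,
          hwiso]
      rw [h3] at h2
      simp only [sub_smul, Finset.sum_sub_distrib]
      rw [← Submodule.mkQ_apply, map_sub, Submodule.mkQ_apply, Submodule.mkQ_apply, h2, sub_self]
    rw [mem_smul_top_iff a h𝒪χ] at h1
    obtain ⟨u, hu⟩ := h1
    have h2 : k1 (γ f) i j - kχ (γ f) i j = algebraMap 𝒪 (Lam 𝒪 p a) ϖ * bχ.repr u i := by
      have h3 := congrArg (fun y => bχ.repr y i) hu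
      simp only [map_smul, Finsupp.smul_apply, smul_eq_mul] at h3
      rw [← h3, map_sum, Finsupp.finsetSum_apply]
      simp only [map_smul, Finsupp.smul_apply, Module.Basis.repr_self, smul_eq_mul]
      rw [Finset.sum_eq_single i]
      · rw [Finsupp.single_eq_same, mul_one]
      · intro l _ hl
        rw [Finsupp.single_eq_of_ne' hl, mul_zero]
      · intro h; exact absurd (Finset.mem_univ _) h
    rw [h2, map_mul, AlgHom.commutes]
    exact Ideal.mul_mem_right _ _ (Ideal.mem_map_of_mem _ (Ideal.mem_span_singleton_self _))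
  · -- augmentation
    intro f i j s hs
    have h1 : F a (k1 (γ f) i j) = Ideal.Quotient.mk (idealJ 𝒪 p a) s := hs.symm
    rw [constantCoeff_eq_augL a _ s h1]
    have h2 : ρ (γ f) • e j = ∑ i, augL a (k1 (γ f) i j) • e i := by
      have h3 := congrArg π (hk1 (γ f) j)
      rw [hπ, map_sum] at h3
      simp only [hπl, hb1, hv] at h3
      exact h3
    have h4 := hA0 (ρ (γ f)) j
    rw [h2] at h4
    have h5 := congrArg (fun y => e.repr y i) h4
    simp only [map_sum, map_smul, Finsupp.coe_finsetSum, Finset.sum_apply, Finsupp.smul_apply,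
      Module.Basis.repr_self, smul_eq_mul] at h5
    rw [Finset.sum_eq_single i, Finset.sum_eq_single i, Finsupp.single_eq_same, mul_one,
      mul_one] at h5
    · exact h5
    · intro l _ hl
      rw [Finsupp.single_eq_of_ne' hl, mul_zero]
    · intro h; exact absurd (Finset.mem_univ _) h
    · intro l _ hl
      rw [Finsupp.single_eq_of_ne' hl, mul_zero]
    · intro h; exact absurd (Finset.mem_univ _) h
  · exact hzero _ fun u => by
      rw [map_sub, map_mul, map_mul, hγvar, hγvar, hγvar, hγvar]; exact r1 u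
  · exact hzero _ fun u => by
      rw [map_sub, map_mul, map_mul, hγvar, hγvar, hγvar, hγvar]; exact r2 u
  · exact hzero _ fun u => by
      rw [map_sub, map_mul, map_mul, hγvar, hγvar, hγvar, hγvar]; exact r3 u
  · refine hzero _ fun u => ?_
    rw [map_prod]
    simp only [map_sub, map_add, map_mul, map_pow, map_ofNat, hγvar, hγalg]
    exact r4 u
  · intro j hj
    refine hzero1 _ fun u => ?_
    simp only [map_sub, map_add, map_mul, map_pow, map_ofNat, hγvar, hγalg]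
    exact s1 j hj u
  · intro l
    refine ⟨hother _ ?_, hother _ ?_, hother _ ?_, hother _ ?_⟩
    · obtain ⟨t, ht⟩ := o1 l
      refine ⟨t, fun u => ?_⟩
      simp only [map_sub, map_add, map_mul, map_pow, map_ofNat, hγvar]
      exact ht u
    · obtain ⟨t, ht⟩ := o2 l
      refine ⟨t, fun u => ?_⟩
      simp only [map_sub, map_add, map_mul, map_pow, map_ofNat, hγvar]
      exact ht u
    · obtain ⟨t, ht⟩ := o3 l
      refine ⟨t, fun u => ?_⟩
      simp only [map_sub, map_add, map_mul, map_pow, map_ofNat, hγvar]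
      exact ht u
    · obtain ⟨t, ht⟩ := o4 l
      refine ⟨t, fun u => ?_⟩
      simp only [map_sub, map_add, map_mul, map_pow, map_ofNat, hγvar]
      exact ht u
  · change I0 ≤ Ideal.span {ρ (γ (var 𝒪 (.inl 0))), ρ (γ (var 𝒪 (.inl 1))),
      ρ (γ (var 𝒪 (.inl 2)))}
    rw [hγvar, hγvar, hγvar]
    exact hI0

end level

end Fermat.Agent.IH
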