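import Fermat.Agent.IH.PairLimit

/-!
# Patching a pair of modules and Ihara avoidance: existence of an unramified point (matrix form)
-/

set_option autoImplicit false

open Filter IsLocalRing Fermat.Agent.RT.ULim MvPowerSeries
open scoped Pointwise

namespace Fermat.Agent.IH

section DVR

variable {𝒪 : Type} [CommRing 𝒪] [IsDomain 𝒪] [IsDiscreteValuationRing 𝒪]

theorem exists_dvd_pow {ϖ : 𝒪} (hϖ : Prime ϖ) (T : Finset 𝒪) (hT : ∀ δ ∈ T, δ ≠ 0) :
    ∃ e : ℕ, ∀ δ ∈ T, δ ∣ ϖ ^ e := by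
  classical
  have h0 : ∏ δ ∈ T, δ ≠ 0 := Finset.prod_ne_zero_iff.mpr hT
  obtain ⟨e, he⟩ := IsDiscreteValuationRing.associated_pow_irreducible h0 hϖ.irreducible
  exact ⟨e, fun δ hδ => (Finset.dvd_prod_of_mem (fun x => x) hδ).trans he.dvd⟩

end DVR

section main

variable {𝒪 : Type} [CommRing 𝒪] [IsDomain 𝒪] [IsDiscreteValuationRing 𝒪]
    [IsAdicComplete (maximalIdeal 𝒪) 𝒪] [Finite (ResidueField 𝒪)]
    {r : ℕ} {PP : Type} [CommRing PP] [IsLocalRing PP] [IsNoetherianRing PP] [Algebra 𝒪 PP]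

omit [IsDomain 𝒪] [IsDiscreteValuationRing 𝒪] [IsAdicComplete (maximalIdeal 𝒪) 𝒪]
  [Finite (ResidueField 𝒪)] in
/-- The limit of algebra homs. -/
theorem exists_algHom_lim {A B : Type} [CommRing A] [Algebra 𝒪 A] [CommRing B] [Algebra 𝒪 B]
    {𝓤 : Ultrafilter ℕ} {I : Ideal B} (hB : HasULim 𝓤 I) (hH : UHaus I) (φ : ℕ → A →ₐ[𝒪] B) :
    ∃ φ' : A →ₐ[𝒪] B, ∀ s, TendsU 𝓤 I (fun n => φ n s) (φ' s) := by
  choose L hL using fun s : A => hB (fun n => φ n s)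
  exact ⟨{
    toFun := L
    map_one' := (hL 1).unique hH (by simpa using TendsU.const _)
    map_zero' := (hL 0).unique hH (by simpa using TendsU.const _)
    map_mul' := fun s t => (hL (s * t)).unique hH (by simpa using (hL s).mul (hL t))
    map_add' := fun s t => (hL (s + t)).unique hH (by simpa using (hL s).add (hL t))
    commutes' := fun a => (hL _).unique hH (by simpa using! TendsU.const (algebraMap 𝒪 B a)) }, hL⟩

theorem exists_point (𝓤 : Ultrafilter ℕ) (hPP : HasULim 𝓤 (maximalIdeal PP))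
    (J : ℕ → Ideal (MvPowerSeries (Fin r) 𝒪))
    (hJ : ∀ k, ∀ᶠ n in (𝓤 : Filter ℕ), J n ≤ maximalIdeal (MvPowerSeries (Fin r) 𝒪) ^ k)
    (φ : ℕ → MvPowerSeries (Fin r) 𝒪 →ₐ[𝒪] PP)
    {d : ℕ} (hd : 0 < d)
    (c1 cχ : ∀ n, PP →+* Matrix (Fin d) (Fin d) (MvPowerSeries (Fin r) 𝒪 ⧸ J n))
    (hc1 : ∀ n s, c1 n (φ n s) = Matrix.scalar (Fin d) (Ideal.Quotient.mk (J n) s))
    (hcχ : ∀ n s, cχ n (φ n s) = Matrix.scalar (Fin d) (Ideal.Quotient.mk (J n) s))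
    (ϖ : 𝒪) (hϖ : Prime ϖ)
    (hcong : ∀ n f i j, c1 n f i j - cχ n f i j ∈
      (Ideal.span {(C ϖ : MvPowerSeries (Fin r) 𝒪)}).map (Ideal.Quotient.mk (J n)))
    (b c a y z β : PP) (T : Finset 𝒪) (hT : ∀ δ ∈ T, δ ≠ 0) (ε : 𝒪) (hε : ϖ ∣ ε)
    (r1 : ∀ n, cχ n (b * z - c * y) = 0) (r2 : ∀ n, cχ n (b * β - a * y) = 0)
    (r3 : ∀ n, cχ n (c * β - a * z) = 0)
    (r4 : ∀ n, cχ n (∏ δ ∈ T, (a ^ 2 + 4 * b * c - algebraMap 𝒪 PP δ)) = 0)
    (sb : ∀ n, c1 n ((β ^ 2 + 4 * y * z - algebraMap 𝒪 PP ε) * b) = 0)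
    (sc : ∀ n, c1 n ((β ^ 2 + 4 * y * z - algebraMap 𝒪 PP ε) * c) = 0)
    (sa : ∀ n, c1 n ((β ^ 2 + 4 * y * z - algebraMap 𝒪 PP ε) * a) = 0)
    (hb : b ∈ maximalIdeal PP) (hc : c ∈ maximalIdeal PP) (ha : a ∈ maximalIdeal PP)
    (hy : y ∈ maximalIdeal PP) (hz : z ∈ maximalIdeal PP)
    (E : Finset PP) (hE : ∀ x ∈ E, x ∈ maximalIdeal PP) (hEcard : E.card + 3 ≤ r)
    (rel : Set PP) (hrel : ∀ f ∈ rel, ∀ n, ∃ t : PP, cχ n (f - algebraMap 𝒪 PP ϖ * t) = 0)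
    (hmax : ∀ 𝔓 : Ideal PP, 𝔓.IsPrime → algebraMap 𝒪 PP ϖ ∈ 𝔓 → rel ⊆ 𝔓 → b ∈ 𝔓 → c ∈ 𝔓 →
      a ∈ 𝔓 → y ∈ 𝔓 → z ∈ 𝔓 → β ∈ 𝔓 → (∀ x ∈ E, x ∈ 𝔓) → maximalIdeal PP ≤ 𝔓)
    {R0 : Type} [CommRing R0] [Algebra 𝒪 R0] [Module.Finite 𝒪 R0]
    (A0 : R0 →+* Matrix (Fin d) (Fin d) 𝒪)
    (hA0𝒪 : ∀ a, A0 (algebraMap 𝒪 R0 a) = Matrix.scalar (Fin d) a)
    (ρ : ℕ → PP →ₐ[𝒪] R0)
    (hρ : ∀ n f i j s, Ideal.Quotient.mk (J n) s = c1 n f i j →
      constantCoeff s = A0 (ρ n f) i j)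
    (I0 : Ideal R0) (hI0 : ∀ n, I0 ≤ Ideal.span {ρ n b, ρ n c, ρ n a}) :
    ∃ Q : Ideal R0, Q.IsPrime ∧ Q.comap (algebraMap 𝒪 R0) = ⊥ ∧ I0 ≤ Q := by
  classical
  have h𝒪 : HasULim 𝓤 (maximalIdeal 𝒪) := hasULim_maximalIdeal
  have hS : HasULim 𝓤 (maximalIdeal (MvPowerSeries (Fin r) 𝒪)) := hasULim_mvPowerSeries h𝒪
  have hPPH : UHaus (maximalIdeal PP) := uHaus_maximalIdeal
  have h𝒪H : UHaus (maximalIdeal 𝒪) := uHaus_maximalIdeal
  -- limits
  obtain ⟨φ', hφ'⟩ := exists_algHom_lim (𝓤 := 𝓤) hPP hPPH φ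
  obtain ⟨k1, hk1⟩ := exists_clim hS hJ c1
  obtain ⟨kχ, hkχ⟩ := exists_clim hS hJ cχ
  have hscal : ∀ (e : ∀ n, PP →+* Matrix (Fin d) (Fin d) (MvPowerSeries (Fin r) 𝒪 ⧸ J n))
      (e' : PP →+* Matrix (Fin d) (Fin d) (MvPowerSeries (Fin r) 𝒪))
      (_ : ∀ n s, e n (φ n s) = Matrix.scalar (Fin d) (Ideal.Quotient.mk (J n) s))
      (_ : ∀ f i j, TQ 𝓤 J (fun n => e n f i j) (e' f i j)) (s : MvPowerSeries (Fin r) 𝒪),
      e' (φ' s) = Matrix.scalar (Fin d) s := by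
    intro e e' he he' s
    ext1 i j
    refine TQ.unique hJ (he' (φ' s) i j) ?_
    have h1 : TendsU 𝓤 (maximalIdeal PP) (fun n => φ' s - φ n s) 0 := by
      have := (TendsU.const (φ' s)).sub (hφ' s)
      rwa [sub_self] at this
    have h2 := TQ.cont hJ e h1 i j
    have h3 : TQ 𝓤 J (fun n => Ideal.Quotient.mk (J n) ((Matrix.scalar (Fin d) s) i j))
      ((Matrix.scalar (Fin d) s) i j) := TQ.const _
    have h4 := h3.add h2
    rw [add_zero] at h4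
    refine h4.congr fun n => ?_
    have h5 : φ' s = φ n s + (φ' s - φ n s) := by ring
    conv_rhs => rw [h5]
    rw [map_add, he n s, Matrix.add_apply]
    congr 1
    rw [Matrix.scalar_apply, Matrix.scalar_apply, Matrix.diagonal_apply, Matrix.diagonal_apply]
    split_ifs <;> simp
  let algS : Algebra (MvPowerSeries (Fin r) 𝒪) PP := φ'.toRingHom.toAlgebra
  have halgS : ∀ s, algebraMap (MvPowerSeries (Fin r) 𝒪) PP s = φ' s := fun s => rfl
  have halgC : ∀ o : 𝒪, algebraMap (MvPowerSeries (Fin r) 𝒪) PP (C o) = algebraMap 𝒪 PP o := by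
    intro o
    rw [halgS]
    exact φ'.commutes o
  have hs1 : ∀ s, k1 (algebraMap (MvPowerSeries (Fin r) 𝒪) PP s) = Matrix.scalar (Fin d) s :=
    fun s => hscal c1 k1 hc1 hk1 s
  have hsχ : ∀ s, kχ (algebraMap (MvPowerSeries (Fin r) 𝒪) PP s) = Matrix.scalar (Fin d) s :=
    fun s => hscal cχ kχ hcχ hkχ s
  have htow1 := MV.isScalarTower k1 hs1
  have htowχ := MV.isScalarTower kχ hsχ
  have hcong' : ∀ f i j, k1 f i j - kχ f i j ∈
      Ideal.span {(C ϖ : MvPowerSeries (Fin r) 𝒪)} := by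
    intro f i j
    exact TQ.mem_of_forall _ hJ ((hk1 f i j).sub (hkχ f i j)) (fun n => hcong n f i j)
  obtain ⟨iso⟩ := MV.exists_iso k1 kχ hs1 hsχ (C ϖ) hcong'
  -- relations pass to the limit
  have hzero : ∀ (e : ∀ n, PP →+* Matrix (Fin d) (Fin d) (MvPowerSeries (Fin r) 𝒪 ⧸ J n))
      (e' : PP →+* Matrix (Fin d) (Fin d) (MvPowerSeries (Fin r) 𝒪))
      (_ : ∀ f i j, TQ 𝓤 J (fun n => e n f i j) (e' f i j)) (f : PP),
      (∀ n, e n f = 0) → f ∈ Module.annihilator PP (MV e') := by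
    intro e e' he' f hf
    rw [MV.mem_annihilator_iff]
    ext1 i j
    refine TQ.unique hJ (he' f i j) ?_
    refine (TQ.const (0 : MvPowerSeries (Fin r) 𝒪)).congr fun n => ?_
    rw [hf n, map_zero, Matrix.zero_apply]
  have hrel' : ∀ f ∈ rel, ∃ t : PP,
      f - algebraMap 𝒪 PP ϖ * t ∈ Module.annihilator PP (MV kχ) := by
    intro f hf
    choose t ht using hrel f hf
    obtain ⟨t', ht'⟩ := hPP t
    refine ⟨t', ?_⟩
    rw [MV.mem_annihilator_iff]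
    ext1 i j
    refine TQ.unique hJ (hkχ _ i j) ?_
    have h1 : TendsU 𝓤 (maximalIdeal PP)
        (fun n => (f - algebraMap 𝒪 PP ϖ * t') - (f - algebraMap 𝒪 PP ϖ * t n)) 0 := by
      have h2 := (TendsU.const (algebraMap 𝒪 PP ϖ)).mul (ht'.sub (TendsU.const t'))
      rw [sub_self, mul_zero] at h2
      refine h2.congr fun k => Eventually.of_forall fun n => ?_
      have h3 : algebraMap 𝒪 PP ϖ * (t n - t') -
          (f - algebraMap 𝒪 PP ϖ * t' - (f - algebraMap 𝒪 PP ϖ * t n)) = 0 := by ring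
      rw [h3]
      exact zero_mem _
    have h2 := TQ.cont hJ cχ h1 i j
    rw [Matrix.zero_apply]
    refine h2.congr fun n => ?_
    rw [map_sub, ht n, sub_zero]
  -- nontriviality
  have hnt : Nontrivial (MV kχ) := by
    have : Nonempty (Fin d) := ⟨⟨0, hd⟩⟩
    exact inferInstanceAs (Nontrivial (Fin d → MvPowerSeries (Fin r) 𝒪))
  have hϖS : Prime (C ϖ : MvPowerSeries (Fin r) 𝒪) := Dims.prime_C hϖ
  obtain ⟨e, he⟩ := exists_dvd_pow hϖ T hT
  have hdomS : IsDomain (MvPowerSeries (Fin r) 𝒪) := NoZeroDivisors.to_isDomain _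
  have hCinj : Function.Injective (C : 𝒪 →+* MvPowerSeries (Fin r) 𝒪) := by
    intro x y hxy
    have := congrArg constantCoeff hxy
    simpa using this
  have hT' : ∀ δ ∈ T.map ⟨C, hCinj⟩, δ ∣ (C ϖ : MvPowerSeries (Fin r) 𝒪) ^ e := by
    intro δ hδ
    obtain ⟨δ', hδ', rfl⟩ := Finset.mem_map.mp hδ
    have h1 := map_dvd (C : 𝒪 →+* MvPowerSeries (Fin r) 𝒪) (he δ' hδ')
    rw [map_pow] at h1
    exact h1
  have hprod : ∏ δ ∈ T.map ⟨C, hCinj⟩,
      (a ^ 2 + 4 * b * c - algebraMap (MvPowerSeries (Fin r) 𝒪) PP δ) =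
      ∏ δ ∈ T, (a ^ 2 + 4 * b * c - algebraMap 𝒪 PP δ) := by
    rw [Finset.prod_map]
    refine Finset.prod_congr rfl fun δ _ => ?_
    rw [← halgC]
    rfl
  obtain ⟨P', hP', hbP', hcP', haP'⟩ := avoid (S := MvPowerSeries (Fin r) 𝒪) (PP := PP) (C ϖ) hϖS
    (Mχ := MV kχ) (M1 := MV k1) iso b c a y z β (T.map ⟨C, hCinj⟩) (C ε) e hT' (map_dvd C hε)
    (hzero cχ kχ hkχ _ r1) (hzero cχ kχ hkχ _ r2) (hzero cχ kχ hkχ _ r3)
    (by rw [hprod]; exact hzero cχ kχ hkχ _ r4)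
    (by rw [halgC]; exact hzero c1 k1 hk1 _ sb) (by rw [halgC]; exact hzero c1 k1 hk1 _ sc)
    (by rw [halgC]; exact hzero c1 k1 hk1 _ sa)
    hb hc ha hy hz E hE (Module.annihilator PP (MV kχ)) le_rfl
    (by
      intro 𝔓 h𝔓 hJ𝔓 hϖ𝔓 h1 h2 h3 h4 h5 h6 h7
      rw [halgC] at hϖ𝔓
      refine hmax 𝔓 h𝔓 hϖ𝔓 ?_ h1 h2 h3 h4 h5 h6 h7
      intro f hf
      obtain ⟨t, ht⟩ := hrel' f hf
      have h8 := 𝔓.add_mem (hJ𝔓 ht) (𝔓.mul_mem_right t hϖ𝔓)
      rwa [sub_add_cancel] at h8)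
    (lt_of_le_of_lt (by exact_mod_cast hEcard) (Dims.lt_ringKrullDim r))
    (lt_of_lt_of_le (by exact_mod_cast (by omega : E.card + 2 < r)) (Dims.le_ringKrullDim_quot hϖ r))
  -- specialise at the augmentation ideal
  have hkp : (RingHom.ker (constantCoeff : MvPowerSeries (Fin r) 𝒪 →+* 𝒪)).IsPrime :=
    RingHom.ker_isPrime _
  obtain ⟨P'', hle, hcomap, hsupp⟩ := exists_specialisation (S := MvPowerSeries (Fin r) 𝒪)
    (M1 := MV k1) hP' (RingHom.ker (constantCoeff : MvPowerSeries (Fin r) 𝒪 →+* 𝒪))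
  -- the limit of `ρ`
  have hR0H : UHaus ((maximalIdeal 𝒪).map (algebraMap 𝒪 R0)) := by
    intro x hx
    have := mem_ideal_of_forall (𝒪 := 𝒪) (⊥ : Ideal R0) x (fun k => by
      rw [bot_sup_eq]; exact hx k)
    exact this
  obtain ⟨ρ', hρ'⟩ := exists_algHom_lim (𝓤 := 𝓤) (hasULim_of_finite (R0 := R0) h𝒪) hR0H ρ
  have hloc : IsLocalHom (constantCoeff : MvPowerSeries (Fin r) 𝒪 →+* 𝒪) :=
    ⟨fun f hf => isUnit_iff_constantCoeff.mpr hf⟩
  have hA : ∀ f i j, constantCoeff (k1 f i j) = A0 (ρ' f) i j := by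
    intro f i j
    have h1 : TendsU 𝓤 (maximalIdeal 𝒪) (fun n => A0 (ρ n f) i j) (constantCoeff (k1 f i j)) :=
      TQ.map constantCoeff (hk1 f i j) _ (fun n s hs => hρ n f i j s hs)
    have h2 : TendsU 𝓤 (maximalIdeal 𝒪) (fun n => A0 (ρ n f) i j) (A0 (ρ' f) i j) := by
      intro k
      filter_upwards [hρ' f k] with n hn
      rw [mem_map_pow_iff] at hn
      have h3 : A0 (ρ n f) i j - A0 (ρ' f) i j = A0 (ρ n f - ρ' f) i j := by
        rw [map_sub, Matrix.sub_apply]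
      rw [h3]
      generalize ρ n f - ρ' f = x at hn
      induction hn using Submodule.smul_induction_on' with
      | smul o ho x _ =>
        rw [Algebra.smul_def, map_mul, hA0𝒪, Matrix.scalar_apply, Matrix.diagonal_mul]
        exact Ideal.mul_mem_right _ _ ho
      | add x _ y _ hx hy =>
        rw [map_add, Matrix.add_apply]
        exact add_mem hx hy
    exact h1.unique h𝒪H h2
  -- `ker ρ' ≤ P''`
  have hkerρ : RingHom.ker ρ'.toRingHom ≤ P''.asIdeal := by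
    have hfin1 : Module.Finite PP (MV k1) :=
      Module.Finite.of_restrictScalars_finite (MvPowerSeries (Fin r) 𝒪) PP (MV k1)
    rw [Module.mem_support_iff_of_finite] at hsupp
    intro f hf
    apply hsupp
    rw [Module.mem_annihilator]
    intro q
    obtain ⟨v, rfl⟩ := Submodule.Quotient.mk_surjective _ q
    rw [← Submodule.Quotient.mk_smul, Submodule.Quotient.mk_eq_zero]
    have hf' : ρ' f = 0 := hf
    have hker : ∀ i j, k1 f i j ∈
        RingHom.ker (constantCoeff : MvPowerSeries (Fin r) 𝒪 →+* 𝒪) := by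
      intro i j
      rw [RingHom.mem_ker, hA, hf', map_zero, Matrix.zero_apply]
    let E1 : Fin d → MV k1 := fun i => (Pi.single i 1 : Fin d → MvPowerSeries (Fin r) 𝒪)
    have hv : f • v = ∑ i, (∑ j, k1 f i j * (show Fin d → MvPowerSeries (Fin r) 𝒪 from v) j) •
        E1 i := by
      have h1 : ∀ w : Fin d → MvPowerSeries (Fin r) 𝒪, w = ∑ i, w i •
          (Pi.single i 1 : Fin d → MvPowerSeries (Fin r) 𝒪) := by
        intro w
        ext1 i
        simp [Finset.sum_apply, Pi.single_apply]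
      exact h1 _
    rw [hv]
    refine Submodule.sum_mem _ fun i _ => ?_
    have h2 : ∑ j, k1 f i j * (show Fin d → MvPowerSeries (Fin r) 𝒪 from v) j ∈
        RingHom.ker (constantCoeff : MvPowerSeries (Fin r) 𝒪 →+* 𝒪) :=
      Ideal.sum_mem _ fun j _ => Ideal.mul_mem_right _ _ (hker i j)
    generalize ∑ j, k1 f i j * (show Fin d → MvPowerSeries (Fin r) 𝒪 from v) j = s at h2
    have h3 : s • E1 i = (algebraMap (MvPowerSeries (Fin r) 𝒪) PP s) • E1 i :=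
      (algebraMap_smul PP s (E1 i)).symm
    rw [h3]
    exact Submodule.smul_mem_smul (Ideal.mem_map_of_mem _ h2) trivial
  -- lying over
  let algPR : Algebra PP R0 := ρ'.toRingHom.toAlgebra
  have htow : IsScalarTower 𝒪 PP R0 := IsScalarTower.of_algebraMap_eq fun o => (ρ'.commutes o).symm
  have hint : Algebra.IsIntegral 𝒪 R0 := inferInstance
  have hint' : Algebra.IsIntegral PP R0 := Algebra.IsIntegral.tower_top 𝒪
  obtain ⟨Q, -, hQ, hQ'⟩ := Ideal.exists_ideal_over_prime_of_isIntegral P''.asIdeal (⊥ : Ideal R0)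
    (by
      intro f hf
      exact hkerρ hf)
  refine ⟨Q, hQ, ?_, ?_⟩
  · rw [eq_bot_iff]
    intro o ho
    have h1 : algebraMap 𝒪 PP o ∈ P''.asIdeal := by
      rw [← hQ', Ideal.mem_comap, ← IsScalarTower.algebraMap_apply]
      exact ho
    rw [← halgC] at h1
    have h2 : C o ∈ P''.asIdeal.comap (algebraMap (MvPowerSeries (Fin r) 𝒪) PP) := h1
    rw [hcomap, RingHom.mem_ker, constantCoeff_C] at h2
    rw [h2]
    exact zero_mem _
  · have hmem : ∀ f : PP, f ∈ P''.asIdeal → ρ' f ∈ Q := by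
      intro f hf
      rw [← hQ'] at hf
      exact hf
    intro x hx
    have h1 : x ∈ Ideal.span {ρ' b, ρ' c, ρ' a} := by
      apply mem_ideal_of_forall (𝒪 := 𝒪)
      intro k
      obtain ⟨n, ⟨h1, h2⟩, h3⟩ := (((hρ' b k).and (hρ' c k)).and (hρ' a k)).exists
      have h4 : Ideal.span {ρ n b, ρ n c, ρ n a} ≤
          Ideal.span {ρ' b, ρ' c, ρ' a} ⊔ ((maximalIdeal 𝒪).map (algebraMap 𝒪 R0)) ^ k := by
        rw [Ideal.span_le]
        have key : ∀ f : PP, ρ n f - ρ' f ∈ ((maximalIdeal 𝒪).map (algebraMap 𝒪 R0)) ^ k →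
            ρ' f ∈ Ideal.span {ρ' b, ρ' c, ρ' a} →
            ρ n f ∈ Ideal.span {ρ' b, ρ' c, ρ' a} ⊔
              ((maximalIdeal 𝒪).map (algebraMap 𝒪 R0)) ^ k := by
          intro f hf hf'
          have h5 := add_mem (Ideal.mem_sup_left hf')
            (Ideal.mem_sup_right (S := Ideal.span {ρ' b, ρ' c, ρ' a}) hf)
          rwa [add_sub_cancel] at h5
        rintro g (rfl | rfl | rfl)
        · exact key _ h1 (Ideal.subset_span (by simp))
        · exact key _ h2 (Ideal.subset_span (by simp))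
        · exact key _ h3 (Ideal.subset_span (by simp))
      exact h4 (hI0 n hx)
    have h2 : Ideal.span {ρ' b, ρ' c, ρ' a} ≤ Q := by
      rw [Ideal.span_le]
      rintro g (rfl | rfl | rfl)
      · exact hmem _ (hle hbP')
      · exact hmem _ (hle hcP')
      · exact hmem _ (hle haP')
    exact h2 h1

end main

end Fermat.Agent.IH
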